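import Fermat.Agent.LowerAtP.LocalSetting
import Mathlib.AlgebraicGeometry.EllipticCurve.Affine.Point
import Mathlib.Algebra.Algebra.Rat
import Mathlib.Data.ZMod.Basic

/-!
# The local setting: integers, `μ_p` and base change of an integral Weierstrass curve

In a `LocalSetting` the automorphisms act transitively on the primitive `p`-th roots of unity and
an element fixed by the stabiliser of `ζ` has the size of a power of `ζ - 1`.
-/

set_option autoImplicit false

noncomputable section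

namespace Fermat.Agent.LowerAtP

open WeierstrassCurve
open scoped WeierstrassCurve.Affine

variable {K Ω : Type} [Field K] [Field Ω] [Algebra K Ω] {A : ValuationSubring Ω} {p : ℕ}

local notation "v" => ValuationSubring.valuation A

/-- The residue field of a valuation subring of an algebraically closed field is algebraically
closed. -/
theorem isAlgClosed_residue [IsAlgClosed Ω] (A : ValuationSubring Ω) :
    IsAlgClosed (IsLocalRing.ResidueField A) := by
  refine IsAlgClosed.of_exists_root _ fun f hf hirr => ?_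
  obtain ⟨P, hP, hdeg, hmonic⟩ := Polynomial.lifts_and_degree_eq_and_monic
    ((Polynomial.lifts_iff_coeff_lifts _).mpr fun n => IsLocalRing.residue_surjective (R := A) _) hf
  have hP0 : P.degree ≠ 0 := by
    rw [hdeg]; exact hirr.degree_pos.ne'
  obtain ⟨x, hx⟩ := IsAlgClosed.exists_root (P.map A.subtype)
    (by rwa [Polynomial.degree_map_eq_of_injective A.subtype_injective])
  have hxint : IsIntegral A x := ⟨P, hmonic, by
    rwa [Polynomial.IsRoot.def, Polynomial.eval_map] at hx⟩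
  obtain ⟨y, rfl⟩ := IsIntegrallyClosed.algebraMap_eq_of_integral (K := Ω) hxint
  refine ⟨IsLocalRing.residue A y, ?_⟩
  have hy : P.IsRoot y := hx.of_map A.subtype_injective
  rw [← Polynomial.IsRoot.def, ← hP]
  exact hy.map

/-- An automorphism over `K`, over `ℚ`. -/
def ratAut [CharZero Ω] (σ : Ω ≃ₐ[K] Ω) : Ω ≃ₐ[ℚ] Ω :=
  AlgEquiv.ofRingEquiv (f := σ.toRingEquiv) fun q => by simp

/-- `ratAut σ` acts as `σ`. -/
@[simp] lemma ratAut_apply [CharZero Ω] (σ : Ω ≃ₐ[K] Ω) (x : Ω) : ratAut σ x = σ x := rfl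

/-- An integral Weierstrass curve over `Ω`. -/
abbrev curveOver (Ω : Type) [Field Ω] [CharZero Ω] (W : WeierstrassCurve ℤ) :
    WeierstrassCurve.Affine Ω :=
  (W.map (Int.castRingHom ℚ))⁄Ω

/-- The base change is the coefficientwise cast. -/
lemma curveOver_eq [CharZero Ω] (W : WeierstrassCurve ℤ) :
    curveOver Ω W = W.map (Int.castRingHom Ω) := by
  show (W.map (Int.castRingHom ℚ)).map (algebraMap ℚ Ω) = W.map (Int.castRingHom Ω)
  rw [WeierstrassCurve.map_map]
  exact congrArg W.map (RingHom.ext_int _ _)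

/-- The coefficients of the base change. -/
lemma curveOver_coeff [CharZero Ω] (W : WeierstrassCurve ℤ) :
    (curveOver Ω W).a₁ = (W.a₁ : Ω) ∧ (curveOver Ω W).a₂ = (W.a₂ : Ω) ∧
    (curveOver Ω W).a₃ = (W.a₃ : Ω) ∧ (curveOver Ω W).a₄ = (W.a₄ : Ω) ∧
    (curveOver Ω W).a₆ = (W.a₆ : Ω) := by
  rw [curveOver_eq]
  exact ⟨rfl, rfl, rfl, rfl, rfl⟩

/-- Integers are integral. -/
lemma valuation_intCast_le (n : ℤ) : v (n : Ω) ≤ 1 :=
  (A.valuation_le_one_iff _).mpr (intCast_mem A n)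

namespace LocalSetting

variable (S : LocalSetting K A p)

include S

omit S in
/-- Multiples of `p` have size at most `|p|`. -/
lemma val_intCast_of_dvd {n : ℤ} (h : (p : ℤ) ∣ n) : v (n : Ω) ≤ v (p : Ω) := by
  obtain ⟨c, rfl⟩ := h
  push_cast
  rw [map_mul]
  exact mul_le_of_le_one_right' (valuation_intCast_le c)

/-- Integers prime to `p` are units. -/
lemma val_intCast_eq_one {n : ℤ} (h : ¬ (p : ℤ) ∣ n) : v (n : Ω) = 1 := by
  refine le_antisymm (valuation_intCast_le n) (not_lt.mp fun hlt => ?_)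
  obtain ⟨a, b, hab⟩ := ((Nat.prime_iff_prime_int.mp S.prime).coprime_iff_not_dvd).mpr h
  have h1 : (1 : Ω) = (a : Ω) * (p : Ω) + (b : Ω) * (n : Ω) := by
    simpa using congrArg (Int.cast (R := Ω)) hab.symm
  have := congrArg A.valuation h1
  rw [map_one] at this
  refine lt_irrefl (1 : A.ValueGroup) (this.le.trans_lt (Valuation.map_add_lt _ ?_ ?_))
  · rw [map_mul]; exact mul_lt_one_of_nonneg_of_lt_one_right (valuation_intCast_le a) zero_le S.lt_one
  · rw [map_mul]; exact mul_lt_one_of_nonneg_of_lt_one_right (valuation_intCast_le b) zero_le hlt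

/-- An integer reducing to zero is divisible by `p`. -/
lemma dvd_of_res_eq_zero {n : ℤ} (h : (n : IsLocalRing.ResidueField A) = 0) : (p : ℤ) ∣ n := by
  by_contra hn
  rw [← Multiplicative.res_intCast,
    Multiplicative.res_eq_zero_iff (valuation_intCast_le n), S.val_intCast_eq_one hn] at h
  exact lt_irrefl _ h

variable [Fact p.Prime] {ζ : Ω} (hζ : IsPrimitiveRoot ζ p)

include hζ

omit S in
/-- The exponent of a power of `ζ` is determined modulo `p`. -/
lemma val_inj {i j : ZMod p} (h : ζ ^ i.val = ζ ^ j.val) : i = j :=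
  ZMod.val_injective p (hζ.pow_inj (ZMod.val_lt i) (ZMod.val_lt j) h)

omit S in
/-- An automorphism multiplies exponents of `ζ` by its character value. -/
lemma act_pow {σ : Ω ≃ₐ[K] Ω} {i : ZMod p} (hi : σ ζ = ζ ^ i.val) (j : ZMod p) :
    σ (ζ ^ j.val) = ζ ^ (i * j).val := by
  rw [map_pow, hi, ← pow_mul, ZMod.val_mul]
  exact pow_eq_pow_mod _ hζ.pow_eq_one

/-- The automorphisms act transitively on the primitive `p`-th roots of unity. -/
lemma exists_act_root {i : ZMod p} (hi : i ≠ 0) : ∃ σ : Ω ≃ₐ[K] Ω, σ ζ = ζ ^ i.val := by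
  classical
  set R : Finset (ZMod p) :=
    Finset.univ.filter fun s => ∃ σ : Ω ≃ₐ[K] Ω, σ ζ = ζ ^ s.val with hR
  have hmem : ∀ {s}, s ∈ R ↔ ∃ σ : Ω ≃ₐ[K] Ω, σ ζ = ζ ^ s.val := by simp [hR]
  suffices hall : Finset.univ.erase (0 : ZMod p) ⊆ R from
    hmem.mp (hall (Finset.mem_erase.mpr ⟨hi, Finset.mem_univ _⟩))
  have hne : ∀ s ∈ R, s ≠ 0 := fun s hs h => by
    obtain ⟨σ, hσ⟩ := hmem.mp hs
    rw [h, ZMod.val_zero, pow_zero] at hσ
    exact hζ.ne_one S.prime.one_lt (σ.injective (by rw [hσ, map_one]))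
  have hsub : R ⊆ Finset.univ.erase (0 : ZMod p) := fun s hs =>
    Finset.mem_erase.mpr ⟨hne s hs, Finset.mem_univ _⟩
  have hcardU : (Finset.univ.erase (0 : ZMod p)).card = p - 1 := by
    rw [Finset.card_erase_of_mem (Finset.mem_univ _), Finset.card_univ, ZMod.card]
  have hone : (1 : ZMod p) ∈ R := hmem.mpr ⟨1, by rw [ZMod.val_one, pow_one]; rfl⟩
  set N : Ω := ∏ s ∈ R, (ζ ^ s.val - 1) with hN
  obtain ⟨c, hc⟩ := S.fixed N fun σ => by
    obtain ⟨n, hn0, hn⟩ := S.exists_exponent hζ σ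
    have hperm : R.image (fun s => n * s) = R := by
      refine Finset.eq_of_subset_of_card_le (fun t ht => ?_) (le_of_eq
        (Finset.card_image_of_injective _ (mul_right_injective₀ hn0)).symm)
      obtain ⟨s, hs, rfl⟩ := Finset.mem_image.mp ht
      obtain ⟨τ, hτ⟩ := hmem.mp hs
      exact hmem.mpr ⟨σ * τ, by rw [AlgEquiv.mul_apply, hτ, act_pow hζ hn]⟩
    rw [hN, map_prod]
    conv_rhs => rw [← hperm]
    rw [Finset.prod_image fun _ _ _ _ h => mul_left_cancel₀ hn0 h]
    exact Finset.prod_congr rfl fun s _ => by rw [map_sub, map_one, act_pow hζ hn]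
  have hvs : ∀ s ∈ R, v (ζ ^ s.val - 1) = v (ζ - 1) := fun s hs =>
    S.v_pow_sub_one hζ fun h => hne s hs ((ZMod.val_eq_zero s).mp
      (Nat.eq_zero_of_dvd_of_lt h (ZMod.val_lt s)))
  have hvN : v N = v (ζ - 1) ^ R.card := by
    rw [hN, map_prod, Finset.prod_congr rfl hvs, Finset.prod_const]
  have hpos := S.v_root_sub_one_pos hζ
  have hc0 : c ≠ 0 := fun h => by
    rw [← hc, h, map_zero, map_zero] at hvN
    exact (pow_pos hpos _).ne hvN
  obtain ⟨m, hm⟩ := S.base c hc0
  rw [hc, hvN] at hm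
  have h1 : v (p : Ω) ^ (R.card : ℤ) = v (p : Ω) ^ (m * (p - 1 : ℕ)) := by
    rw [zpow_natCast, zpow_mul, zpow_natCast, ← hm, ← (S.root_sub_one hζ).1, ← pow_mul, ← pow_mul,
      mul_comm]
  have h2 := S.zpow_inj h1
  have hR1 : 0 < R.card := Finset.card_pos.mpr ⟨1, hone⟩
  have hR2 : R.card ≤ p - 1 := hcardU ▸ Finset.card_le_card hsub
  have h3 : p - 1 ≤ R.card := Nat.le_of_dvd hR1 (Int.natCast_dvd_natCast.mp ⟨m, by rw [h2]; ring⟩)
  exact (Finset.eq_of_subset_of_card_le hsub (hcardU ▸ h3)).ge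

/-- An element fixed by the stabiliser of `ζ` has the size of a power of `ζ - 1`. -/
lemma exists_zpow_of_fixed {y : Ω} (hy0 : y ≠ 0) (hy : ∀ σ : Ω ≃ₐ[K] Ω, σ ζ = ζ → σ y = y) :
    ∃ m : ℤ, v y = v (ζ - 1) ^ m := by
  classical
  choose! sec hsec using fun i (hi : i ≠ (0 : ZMod p)) => S.exists_act_root hζ hi
  set N : Ω := ∏ s ∈ Finset.univ.erase (0 : ZMod p), sec s y with hN
  obtain ⟨c, hc⟩ := S.fixed N fun σ => by
    obtain ⟨n, hn0, hn⟩ := S.exists_exponent hζ σ
    rw [hN, map_prod]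
    refine Finset.prod_bij (fun s _ => n * s) (fun s hs => ?_)
      (fun _ _ _ _ h => mul_left_cancel₀ hn0 h) (fun s hs => ⟨n⁻¹ * s, ?_, ?_⟩) fun s hs => ?_
    · exact Finset.mem_erase.mpr
        ⟨mul_ne_zero hn0 (Finset.mem_erase.mp hs).1, Finset.mem_univ _⟩
    · exact Finset.mem_erase.mpr
        ⟨mul_ne_zero (inv_ne_zero hn0) (Finset.mem_erase.mp hs).1, Finset.mem_univ _⟩
    · rw [← mul_assoc, mul_inv_cancel₀ hn0, one_mul]
    have hs0 := (Finset.mem_erase.mp hs).1
    have hτ : ((sec (n * s))⁻¹ * (σ * sec s)) ζ = ζ := by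
      rw [AlgEquiv.mul_apply, AlgEquiv.mul_apply, hsec s hs0, act_pow hζ hn,
        ← hsec _ (mul_ne_zero hn0 hs0), ← AlgEquiv.mul_apply, inv_mul_cancel]
      rfl
    have h := congrArg (sec (n * s)) (hy _ hτ)
    rwa [← AlgEquiv.mul_apply, mul_inv_cancel_left, AlgEquiv.mul_apply] at h
  have hvN : v N = v y ^ (p - 1) := by
    rw [hN, map_prod, Finset.prod_congr rfl fun s _ => S.iso (sec s) y, Finset.prod_const,
      Finset.card_erase_of_mem (Finset.mem_univ _), Finset.card_univ, ZMod.card]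
  have hc0 : c ≠ 0 := fun h => by
    rw [← hc, h, map_zero, map_zero] at hvN
    exact pow_ne_zero _ ((Valuation.ne_zero_iff _).mpr hy0) hvN.symm
  obtain ⟨m, hm⟩ := S.base c hc0
  rw [hc, hvN] at hm
  refine ⟨m, (pow_left_inj₀ zero_le zero_le
    (show p - 1 ≠ 0 by have := S.prime.two_le; omega)).mp ?_⟩
  rw [hm, ← (S.root_sub_one hζ).1, ← zpow_natCast (_ ^ m), ← zpow_mul, mul_comm, zpow_mul,
    zpow_natCast]

end LocalSetting

end Fermat.Agent.LowerAtP
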