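import Fermat.Agent.LowerAtP.GeneralHasse
import Fermat.Agent.LowerAtP.GeneralSetting
import Fermat.Agent.ECReduction.Hom
import Fermat.Prelude.Def_FLTPrelim_Modularity
import Mathlib.FieldTheory.IsAlgClosed.Basic

/-!
# `p`-torsion at a prime of good reduction in a local setting

In the ordinary case some point of order `p` has integral abscissa; in the supersingular case the
parameter of every point of order `p` has size `|p| ^ (1 / (p² - 1))`, so none is fixed by the
stabiliser of `ζ_p`.
-/

set_option autoImplicit false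

noncomputable section

namespace Fermat.Agent.LowerAtP

open WeierstrassCurve WeierstrassCurve.Affine Polynomial
open Fermat.Agent.ECReduction (InKer zParam IntegralCoeffs CurveRed Red)
open Fermat.Agent.Multiplicative (res)
open IsLocalRing (residue ResidueField)
open scoped WeierstrassCurve.Affine

variable {K Ω : Type} [Field K] [Field Ω] [CharZero Ω] [Algebra K Ω] {A : ValuationSubring Ω}
  {p : ℕ} (W : WeierstrassCurve ℤ)

local notation "v" => ValuationSubring.valuation A

omit [CharZero Ω] in
lemma red_intCast (n : ℤ) : Red (residue A) (n : Ω) (n : ResidueField A) :=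
  ⟨intCast_mem A n, map_intCast (residue A) n⟩

/-- The base change reduces to `W` over the residue field. -/
lemma curveRed_curveOver :
    CurveRed (residue A) (curveOver Ω W) (W.map (Int.castRingHom (ResidueField A))) := by
  obtain ⟨h1, h2, h3, h4, h6⟩ := curveOver_coeff (Ω := Ω) W
  exact ⟨h1 ▸ red_intCast _, h2 ▸ red_intCast _, h3 ▸ red_intCast _, h4 ▸ red_intCast _,
    h6 ▸ red_intCast _⟩

/-- The base change has integral coefficients. -/
lemma integralCoeffs_curveOver : IntegralCoeffs A (curveOver Ω W) :=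
  (curveRed_curveOver W).integralCoeffs

lemma preΨ'_curveOver (n : ℕ) :
    (curveOver Ω W).preΨ' n = (W.preΨ' n).map (Int.castRingHom Ω) := by
  rw [← WeierstrassCurve.map_preΨ', ← curveOver_eq]

/-- The action of an automorphism on the points of an integral curve. -/
def actPoint [DecidableEq Ω] (σ : Ω ≃ₐ[K] Ω) :
    (curveOver Ω W).Point →+ (curveOver Ω W).Point :=
  Point.map (ratAut σ).toAlgHom

variable [DecidableEq Ω]

/-- Automorphisms act on coordinates. -/
lemma actPoint_some (σ : Ω ≃ₐ[K] Ω) {x y : Ω} (h : (curveOver Ω W).Nonsingular x y) :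
    ∃ h', actPoint W σ (Point.some x y h) = Point.some (σ x) (σ y) h' :=
  ⟨_, Point.map_some (ratAut σ).toAlgHom h⟩

/-- The parameter at infinity is equivariant. -/
lemma zParam_actPoint (σ : Ω ≃ₐ[K] Ω) (P : (curveOver Ω W).Point) :
    zParam (actPoint W σ P) = σ (zParam P) := by
  match P with
  | .zero => exact ((map_zero σ).symm)
  | .some x y h =>
    obtain ⟨h', e⟩ := actPoint_some W σ h
    rw [e]
    show -σ x / σ y = σ (-x / y)
    rw [map_div₀, map_neg]

namespace LocalSetting

variable (S : LocalSetting K A p)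

include S

omit [CharZero Ω] [DecidableEq Ω] in
/-- At a good prime the reduced discriminant is nonzero. -/
lemma residue_Δ_ne_zero (hgood : ¬ (p : ℤ) ∣ W.Δ) :
    (W.map (Int.castRingHom (ResidueField A))).Δ ≠ 0 := by
  rw [WeierstrassCurve.map_Δ, eq_intCast]
  exact fun h => hgood (S.dvd_of_res_eq_zero h)

omit S [DecidableEq Ω] in
/-- The base change is nonsingular. -/
lemma Δ_curveOver_ne_zero (hgood : ¬ (p : ℤ) ∣ W.Δ) : (curveOver Ω W).Δ ≠ 0 := by
  rw [curveOver_eq, WeierstrassCurve.map_Δ, eq_intCast, Int.cast_ne_zero]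
  exact fun h => hgood (h ▸ dvd_zero _)

/-- Automorphisms preserve the kernel of reduction. -/
lemma inKer_actPoint (σ : Ω ≃ₐ[K] Ω) {P : (curveOver Ω W).Point} (hP : InKer A P) :
    InKer A (actPoint W σ P) := by
  match P with
  | .zero => exact hP
  | .some x y h =>
    obtain ⟨h', e⟩ := actPoint_some W σ h
    rw [e]
    show σ x ∉ A
    rw [← A.valuation_le_one_iff, S.iso, A.valuation_le_one_iff]
    exact hP

variable [Fact p.Prime] [IsAlgClosed Ω]

omit S [CharZero Ω] [DecidableEq Ω] [IsAlgClosed Ω] in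
lemma isElliptic_reductionMod (hgood : ¬ (p : ℤ) ∣ W.Δ) : (W.reductionMod p).IsElliptic :=
  ⟨by
    rw [isUnit_iff_ne_zero, reductionMod, WeierstrassCurve.map_Δ, eq_intCast]
    exact fun h => hgood ((ZMod.intCast_zmod_eq_zero_iff_dvd _ p).mp h)⟩

/-- In the ordinary case a point of order `p` has integral abscissa. -/
theorem exists_integral_torsion (hp2 : p ≠ 2) (hgood : ¬ (p : ℤ) ∣ W.Δ)
    (ha : ¬ (p : ℤ) ∣ W.apOfModel p) :
    ∃ (x y : Ω) (h : (curveOver Ω W).Nonsingular x y),
      x ∈ A ∧ p • Point.some x y h = 0 := by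
  classical
  have hprime := S.prime
  have := isAlgClosed_residue A
  have := S.charP
  let κ := ResidueField A
  set f : Ω[X] := (W.preΨ' p).map (Int.castRingHom Ω) with hf
  set g : κ[X] := (W.preΨ' p).map (Int.castRingHom κ) with hg
  have hgdeg : g.natDegree ≠ 0 := by
    intro h
    have := isElliptic_reductionMod W hgood
    have hmap : ((W.reductionMod p).preΨ' p).map (ZMod.castHom (dvd_refl p) κ) = g := by
      rw [reductionMod, map_preΨ', Polynomial.map_map, hg]
      exact congrArg (fun φ => (W.preΨ' p).map φ) (RingHom.ext_int _ _)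
    rw [← hmap, natDegree_map_eq_of_injective (RingHom.injective _)] at h
    exact ha (dvd_trace_of_preΨ'_eq_C hp2 _ (eq_C_of_natDegree_eq_zero h))
  obtain ⟨r, hr, hr1⟩ : ∃ r, f.IsRoot r ∧ v r ≤ 1 := by
    by_contra hall
    push Not at hall
    have hsplit : f.Splits := IsAlgClosed.splits f
    have hres : ∀ a : A, residue A ((W.preΨ' p).eval₂ (Int.castRingHom A) a)
        = g.eval (residue A a) := fun a => by
      rw [hom_eval₂, hg, eval_map]
      congr 1
    have hsub : ∀ a : A, (((W.preΨ' p).eval₂ (Int.castRingHom A) a : A) : Ω) = f.eval (a : Ω) :=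
      fun a => by
      show A.subtype _ = _
      rw [hom_eval₂, hf, eval_map]
      congr 1
    have key : ∀ a : A, g.eval (residue A a) = g.eval 0 := by
      intro a
      rw [← hres a, ← map_zero (residue A), ← hres 0, ← sub_eq_zero, ← map_sub,
        IsLocalRing.residue_eq_zero_iff, A.valuation_lt_one_iff]
      show v ((((W.preΨ' p).eval₂ (Int.castRingHom A) a : A) : Ω) -
        (((W.preΨ' p).eval₂ (Int.castRingHom A) 0 : A) : Ω)) < 1
      have h0le : v (f.eval 0) ≤ 1 := by
        have h := A.valuation_le_one ((W.preΨ' p).eval₂ (Int.castRingHom A) 0)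
        rwa [hsub] at h
      rw [hsub, hsub, ZeroMemClass.coe_zero]
      have hprod : ∀ s : Multiset Ω, (∀ r ∈ s, 1 < v r) →
          v ((s.map fun r => 1 - (a : Ω) / r).prod - 1) < 1 := by
        intro s
        induction s using Multiset.induction_on with
        | empty => simp
        | cons r s ih =>
          intro hs
          have hr := hs r (Multiset.mem_cons_self r s)
          have hlt : v ((a : Ω) / r) < 1 := by
            rw [map_div₀, div_lt_one₀ (zero_lt_one.trans hr)]
            exact lt_of_le_of_lt (A.valuation_le_one a) hr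
          have ih' := ih fun r' hr' => hs r' (Multiset.mem_cons_of_mem hr')
          rw [Multiset.map_cons, Multiset.prod_cons]
          set Q₀ := (s.map fun r => 1 - (a : Ω) / r).prod
          rw [show (1 - (a : Ω) / r) * Q₀ - 1 = (Q₀ - 1) - (a : Ω) / r * Q₀ by ring]
          refine Valuation.map_sub_lt _ ih' ?_
          have hQ₀ : v Q₀ = 1 := by
            rw [show Q₀ = 1 + (Q₀ - 1) by ring,
              Valuation.map_add_eq_of_lt_left _ (by rwa [map_one]), map_one]
          rwa [map_mul, hQ₀, mul_one]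
      have hroots : ∀ r ∈ f.roots, 1 < v r := fun r hr =>
        hall r (isRoot_of_mem_roots hr)
      have hfa : f.eval (a : Ω) = f.eval 0 * (f.roots.map fun r => 1 - (a : Ω) / r).prod := by
        conv_lhs => rw [hsplit.eq_prod_roots]
        conv_rhs => enter [1]; rw [hsplit.eq_prod_roots]
        simp only [eval_mul, eval_C, eval_multiset_prod, Multiset.map_map, Function.comp_def,
          eval_sub, eval_X]
        rw [mul_assoc, ← Multiset.prod_map_mul]
        refine congrArg (f.leadingCoeff * ·)
          (congrArg Multiset.prod (Multiset.map_congr rfl fun r hr => ?_))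
        have hr0 : r ≠ 0 := fun h => by
          have := hroots r hr
          rw [h, map_zero] at this
          exact absurd this (not_lt.mpr zero_le)
        field_simp
        ring
      rw [hfa, ← mul_sub_one, map_mul]
      exact mul_lt_one_of_nonneg_of_lt_one_right h0le zero_le (hprod _ hroots)
    refine hgdeg ?_
    have hgC : g = C (g.eval 0) := Polynomial.funext fun b => by
      obtain ⟨a, rfl⟩ := IsLocalRing.residue_surjective b
      rw [eval_C, key]
    rw [hgC, natDegree_C]
  have hE : WeierstrassCurve.IsElliptic (curveOver Ω W) :=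
    ⟨isUnit_iff_ne_zero.mpr (Δ_curveOver_ne_zero W hgood)⟩
  obtain ⟨y, hy⟩ := ECTorsion.exists_nonsingular (W := curveOver Ω W) r
  refine ⟨r, y, hy, (A.valuation_le_one_iff r).mp hr1, (ECTorsion.nsmul_eq_zero_iff hy p).mpr ?_⟩
  rw [ΨSq_ofNat, if_neg (Nat.not_even_iff_odd.mpr (hprime.odd_of_ne_two hp2)), mul_one, eval_pow]
  exact (congrArg (· ^ 2) ((congrArg (Polynomial.eval r) (preΨ'_curveOver W p)).trans hr)).trans
    (zero_pow two_ne_zero)

/-- In the supersingular case every nonzero point of order `p` is in the kernel of reduction and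
its parameter has size `|p| ^ (1 / (p² - 1))`. -/
theorem val_zParam_supersingular (hp2 : p ≠ 2) (hgood : ¬ (p : ℤ) ∣ W.Δ)
    (ha : (p : ℤ) ∣ W.apOfModel p) {P : (curveOver Ω W).Point} (hP0 : P ≠ 0) (hP : p • P = 0) :
    InKer A P ∧ v (zParam P) ^ (p ^ 2 - 1) = v (p : Ω) := by
  classical
  have hprime := S.prime
  have hodd := hprime.odd_of_ne_two hp2
  have := isAlgClosed_residue A
  have := S.charP
  let κ := ResidueField A
  set g : κ[X] := (W.preΨ' p).map (Int.castRingHom κ) with hg
  -- the reduced division polynomial has no root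
  have hnoroot : ∀ b : κ, g.eval b ≠ 0 := by
    intro b hb
    have := isElliptic_reductionMod W hgood
    let := ZMod.algebra κ p
    have : WeierstrassCurve.IsElliptic ((W.reductionMod p)⁄κ) :=
      ECTorsion.isElliptic_baseChange _
        ((_root_.map_ne_zero _).mpr (W.reductionMod p).isUnit_Δ.ne_zero)
    obtain ⟨c, hc⟩ := ECTorsion.exists_nonsingular (W := ((W.reductionMod p)⁄κ)) b
    refine Point.some_ne_zero hc (eq_zero_of_dvd_trace (W.reductionMod p) ha
      ((ECTorsion.nsmul_eq_zero_iff hc p).mpr ?_))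
    rw [ΨSq_ofNat, if_neg (Nat.not_even_iff_odd.mpr hodd), mul_one, eval_pow,
      show ((W.reductionMod p)⁄κ).preΨ' p = g from
        ((W.reductionMod p).map_preΨ' (algebraMap (ZMod p) κ) p).trans (by
          rw [reductionMod, map_preΨ', Polynomial.map_map, hg]
          exact congrArg (fun φ => (W.preΨ' p).map φ) (RingHom.ext_int _ _)),
      hb, zero_pow two_ne_zero]
  have hgdeg : g.natDegree = 0 := by
    by_contra h
    obtain ⟨b, hb⟩ := IsAlgClosed.exists_root g fun hd => h (natDegree_eq_of_degree_eq_some hd)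
    exact hnoroot b hb
  set c := fun i => (W.preΨ' p).coeff i
  have hc0 : ¬ (p : ℤ) ∣ c 0 := fun h => by
    refine hnoroot 0 ?_
    rw [← coeff_zero_eq_eval_zero, hg, coeff_map, eq_intCast]
    exact (CharP.intCast_eq_zero_iff κ p _).mpr h
  have hci : ∀ i, i ≠ 0 → (p : ℤ) ∣ c i := fun i hi => by
    rw [← CharP.intCast_eq_zero_iff κ p, ← eq_intCast (Int.castRingHom κ), ← coeff_map, ← hg]
    exact coeff_eq_zero_of_natDegree_lt (by omega)
  match P, hP0 with
  | .zero, h0 => exact absurd rfl h0
  | .some x y hns, _ =>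
  have hroot : ((W.preΨ' p).map (Int.castRingHom Ω)).eval x = 0 := by
    exact (congrArg (Polynomial.eval x) (preΨ'_curveOver W p)).symm.trans
      (ECTorsion.eval_preΨ'_eq_zero_of_nsmul hodd hns hP)
  obtain ⟨e, he⟩ : ∃ e, (p ^ 2 - 1) / 2 = e + 1 := ⟨(p ^ 2 - 1) / 2 - 1, by
    have h9 : 9 ≤ p ^ 2 := by
      have h3 : 3 ≤ p := by
        have := hprime.two_le
        omega
      exact le_trans (by norm_num) (Nat.pow_le_pow_left h3 2)
    omega⟩
  have hdeg : ((W.preΨ' p).map (Int.castRingHom Ω)).natDegree < e + 1 + 1 := by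
    have h := W.natDegree_preΨ'_le p
    rw [if_neg (Nat.not_even_iff_odd.mpr hodd), he] at h
    exact Nat.lt_succ_of_le (natDegree_map_le.trans h)
  have htop : c (e + 1) = (p : ℤ) := by
    have h := W.coeff_preΨ' p
    rwa [if_neg (Nat.not_even_iff_odd.mpr hodd), if_neg (Nat.not_even_iff_odd.mpr hodd), he] at h
  rw [eval_eq_sum_range' hdeg, Finset.sum_range_succ', Finset.sum_range_succ, pow_zero,
    mul_one] at hroot
  simp only [coeff_map, eq_intCast] at hroot
  rw [show ((W.preΨ' p).coeff (e + 1) : Ω) = (p : Ω) by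
    rw [show (W.preΨ' p).coeff (e + 1) = (p : ℤ) from htop]; simp] at hroot
  set R := (∑ i ∈ Finset.range e, ((W.preΨ' p).coeff (i + 1) : Ω) * x ^ (i + 1)) +
    (p : Ω) * x ^ (e + 1) with hR
  have hR1 : v R = 1 := by
    rw [eq_neg_of_add_eq_zero_left hroot, Valuation.map_neg]
    exact S.val_intCast_eq_one hc0
  have hterm : ∀ i, v (((W.preΨ' p).coeff (i + 1) : Ω) * x ^ (i + 1)) ≤
      v (p : Ω) * v x ^ (i + 1) := fun i => by
    rw [map_mul, map_pow]
    exact mul_le_mul_left (val_intCast_of_dvd (hci (i + 1) i.succ_ne_zero)) _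
  have hx : x ∉ A := by
    intro hxA
    have hx1 := (A.valuation_le_one_iff x).mpr hxA
    refine hR1.not_lt (Valuation.map_add_lt _ (Valuation.map_sum_lt' _ zero_lt_one fun i _ =>
      (hterm i).trans_lt ?_) ?_)
    · exact mul_lt_one_of_nonneg_of_lt_one_left zero_le S.lt_one (pow_le_one' hx1 _)
    · rw [map_mul, map_pow]
      exact mul_lt_one_of_nonneg_of_lt_one_left zero_le S.lt_one (pow_le_one' hx1 _)
  have ht := ECReduction.one_lt_valuation hx
  have hM : v (p : Ω) * v x ^ (e + 1) = 1 := by
    rw [← hR1, hR, Valuation.map_add_eq_of_lt_right, map_mul, map_pow]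
    refine Valuation.map_sum_lt _ ?_ fun i hi => (hterm i).trans_lt ?_
    · exact (Valuation.ne_zero_iff _).mpr (mul_ne_zero S.ne_zero
        (pow_ne_zero _ fun h => hx (h ▸ A.zero_mem)))
    · rw [map_mul, map_pow]
      exact mul_lt_mul_of_pos_left
        (pow_lt_pow_right₀ ht (by have := Finset.mem_range.mp hi; omega)) S.v_pos
  refine ⟨hx, ?_⟩
  have hz := ((integralCoeffs_curveOver W).val_zParam hns hx).1
  have he2 : p ^ 2 - 1 = 2 * (e + 1) := by
    obtain ⟨j, hj⟩ := hodd.pow (n := 2)
    omega
  rw [he2, pow_mul]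
  refine mul_right_cancel₀ (pow_ne_zero (e + 1) (zero_lt_one.trans ht).ne') ?_
  rw [← mul_pow, hz, one_pow, hM]

/-- No nonzero point of order `p` of a supersingular curve is fixed by the stabiliser of `ζ`. -/
theorem not_fixed_supersingular (hp2 : p ≠ 2) (hgood : ¬ (p : ℤ) ∣ W.Δ)
    (ha : (p : ℤ) ∣ W.apOfModel p) {ζ : Ω} (hζ : IsPrimitiveRoot ζ p)
    {P : (curveOver Ω W).Point} (hP0 : P ≠ 0) (hP : p • P = 0)
    (hfix : ∀ σ : Ω ≃ₐ[K] Ω, σ ζ = ζ → actPoint W σ P = P) : False := by
  obtain ⟨hker, hval⟩ := S.val_zParam_supersingular W hp2 hgood ha hP0 hP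
  obtain ⟨m, hm⟩ := S.exists_zpow_of_fixed hζ
    ((integralCoeffs_curveOver W).zParam_ne_zero hker hP0)
    fun σ hσ => by rw [← zParam_actPoint, hfix σ hσ]
  have h2 : p ^ 2 - 1 = (p - 1) * (p + 1) := by
    obtain ⟨n, rfl⟩ : ∃ n, p = n + 1 := ⟨p - 1, by have := S.prime.pos; omega⟩
    have e : (n + 1) ^ 2 = n * (n + 1 + 1) + 1 := by ring
    rw [e, Nat.add_sub_cancel, Nat.add_sub_cancel]
  rw [hm, ← zpow_natCast (_ ^ m), ← zpow_mul, h2, Nat.cast_mul, mul_left_comm, zpow_mul,
    zpow_natCast, (S.root_sub_one hζ).1] at hval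
  have h1 : m * (p + 1 : ℕ) = 1 := S.zpow_inj (hval.trans (zpow_one _).symm)
  have h3 := Int.eq_one_of_dvd_one (Int.natCast_nonneg _) ⟨m, h1.symm.trans (mul_comm _ _)⟩
  have := S.prime.pos
  omega

end LocalSetting

end Fermat.Agent.LowerAtP
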