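import Fermat.Agent.LowerAtP.LocalKummer
import Fermat.Agent.Multiplicative.Automorphism
import Fermat.Agent.ECTorsion.Count

/-!
# `p`-torsion of a nodal curve at `p` when `p` divides the exponent of the discriminant

On `y (y + a x) = x³ + b` over a valued algebraic closure of an absolutely unramified local field,
with `|b| = |z| ^ p` for a fixed `z`: the `p`-torsion is an extension of the trivial character by
the cyclotomic character, and its cocycle is the Kummer cocycle of a unit.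
-/

set_option autoImplicit false

noncomputable section

namespace Fermat.Agent.LowerAtP

open WeierstrassCurve WeierstrassCurve.Affine Fermat.Agent.Multiplicative

variable {K Ω : Type} [Field K] [Field Ω] [Algebra K Ω] {A : ValuationSubring Ω} {p : ℕ}
  {a b : Ω} [DecidableEq Ω] [IsAlgClosed Ω] [CharZero Ω]

local notation "v" => ValuationSubring.valuation A

/-- The data of a nodal curve with an action of the automorphisms. -/
structure NodalAction (K : Type) [Field K] [Algebra K Ω] (A : ValuationSubring Ω)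
    (p : ℕ) (a b : Ω) (act : (Ω ≃ₐ[K] Ω) → NPoint a b →+ NPoint a b) : Prop where
  setting : LocalSetting K A p
  three_le : 3 ≤ p
  nodal : IsNodal A a b
  fix_a : ∀ σ : Ω ≃ₐ[K] Ω, σ a = a
  small : A.valuation b ≤ A.valuation (p : Ω)
  scale : ∃ z : Ω, (∀ σ : Ω ≃ₐ[K] Ω, σ z = z) ∧ A.valuation z ^ p = A.valuation b
  conj : ∀ (σ : Ω ≃ₐ[K] Ω) P, Conj σ.toAlgHom.toRingHom P (act σ P)

/-- The torsion points in the smooth locus, normalised: `u / (ζ - 1)` modulo the maximal ideal. -/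
def psi (A : ValuationSubring Ω) (ζ : Ω) (P : NPoint a b) : IsLocalRing.ResidueField A :=
  res A (uPt P / (ζ - 1))

namespace NodalAction

variable {act : (Ω ≃ₐ[K] Ω) → NPoint a b →+ NPoint a b}
  (H : NodalAction K A p a b act)

include H

omit [IsAlgClosed Ω] [CharZero Ω] in
/-- The transported action is an action. -/
lemma act_mul (σ τ : Ω ≃ₐ[K] Ω) (P : NPoint a b) : act (σ * τ) P = act σ (act τ P) := by
  have h1 := H.conj (σ * τ) P
  have h2 := H.conj τ P
  match P with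
  | .zero =>
    show act (σ * τ) (0 : NPoint a b) = act σ (act τ 0)
    rw [map_zero, map_zero, map_zero]
  | .some x y h =>
    obtain ⟨h', e1⟩ := h1
    obtain ⟨h'', e2⟩ := h2
    have h3 := H.conj σ (act τ (Point.some x y h))
    rw [e2] at h3
    obtain ⟨h''', e3⟩ := h3
    rw [e1, e2, e3]
    rfl

omit [IsAlgClosed Ω] [CharZero Ω] in
lemma val_ratio {x : Ω} (hx0 : x ≠ 0) (hx : v x < 1) :
    ∃ e k : ℕ, 0 < e ∧ v x ^ e = v b ^ k := by
  have S := H.setting
  obtain ⟨z, hz, hzb⟩ := H.scale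
  obtain ⟨z₀, rfl⟩ := S.fixed z hz
  have hz0 : z₀ ≠ 0 := fun h => by
    rw [h, map_zero, map_zero, zero_pow S.prime.ne_zero] at hzb
    exact H.nodal.ne_zero ((Valuation.zero_iff _).mp hzb.symm)
  obtain ⟨n, hn⟩ := S.base z₀ hz0
  obtain ⟨e, m, he, hem⟩ := S.rat x hx0
  have hpos : ∀ {i : ℤ}, v (p : Ω) ^ i < 1 → 0 < i := by
    intro i hi
    by_contra hle
    exact absurd hi (not_lt.mpr (one_le_zpow_of_nonpos₀ S.v_pos S.lt_one.le (not_lt.mp hle)))
  have hn0 : 0 < n := by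
    have hb := H.nodal.val_b
    rw [← hzb, hn] at hb
    exact hpos ((pow_lt_one_iff_of_nonneg zero_le S.prime.ne_zero).mp hb)
  have hm0 : 0 < m := hpos (hem ▸ pow_lt_one₀ zero_le hx he.ne')
  obtain ⟨n, rfl⟩ := Int.eq_ofNat_of_zero_le hn0.le
  obtain ⟨m, rfl⟩ := Int.eq_ofNat_of_zero_le hm0.le
  refine ⟨e * (n * p), m, Nat.mul_pos he (Nat.mul_pos (by omega) S.prime.pos), ?_⟩
  rw [zpow_natCast] at hn hem
  rw [← hzb, hn, pow_mul, hem, ← pow_mul, ← pow_mul, ← pow_mul]
  congr 1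
  ring

omit [CharZero Ω] in
lemma not_inMid {P : NPoint a b} (h0 : p • P = 0) : ¬ InMid A P := by
  intro h
  have := H.nodal.mid_torsion_even h (n := p) (by rw [h0]; exact inG0_zero)
  have hp2 := (H.setting.prime.eq_one_or_self_of_dvd 2 this)
  have := H.three_le
  omega

omit [CharZero Ω] in
/-- The abscissa of a torsion point on a branch has the size of a fixed element. -/
lemma exists_scale_xc {P : NPoint a b} (hP : InPlus A P) (h0 : p • P = 0) :
    ∃ π : Ω, π ≠ 0 ∧ (∀ σ : Ω ≃ₐ[K] Ω, σ π = π) ∧ v (xc P) = v π := by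
  obtain ⟨z, hz, hzb⟩ := H.scale
  have hz0 : z ≠ 0 := fun h => by
    rw [h, map_zero, zero_pow H.setting.prime.ne_zero] at hzb
    exact H.nodal.ne_zero ((Valuation.zero_iff _).mp hzb.symm)
  obtain ⟨h1, h2, -⟩ := hP.xc_lt
  obtain ⟨j, -, -, hj⟩ := H.nodal.torsion_level hP H.setting.prime.pos
    (by rw [h0]; exact inG0_zero) (H.val_ratio (fun h => by
      rw [h, map_zero, zero_pow two_ne_zero] at h2
      exact not_lt.mpr zero_le h2) h1)
  refine ⟨z ^ j, pow_ne_zero _ hz0, fun σ => by rw [map_pow, hz], ?_⟩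
  refine (pow_left_inj₀ zero_le zero_le H.setting.prime.ne_zero).mp ?_
  rw [hj, map_pow, ← pow_mul, mul_comm, pow_mul, hzb]

omit [IsAlgClosed Ω] [CharZero Ω] in
/-- Smooth torsion lies in the kernel of reduction. -/
lemma inG1_of_inG0 {P : NPoint a b} (hP : InG0 A P) (h0 : p • P = 0) : InG1 A P := by
  have := H.setting.charP
  have := Fact.mk H.setting.prime
  rw [← H.nodal.red_eq_one_iff hP]
  have h := H.nodal.red_nsmul hP p
  rw [h0, red_zero] at h
  have h3 : (red A P - 1) ^ p = 0 := by rw [sub_pow_char, ← h, one_pow, sub_self]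
  exact sub_eq_zero.mp ((pow_eq_zero_iff H.setting.prime.ne_zero).mp h3)

variable {ζ : Ω} (hζ : IsPrimitiveRoot ζ p)

include hζ

omit [CharZero Ω] in
lemma val_uPt {P : NPoint a b} (hP : InG0 A P) (h0 : p • P = 0) (hne : P ≠ 0) :
    v (uPt P) = v (ζ - 1) ∧ psi A ζ P ^ (p - 1) = 1 := by
  have S := H.setting
  have := H.three_le
  obtain ⟨c, ρ, hc, -, hu, hρ, hpow, hlt⟩ :=
    H.nodal.torsion_prime S.prime S.lt_one H.small (H.inG1_of_inG0 hP h0) hne h0
  obtain ⟨hz, ρ', hρ', hzeq⟩ := S.root_sub_one hζ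
  have hvu : v (uPt P) = v (ζ - 1) :=
    (pow_left_inj₀ zero_le zero_le (show p - 1 ≠ 0 by omega)).mp (hpow.trans hz.symm)
  refine ⟨hvu, ?_⟩
  set u := uPt P
  set z := ζ - 1
  have hzpos : 0 < v z := S.v_root_sub_one_pos hζ
  have hq : v (u / z) = 1 := by rw [map_div₀, hvu, div_self hzpos.ne']
  rw [psi, ← res_pow hq.le, ← res_one (A := A), res_eq_iff (by rw [map_pow, hq, one_pow])
    (map_one _).le]
  have h1 : v (u ^ (p - 1) + p * ρ) < v (p : Ω) := by
    have e : u ^ p + p * u * ρ = (u ^ (p - 1) + p * ρ) * u := by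
      rw [add_mul, ← pow_succ, Nat.sub_add_cancel S.prime.one_le]; ring
    rw [e, map_mul] at hlt
    exact lt_of_mul_lt_mul_right' hlt
  have h2 : v ((p : Ω) * (ρ' - ρ)) < v (p : Ω) := by
    rw [map_mul]
    refine mul_lt_of_lt_one_right S.v_pos ?_
    rw [show ρ' - ρ = (ρ' - 1) - (ρ - 1) by ring]
    exact Valuation.map_sub_lt _ hρ' hρ
  have hzne : z ≠ 0 := sub_ne_zero.mpr (hζ.ne_one S.prime.one_lt)
  rw [div_pow, div_sub_one (pow_ne_zero _ hzne), map_div₀, div_lt_one₀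
    (zero_lt_iff.mpr ((Valuation.ne_zero_iff _).mpr (pow_ne_zero _ hzne))), map_pow, hz, hzeq,
    show u ^ (p - 1) - -((p : Ω) * ρ') = (u ^ (p - 1) + p * ρ) + p * (ρ' - ρ) by ring]
  exact Valuation.map_add_lt _ h1 h2

omit [CharZero Ω] in
lemma val_uPt_le {P : NPoint a b} (hP : InG0 A P) (h0 : p • P = 0) :
    v (uPt P) ≤ v (ζ - 1) := by
  rcases eq_or_ne P 0 with rfl | hne
  · simp
  · exact (H.val_uPt hζ hP h0 hne).1.le

omit [CharZero Ω] in
lemma psi_eq_zero {P : NPoint a b} (hP : InG0 A P) (h0 : p • P = 0) (h : psi A ζ P = 0) :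
    P = 0 := by
  by_contra hne
  have := (H.val_uPt hζ hP h0 hne).2
  rw [h, zero_pow (by have := H.three_le; omega)] at this
  exact zero_ne_one this

omit [CharZero Ω] in
lemma psi_add {P Q : NPoint a b} (hP : InG0 A P) (hP0 : p • P = 0) (hQ : InG0 A Q)
    (hQ0 : p • Q = 0) : psi A ζ (P + Q) = psi A ζ P + psi A ζ Q := by
  have S := H.setting
  have hS := H.nodal.inG0_add hP hQ
  have hS0 : p • (P + Q) = 0 := by rw [nsmul_add, hP0, hQ0, add_zero]
  obtain ⟨-, ε, hε, heq⟩ := H.nodal.inFil_add (c := 1) (by simp) hP hQ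
  rw [map_one, one_pow, mul_one] at hε
  have hz := S.v_root_sub_one_pos hζ
  have hle : ∀ {R : NPoint a b}, InG0 A R → p • R = 0 → v (uPt R / (ζ - 1)) ≤ 1 := by
    intro R hR hR0
    rw [map_div₀]
    exact (div_le_one₀ hz).mpr (H.val_uPt_le hζ hR hR0)
  rw [psi, psi, psi, ← res_add (hle hP hP0) (hle hQ hQ0), res_eq_iff (hle hS hS0)
    ((Valuation.map_add _ _ _).trans (max_le (hle hP hP0) (hle hQ hQ0))), ← add_div, ← sub_div,
    map_div₀, div_lt_one₀ hz]
  rw [show uPt (P + Q) - (uPt P + uPt Q) = uPt P * uPt Q - ε * (1 + uPt (P + Q)) by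
    linear_combination -heq]
  refine Valuation.map_sub_lt _ ?_ ?_
  · rw [map_mul]
    exact lt_of_le_of_lt (mul_le_mul' (H.val_uPt_le hζ hP hP0) (H.val_uPt_le hζ hQ hQ0))
      (mul_lt_of_lt_one_right hz (S.v_root_sub_one_lt hζ.pow_eq_one))
  · rw [map_mul, H.nodal.val_one_add_uPt hS, mul_one]
    exact (hε.trans H.small).trans_lt (S.v_prime_lt_root (by have := H.three_le; omega) hζ)

omit [CharZero Ω] in
lemma psi_nsmul {P : NPoint a b} (hP : InG0 A P) (hP0 : p • P = 0) (n : ℕ) :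
    psi A ζ (n • P) = n * psi A ζ P := by
  induction n with
  | zero => simp [psi]
  | succ n ih =>
    rw [succ_nsmul, H.psi_add hζ (H.nodal.inG0_nsmul hP n)
      (by rw [smul_comm, hP0, nsmul_zero]) hP hP0, ih]
    push_cast
    ring

omit [CharZero Ω] in
lemma psi_inj {P Q : NPoint a b} (hP : InG0 A P) (hP0 : p • P = 0) (hQ : InG0 A Q)
    (hQ0 : p • Q = 0) (h : psi A ζ P = psi A ζ Q) : P = Q := by
  have hd := H.nodal.inG0_sub hP hQ
  have hd0 : p • (P - Q) = 0 := by rw [nsmul_sub, hP0, hQ0, sub_zero]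
  have := H.psi_add hζ hd hd0 hQ hQ0
  rw [sub_add_cancel, h, right_eq_add] at this
  exact sub_eq_zero.mp (H.psi_eq_zero hζ hd hd0 this)

omit [CharZero Ω] in
/-- The smooth torsion is cyclic. -/
lemma smooth_cyclic {P Q : NPoint a b} (hP : InG0 A P) (hP0 : p • P = 0) (hne : P ≠ 0)
    (hQ : InG0 A Q) (hQ0 : p • Q = 0) : ∃ n < p, Q = n • P := by
  have := H.setting.charP
  have := Fact.mk H.setting.prime
  have hmem : ∀ {R : NPoint a b}, InG0 A R → p • R = 0 →
      ∃ n : ZMod p, psi A ζ R = ZMod.castHom (dvd_refl p) (IsLocalRing.ResidueField A) n := by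
    intro R hR hR0
    have : psi A ζ R ∈ (⊥ : Subfield (IsLocalRing.ResidueField A)) := by
      rw [Subfield.mem_bot_iff_pow_eq_self (IsLocalRing.ResidueField A) p]
      rcases eq_or_ne R 0 with rfl | hR'
      · simp [psi, H.setting.prime.ne_zero]
      · conv_lhs => rw [← Nat.sub_add_cancel H.setting.prime.one_le, pow_succ,
          (H.val_uPt hζ hR hR0 hR').2, one_mul]
    rw [← ZMod.fieldRange_castHom_eq_bot p] at this
    obtain ⟨n, hn⟩ := this
    exact ⟨n, hn.symm⟩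
  obtain ⟨i, hi⟩ := hmem hP hP0
  obtain ⟨j, hj⟩ := hmem hQ hQ0
  have hi0 : i ≠ 0 := fun h => hne (H.psi_eq_zero hζ hP hP0 (by rw [hi, h, map_zero]))
  refine ⟨(j * i⁻¹).val, ZMod.val_lt _, H.psi_inj hζ hQ hQ0 (H.nodal.inG0_nsmul hP _)
    (by rw [smul_comm, hP0, nsmul_zero]) ?_⟩
  rw [H.psi_nsmul hζ hP hP0, hi, hj, ← map_natCast (ZMod.castHom (dvd_refl p) _),
    ZMod.natCast_zmod_val, ← map_mul, mul_assoc, inv_mul_cancel₀ hi0, mul_one]

omit [CharZero Ω] in
/-- On the smooth torsion the automorphisms act by the cyclotomic character. -/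
lemma act_smooth {P : NPoint a b} (hP : InG0 A P) (hP0 : p • P = 0) {σ : Ω ≃ₐ[K] Ω} {n : ℕ}
    (hn : σ ζ = ζ ^ n) : act σ P = n • P := by
  have S := H.setting
  have hiso : ∀ x, v (σ.toAlgHom.toRingHom x) = v x := S.iso σ
  have hσP : InG0 A (act σ P) := (H.conj σ P).inG0 hiso hP
  refine H.psi_inj hζ hσP (by rw [← map_nsmul, hP0, map_zero]) (H.nodal.inG0_nsmul hP _)
    (by rw [smul_comm, hP0, nsmul_zero]) ?_
  rw [H.psi_nsmul hζ hP hP0, psi, psi, (H.conj σ P).uPt_eq (H.fix_a σ)]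
  have hz := S.v_root_sub_one_pos hζ
  have hw : v (uPt P / (ζ - 1)) ≤ 1 := by
    rw [map_div₀]; exact (div_le_one₀ hz).mpr (H.val_uPt_le hζ hP hP0)
  have hr : v ((ζ ^ n - 1) / (ζ - 1)) ≤ 1 := by
    have := S.pow_sub_one_congr hζ n
    rw [show (ζ ^ n - 1) / (ζ - 1) = ((ζ ^ n - 1) / (ζ - 1) - n) + n by ring]
    exact (Valuation.map_add _ _ _).trans (max_le this.le
      ((A.valuation_le_one_iff _).mpr (natCast_mem A n)))
  show res A (σ (uPt P) / (ζ - 1)) = _
  have hz0 : ζ - 1 ≠ 0 := sub_ne_zero.mpr (hζ.ne_one S.prime.one_lt)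
  have e : σ (uPt P) / (ζ - 1) = σ (uPt P / (ζ - 1)) * ((ζ ^ n - 1) / (ζ - 1)) := by
    rw [map_div₀ σ, show σ (ζ - 1) = ζ ^ n - 1 by rw [map_sub, hn, map_one]]
    rcases eq_or_ne (ζ ^ n - 1) 0 with h | h
    · have : σ (ζ - 1) = 0 := by rw [map_sub, hn, map_one, h]
      exact absurd ((map_eq_zero σ).mp this) hz0
    · field_simp
  rw [e, res_mul (by rwa [S.iso]) hr, mul_comm, ← res_natCast]
  congr 1
  · rw [res_eq_iff hr ((A.valuation_le_one_iff _).mpr (natCast_mem A n))]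
    exact S.pow_sub_one_congr hζ n
  · rw [res_eq_iff (by rwa [S.iso]) hw]
    exact S.trivial_res σ _ hw

omit [CharZero Ω] in
/-- An automorphism fixing `ζ` and moving a branch point `x` moves `x(P)` by `ζ - 1`. -/
lemma moved {P : NPoint a b} (hP : InPlus A P) (hP0 : p • P = 0) {π : Ω}
    (hπ0 : π ≠ 0) (hπ : ∀ σ : Ω ≃ₐ[K] Ω, σ π = π) (hxπ : v (xc P) = v π) (σ : Ω ≃ₐ[K] Ω) :
    (act σ P = P → σ (xc P / π) = xc P / π) ∧
      (act σ P ≠ P → v (σ (xc P / π) - xc P / π) = v (ζ - 1)) := by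
  have S := H.setting
  have hN := H.nodal
  match P, hP, hP0, hxπ with
  | .some x y hns, hP, hP0, hxπ =>
  simp only [xc_some] at hxπ ⊢
  obtain ⟨h', he⟩ := H.conj σ (Point.some x y hns)
  refine ⟨fun h => ?_, fun h => ?_⟩
  · rw [he, Point.some.injEq] at h
    rw [map_div₀, hπ]
    congr 1
    exact h.1
  have hxy := hP
  obtain ⟨hx1, hxb, hyx⟩ := hP
  have hxpos : 0 < v x := by
    refine zero_lt_iff.mpr fun h0 => ?_
    rw [h0, zero_pow two_ne_zero] at hxb
    exact not_lt.mpr zero_le hxb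
  have hw := hN.val_w_of_inPlus hns hxy
  have hne : σ x ≠ x := by
    intro hx
    apply h
    rw [he, Point.some.injEq]
    refine ⟨hx, ?_⟩
    have e1 := hN.eqn hns
    have e2 : σ y * (σ y + a * x) = x ^ 3 + b := by
      have := hN.eqn h'
      show σ y * (σ y + a * x) = x ^ 3 + b
      simpa [hx] using this
    have hfac : (σ y - y) * (σ y + (y + a * x)) = 0 := by linear_combination e2 - e1
    rcases mul_eq_zero.mp hfac with h3 | h3
    · exact sub_eq_zero.mp h3
    · rw [add_eq_zero_iff_eq_neg] at h3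
      have := congrArg v h3
      rw [Valuation.map_neg, hw, S.iso] at this
      exact absurd this hyx.ne
  have hvσy : v (σ y) < v x := by rwa [S.iso]
  -- the difference
  have hD : InG0 A (act σ (Point.some x y hns) - Point.some x y hns) :=
    hN.conj_sub_inG0 (S.iso σ) (H.fix_a σ) (H.conj σ _)
  have hD0 : p • (act σ (Point.some x y hns) - Point.some x y hns) = 0 := by
    rw [nsmul_sub, ← map_nsmul, hP0, map_zero, sub_zero]
  have hu := (H.val_uPt hζ hD hD0 (sub_ne_zero.mpr h)).1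
  rw [he, sub_eq_add_neg, Point.neg_some] at hu hD
  obtain ⟨l, m, x₃, h₃, hadd, -, hl1, hl2, e₁, -, -⟩ :=
    exists_line h' ((nonsingular_neg ..).mpr hns)
      (fun hh => hne hh.1)
  rw [hadd] at hu hD
  rw [inG0_some] at hD
  have hl : v l * v (σ x - x) = v x := by
    rw [← map_mul, show l * (σ x - x) = σ y + (y + a * x) by
      have h1 : σ y = l * σ x + m := hl1
      have h2 : -(y + a * x) = l * x + m := by rw [← nodal_negY]; exact hl2
      linear_combination h2 - h1, Valuation.map_add_eq_of_lt_right _ (by rw [hw]; exact hvσy), hw]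
  have hdiff : v (σ x - x) < v x := hxπ ▸ S.lt_of_fixed_scale σ hπ0 (hπ σ) hxπ.le
  have hl1' : 1 < v l := by
    by_contra hle
    rw [not_lt] at hle
    exact absurd hl (ne_of_lt (lt_of_le_of_lt (mul_le_of_le_one_left' hle) hdiff))
  have hσx1 : v (σ x) < 1 := by rwa [S.iso]
  have hbig : (1 : A.ValueGroup) < v l * v l := one_lt_mul_of_le_of_lt hl1'.le hl1'
  have hla : v (l + a) = v l := Valuation.map_add_eq_of_lt_left _ (by rwa [hN.val_a])
  have hx₃ : v x₃ = v l * v l := by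
    rw [show x₃ = l * (l + a) - (σ x + x) by
      have : σ x + x + x₃ = l * (l + a) := e₁
      linear_combination this,
      Valuation.map_sub_eq_of_lt_left, map_mul, hla]
    rw [map_mul, hla]
    exact ((Valuation.map_add _ _ _).trans_lt (max_lt hσx1 hx1)).trans hbig
  have hu2 := hN.val_uPt_sq h₃ hD
  rw [hu, hx₃, ← sq, ← mul_pow] at hu2
  have hzl : v (ζ - 1) * v l = 1 :=
    (pow_eq_one_iff.mp hu2).resolve_right two_ne_zero
  rw [map_div₀, hπ, ← sub_div, map_div₀, ← hxπ, div_eq_iff hxpos.ne', ← hl, ← mul_assoc, hzl,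
    one_mul]

end NodalAction

variable [Fact p.Prime]

omit [CharZero Ω] in
/-- **`E[p]` at a multiplicative prime `p` with `p` dividing the exponent of the discriminant.** -/
theorem NodalAction.torsion_kummer {act : (Ω ≃ₐ[K] Ω) → NPoint a b →+ NPoint a b}
    (H : NodalAction K A p a b act) {ζ : Ω} (hζ : IsPrimitiveRoot ζ p) :
    ∃ (P₀ x : NPoint a b) (k : (Ω ≃ₐ[K] Ω) → ZMod p) (η : Ω),
      p • P₀ = 0 ∧ p • x = 0 ∧
      (∀ Q, p • Q = 0 → ∃ i < p, ∃ j < p, Q = i • P₀ + j • x) ∧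
      (∀ (σ : Ω ≃ₐ[K] Ω) (n : ℕ), σ ζ = ζ ^ n → act σ P₀ = n • P₀) ∧
      (∀ σ, act σ x = x + (k σ).val • P₀) ∧
      (∀ σ, σ η = ζ ^ (k σ).val * η) ∧
      (η = 1 ∨ ∃ u : K, v (algebraMap K Ω u) = 1 ∧ η ^ p = algebraMap K Ω u) := by
  classical
  have S := H.setting
  have hN := H.nodal
  have hp := S.prime
  -- the torsion and its component labels
  have : (nodalCurve a b).IsElliptic := ⟨isUnit_iff_ne_zero.mpr hN.Δ_ne_zero⟩
  have hpΩ : (p : Ω) ≠ 0 := S.ne_zero
  have hcard := ECTorsion.card_nsmul_eq_zero (nodalCurve a b) hpΩ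
  have : Finite {P : NPoint a b // p • P = 0} :=
    Nat.finite_of_card_ne_zero (by rw [hcard]; exact pow_ne_zero _ hp.ne_zero)
  obtain ⟨lab, hlab⟩ := hN.exists_component_label hp.pos (fun x h1 h2 => H.val_ratio h1 h2)
  have hG0 : ∀ {Q : NPoint a b}, p • Q = 0 → InG0 A (p • Q) := fun h => by
    rw [h]; exact inG0_zero
  have hp1 : p < p ^ 2 := by
    rw [sq]; exact lt_mul_of_one_lt_left hp.pos hp.one_lt
  -- a nonzero smooth torsion point
  obtain ⟨P₀, hP₀, hP₀0, hP₀ne⟩ : ∃ P₀ : NPoint a b, InG0 A P₀ ∧ p • P₀ = 0 ∧ P₀ ≠ 0 := by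
    by_contra hall
    push Not at hall
    have hinj : Function.Injective fun Q : {P : NPoint a b // p • P = 0} => lab Q.1 := by
      intro Q R hQR
      have h0 : p • (Q.1 - R.1) = 0 := by rw [nsmul_sub, Q.2, R.2, sub_zero]
      exact Subtype.ext (sub_eq_zero.mp (hall _ (hlab _ _ (hG0 Q.2) (hG0 R.2) hQR) h0))
    have := Nat.card_le_card_of_injective _ hinj
    rw [hcard, Nat.card_fin] at this
    omega
  -- a torsion point outside the smooth locus
  obtain ⟨x, hx, hx0⟩ : ∃ x : NPoint a b, ¬ InG0 A x ∧ p • x = 0 := by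
    by_contra hall
    push Not at hall
    have hsurj : Function.Surjective fun i : Fin p =>
        (⟨i.1 • P₀, by rw [smul_comm, hP₀0, nsmul_zero]⟩ : {P : NPoint a b // p • P = 0}) := by
      intro Q
      obtain ⟨n, hn, hQ⟩ := H.smooth_cyclic hζ hP₀ hP₀0 hP₀ne
        (by by_contra h; exact hall Q.1 h Q.2) Q.2
      exact ⟨⟨n, hn⟩, Subtype.ext hQ.symm⟩
    have := Nat.card_le_card_of_surjective _ hsurj
    rw [hcard, Nat.card_fin] at this
    omega
  obtain ⟨x, hxp, hx0⟩ : ∃ x : NPoint a b, InPlus A x ∧ p • x = 0 := by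
    rcases hN.trichotomy hx with h | h | h
    · exact absurd h (H.not_inMid hx0)
    · exact ⟨x, h, hx0⟩
    · exact ⟨-x, h, by rw [neg_nsmul, hx0, neg_zero]⟩
  -- generation
  have hgen : ∀ Q, p • Q = 0 → ∃ i < p, ∃ j < p, Q = i • P₀ + j • x := by
    have hx' : ∀ n : ℕ, ¬ p ∣ n → ¬ InG0 A (n • x) := by
      intro n hn h
      obtain ⟨m, -, hm⟩ := Nat.exists_mul_mod_eq_one_of_coprime
        ((hp.coprime_iff_not_dvd.mpr hn).symm) hp.one_lt
      have h2 := hN.inG0_nsmul h m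
      rw [← mul_nsmul, ← Nat.mod_add_div (n * m) p, hm, add_nsmul, mul_nsmul', one_nsmul] at h2
      rw [show p • ((n * m / p) • x) = 0 by rw [smul_comm, hx0, nsmul_zero]] at h2
      rw [add_zero] at h2
      exact hxp.not_inG0 h2
    have hinj : Function.Injective fun j : Fin p => lab (j.1 • x) := by
      intro i j hij
      by_contra hne
      wlog hlt : i.1 < j.1 generalizing i j
      · exact this hij.symm (Ne.symm hne)
          (lt_of_le_of_ne (not_lt.mp hlt) (fun h => hne (Fin.ext h.symm)))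
      have h0 : ∀ n : ℕ, p • (n • x) = 0 := fun n => by rw [smul_comm, hx0, nsmul_zero]
      have h := hlab _ _ (hG0 (h0 j.1)) (hG0 (h0 i.1)) hij.symm
      rw [sub_eq_add_neg, ← sub_nsmul _ hlt.le] at h
      exact hx' (j.1 - i.1) (fun hd => by
        have := Nat.le_of_dvd (by omega) hd
        omega) h
    intro Q hQ
    obtain ⟨j, hj⟩ := (Finite.injective_iff_surjective.mp hinj) (lab Q)
    have h0 : p • (j.1 • x) = 0 := by rw [smul_comm, hx0, nsmul_zero]
    have h := hlab Q _ (hG0 hQ) (hG0 h0) hj.symm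
    obtain ⟨i, hi, hQi⟩ := H.smooth_cyclic hζ hP₀ hP₀0 hP₀ne h
      (by rw [nsmul_sub, hQ, h0, sub_zero])
    exact ⟨i, hi, j.1, j.2, by rw [← hQi, sub_add_cancel]⟩
  -- the characters
  choose χ _ hχ using S.exists_exponent hζ
  have hdiff : ∀ σ : Ω ≃ₐ[K] Ω, ∃ k : ZMod p, act σ x = x + k.val • P₀ := by
    intro σ
    have hiso : ∀ y, v (σ.toAlgHom.toRingHom y) = v y := S.iso σ
    have hD := hN.conj_sub_inG0 hiso (H.fix_a σ) (H.conj σ x)
    obtain ⟨n, hn, hDn⟩ := H.smooth_cyclic hζ hP₀ hP₀0 hP₀ne hD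
      (by rw [nsmul_sub, ← map_nsmul, hx0, map_zero, sub_zero])
    exact ⟨n, by rw [ZMod.val_natCast, Nat.mod_eq_of_lt hn, ← hDn, add_sub_cancel]⟩
  choose k hk using hdiff
  have hsmul := val_nsmul_add hP₀0
  have hmul := val_nsmul_mul hP₀0
  have hinj0 : ∀ i j : ZMod p, i.val • P₀ = j.val • P₀ → i = j := by
    intro i j h
    have h' := congrArg (psi A ζ) h
    rw [H.psi_nsmul hζ hP₀ hP₀0, H.psi_nsmul hζ hP₀ hP₀0] at h'
    have := H.setting.charP
    have h'' : ZMod.castHom (dvd_refl p) (IsLocalRing.ResidueField A) i =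
        ZMod.castHom (dvd_refl p) (IsLocalRing.ResidueField A) j := by
      rw [← ZMod.natCast_zmod_val i, ← ZMod.natCast_zmod_val j, map_natCast, map_natCast]
      exact mul_right_cancel₀ (fun h0 => hP₀ne (H.psi_eq_zero hζ hP₀ hP₀0 h0)) h'
    exact RingHom.injective _ h''
  have hact : ∀ σ : Ω ≃ₐ[K] Ω, act σ P₀ = (χ σ).val • P₀ := fun σ =>
    H.act_smooth hζ hP₀ hP₀0 (hχ σ)
  have D : CycloCocycle ζ χ k := by
    refine ⟨hζ, hχ, fun σ τ => hinj0 _ _ ?_⟩
    have := hk (σ * τ)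
    rw [H.act_mul, hk τ, map_add, map_nsmul, hk σ, hact σ, add_assoc, add_right_inj,
      smul_comm, hmul, hsmul] at this
    exact this.symm
  -- the moving unit
  obtain ⟨π, hπ0, hπ, hxπ⟩ := H.exists_scale_xc hxp hx0
  have hfix : ∀ σ, k σ = 0 → act σ x = x := fun σ h => by
    rw [hk σ, h, ZMod.val_zero, zero_nsmul, add_zero]
  have hmove : ∀ σ, k σ ≠ 0 → act σ x ≠ x := fun σ h he => h (hinj0 _ 0 (by
    rw [hk σ, add_eq_left] at he
    rw [he, ZMod.val_zero, zero_nsmul]))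
  obtain ⟨e, η, hη, hcase⟩ := exists_unit_kummer S D (c := xc x / π)
    (by rw [map_div₀, hxπ, div_self ((Valuation.ne_zero_iff _).mpr hπ0)])
    (fun σ _ h => (H.moved hζ hxp hx0 hπ0 hπ hxπ σ).1 (hfix σ h))
    (fun σ _ h => (H.moved hζ hxp hx0 hπ0 hπ hxπ σ).2 (hmove σ h))
  refine ⟨P₀, x + e.val • P₀, fun σ => k σ + e * (χ σ - 1), η, hP₀0, ?_, ?_, ?_, ?_, hη, hcase⟩
  · rw [nsmul_add, hx0, smul_comm, hP₀0, nsmul_zero, add_zero]
  · intro Q hQ
    obtain ⟨i, hi, j, hj, rfl⟩ := hgen Q hQ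
    refine ⟨((i : ZMod p) - j * e).val, ZMod.val_lt _, j, hj, ?_⟩
    have hjv : ((j : ℕ) : ZMod p).val = j := by rw [ZMod.val_natCast, Nat.mod_eq_of_lt hj]
    have hiv : ((i : ℕ) : ZMod p).val = i := by rw [ZMod.val_natCast, Nat.mod_eq_of_lt hi]
    have h2 := hsmul ((i : ZMod p) - j * e) ((j : ZMod p) * e)
    rw [sub_add_cancel, hiv, ← hmul, hjv] at h2
    rw [nsmul_add, ← h2]
    abel
  · intro σ n hn
    exact H.act_smooth hζ hP₀ hP₀0 hn
  · intro σ
    rw [map_add, map_nsmul, hk σ, hact σ, hmul, add_assoc, add_assoc, hsmul, hsmul]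
    congr 3
    ring

end Fermat.Agent.LowerAtP
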