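import Fermat.Agent.LowerAtP.GeneralSetting
import Fermat.Agent.LowerAtP.GeneralTorsion
import Fermat.Agent.LowerAtP.LocalNodal
import Fermat.Agent.Multiplicative.Frame

/-!
# `p`-torsion of a curve with multiplicative reduction and `p ∣ v_p(Δ)`, locally at `p`

The nodal normal form over the local field is fixed by the automorphisms, so the computation on
nodal curves applies, with `p = 3` allowed.
-/

set_option autoImplicit false

noncomputable section

namespace Fermat.Agent.LowerAtP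

open WeierstrassCurve WeierstrassCurve.Affine Fermat.Agent.Multiplicative
open scoped WeierstrassCurve.Affine

variable {K Ω : Type} [Field K] [Field Ω] [CharZero Ω] [Algebra K Ω] [DecidableEq Ω]
  [IsAlgClosed Ω] {A : ValuationSubring Ω} {p : ℕ} [Fact p.Prime] (W : WeierstrassCurve ℤ)

local notation "v" => ValuationSubring.valuation A

namespace LocalSetting

variable (S : LocalSetting K A p)

include S

omit [CharZero Ω] [DecidableEq Ω] [IsAlgClosed Ω] in
lemma val_intCast_eq_zpow {n : ℤ} (hn : n ≠ 0) :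
    v (n : Ω) = v (p : Ω) ^ padicValInt p n := by
  obtain ⟨m, hm⟩ := padicValInt_dvd (p := p) n
  have hm' : ¬ (p : ℤ) ∣ m := by
    intro hd
    have hd' : (p : ℤ) ^ (padicValInt p n + 1) ∣ n := by
      conv_rhs => rw [hm]
      rw [pow_succ]
      exact mul_dvd_mul dvd_rfl hd
    rcases (padicValInt_dvd_iff _ n).mp hd' with h | h
    · exact hn h
    · omega
  have h : (n : Ω) = (p : Ω) ^ padicValInt p n * (m : Ω) := by
    rw [← Int.cast_natCast, ← Int.cast_pow, ← Int.cast_mul, ← hm]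
  rw [h, map_mul, map_pow, S.val_intCast_eq_one hm', mul_one]

omit [DecidableEq Ω] in
/-- The nodal normal form of `W` over `Ω`, by a change of variables fixed by all automorphisms. -/
theorem exists_nodal_form_curveOver (hΔ : W.Δ ≠ 0) (hdvd : (p : ℤ) ∣ W.Δ)
    (hc₄ : ¬ (p : ℤ) ∣ W.c₄) (hpeu : p ∣ padicValInt p W.Δ) :
    ∃ (C : VariableChange Ω) (a b : Ω), C.u = 1 ∧
      C • (curveOver Ω W) = nodalCurve a b ∧ IsNodal A a b ∧
      (∀ σ : Ω ≃ₐ[K] Ω, σ a = a ∧ σ C.r = C.r ∧ σ C.s = C.s ∧ σ C.t = C.t) ∧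
      v b ≤ v (p : Ω) ∧ ∃ z : Ω, (∀ σ : Ω ≃ₐ[K] Ω, σ z = z) ∧ v z ^ p = v b := by
  obtain ⟨k1, k2, k3, k4, k6⟩ := curveOver_coeff (Ω := Ω) W
  have hΔe : (curveOver Ω W).Δ = (W.Δ : Ω) := by rw [curveOver_eq, map_Δ, eq_intCast]
  have hce : (curveOver Ω W).c₄ = (W.c₄ : Ω) := by rw [curveOver_eq, map_c₄, eq_intCast]
  have hN1 : p ≤ padicValInt p W.Δ := by
    refine Nat.le_of_dvd (Nat.pos_of_ne_zero fun h => ?_) hpeu
    rcases (padicValInt_dvd_iff 1 W.Δ).mp (by simpa using hdvd) with h' | h'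
    · exact hΔ h'
    · omega
  have hvΔ : v (W.Δ : Ω) ≤ v (p : Ω) := val_intCast_of_dvd hdvd
  have hW : IsMultiplicativeModel A (curveOver Ω W) :=
    ⟨k1 ▸ valuation_intCast_le _, k2 ▸ valuation_intCast_le _, k3 ▸ valuation_intCast_le _,
      k4 ▸ valuation_intCast_le _, k6 ▸ valuation_intCast_le _,
      hce ▸ S.val_intCast_eq_one hc₄, hΔe ▸ hvΔ.trans_lt S.lt_one,
      hΔe ▸ Int.cast_ne_zero.mpr hΔ⟩
  obtain ⟨C, a, b, hu, hN, hC, hr, hs, -, hb⟩ := hW.exists_normalForm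
  rw [hΔe] at hb
  refine ⟨C, a, b, hu, hC, hN, fun σ => ?_, hb ▸ hvΔ, ?_⟩
  · set f : Ω →+* Ω := σ.toAlgHom.toRingHom with hf
    have hfx : ∀ x, f x = σ x := fun x => rfl
    have hmapc : WeierstrassCurve.map (curveOver Ω W) f = curveOver Ω W := by
      rw [curveOver_eq, WeierstrassCurve.map_map]
      exact congrArg W.map (RingHom.ext_int _ _)
    have hfixX : σ (nodeX (curveOver Ω W)) = nodeX (curveOver Ω W) := by
      rw [← hfx, map_nodeX, hmapc]
    set D : VariableChange Ω :=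
      ⟨1, σ C.r - C.r, σ C.s - C.s, σ C.t - C.t - (σ C.r - C.r) * C.s⟩ with hD
    have hDC : D * C = C.map f := by
      rw [VariableChange.mul_def]
      ext <;> simp [hD, hu, VariableChange.map, hfx]
    have hmap : D • (nodalCurve a b : WeierstrassCurve Ω) = nodalCurve (σ a) (σ b) := by
      have h1 : (D * C) • (curveOver Ω W : WeierstrassCurve Ω) = D • nodalCurve a b := by
        rw [mul_smul, hC]
      rw [hDC] at h1
      rw [← h1]
      conv_lhs => rw [← hmapc]
      rw [map_variableChange, hC]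
      ext <;> simp [nodalCurve, hfx]
    have hDr : v D.r < 1 := by
      have h1 : v (σ (C.r - nodeX (curveOver Ω W))) < 1 := by rw [S.iso]; exact hr
      rw [map_sub, hfixX] at h1
      have := Valuation.map_sub_lt A.valuation h1 hr
      rwa [sub_sub_sub_cancel_right] at this
    obtain ⟨h1, h2, h3, h4, -⟩ := nodal_change_unique hN (D := D) rfl hDr hmap
    simp only [hD, sub_eq_zero] at h1 h2 h3 h4
    rw [h1, sub_self, zero_mul, sub_eq_zero] at h2
    have hs' : σ C.s = C.s := by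
      rcases h3 with h3 | h3
      · exact h3
      · have := S.trivial_res σ C.s hs
        rw [h3, Valuation.map_neg, hN.val_a] at this
        exact absurd this (lt_irrefl _)
    exact ⟨by rw [h4, hs', sub_self, mul_zero, add_zero], h1, hs', h2⟩
  · obtain ⟨m, hm⟩ := hpeu
    exact ⟨(p : Ω) ^ m, fun σ => by simp, by
      rw [hb, S.val_intCast_eq_zpow hΔ, hm, map_pow, ← pow_mul, mul_comm]⟩

/-- **`E[p]` at a multiplicative prime `p` with `p ∣ v_p(Δ)`.** -/
theorem nodal_torsion_kummer (hp2 : p ≠ 2) (hΔ : W.Δ ≠ 0) (hdvd : (p : ℤ) ∣ W.Δ)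
    (hc₄ : ¬ (p : ℤ) ∣ W.c₄) (hpeu : p ∣ padicValInt p W.Δ) {ζ : Ω} (hζ : IsPrimitiveRoot ζ p) :
    ∃ (P₀ x : (curveOver Ω W).Point) (k : (Ω ≃ₐ[K] Ω) → ZMod p) (η : Ω),
      p • P₀ = 0 ∧ p • x = 0 ∧ (∀ j : ℕ, x ≠ j • P₀) ∧
      (∀ (σ : Ω ≃ₐ[K] Ω) (n : ℕ), σ ζ = ζ ^ n → actPoint W σ P₀ = n • P₀) ∧
      (∀ σ, actPoint W σ x = x + (k σ).val • P₀) ∧
      (∀ σ, σ η = ζ ^ (k σ).val * η) ∧
      (η = 1 ∨ ∃ u : K, v (algebraMap K Ω u) = 1 ∧ η ^ p = algebraMap K Ω u) := by
  classical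
  have hp := S.prime
  obtain ⟨C, a, b, hu, hC, hN, hfix, hsmall, hscale⟩ :=
    S.exists_nodal_form_curveOver W hΔ hdvd hc₄ hpeu
  have hΔΩ : (curveOver Ω W).Δ ≠ 0 := by
    rw [curveOver_eq, map_Δ, eq_intCast]
    exact Int.cast_ne_zero.mpr hΔ
  let e : (curveOver Ω W).Point ≃+ NPoint a b := changeEquiv hu hC hΔΩ
  let act : (Ω ≃ₐ[K] Ω) → NPoint a b →+ NPoint a b := fun σ =>
    e.toAddMonoidHom.comp ((actPoint W σ).comp e.symm.toAddMonoidHom)
  have hconj : ∀ (σ : Ω ≃ₐ[K] Ω) Q, Conj σ.toAlgHom.toRingHom Q (act σ Q) := by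
    intro σ Q
    obtain ⟨-, fr, fs, ft⟩ := hfix σ
    match Q with
    | .zero => exact _root_.map_zero (act σ)
    | .some X Y h =>
      obtain ⟨h', h0⟩ : ∃ h', act σ (Point.some X Y h) = Point.some (σ (X + C.r) - C.r)
          (σ (Y + C.s * X + C.t) - C.t - C.s * (σ (X + C.r) - C.r)) h' := ⟨_, rfl⟩
      have ex : σ (X + C.r) - C.r = σ X := by rw [map_add, fr, add_sub_cancel_right]
      have ey : σ (Y + C.s * X + C.t) - C.t - C.s * (σ (X + C.r) - C.r) = σ Y := by
        rw [ex, map_add, map_add, map_mul, fs, ft]; ring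
      rw [h0]
      generalize σ (X + C.r) - C.r = X' at *
      generalize σ (Y + C.s * X + C.t) - C.t - C.s * X' = Y' at *
      subst ex ey
      exact ⟨_, rfl⟩
  have H : NodalAction K A p a b act :=
    ⟨S, by have := hp.two_le; omega, hN, fun σ => (hfix σ).1, hsmall, hscale, hconj⟩
  obtain ⟨R₀, R, k, η, hR₀, hR, hgen, hactR₀, hactR, hη, hcase⟩ := H.torsion_kummer hζ
  refine ⟨e.symm R₀, e.symm R, k, η, by rw [← map_nsmul, hR₀, map_zero],
    by rw [← map_nsmul, hR, map_zero], fun j hj => ?_, fun σ n hn => ?_, fun σ => ?_, hη, hcase⟩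
  · rw [← map_nsmul, e.symm.injective.eq_iff] at hj
    have : (nodalCurve a b).IsElliptic := ⟨isUnit_iff_ne_zero.mpr hN.Δ_ne_zero⟩
    have hcard := ECTorsion.card_nsmul_eq_zero (nodalCurve a b) (n := p) S.ne_zero
    have hsurj : Function.Surjective fun i : Fin p =>
        (⟨i.1 • R₀, by rw [smul_comm, hR₀, nsmul_zero]⟩ : {P : NPoint a b // p • P = 0}) := by
      intro Q
      obtain ⟨i, -, i', -, hQ⟩ := hgen Q.1 Q.2
      refine ⟨⟨(i + i' * j) % p, Nat.mod_lt _ hp.pos⟩, Subtype.ext ?_⟩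
      rw [hQ, hj, ← mul_nsmul', ← add_nsmul]
      conv_rhs => rw [← Nat.mod_add_div (i + i' * j) p, add_nsmul, mul_nsmul', smul_comm p, hR₀,
        nsmul_zero, add_zero]
    have := Nat.card_le_card_of_surjective _ hsurj
    rw [hcard, Nat.card_fin] at this
    have := lt_self_pow₀ hp.one_lt one_lt_two
    omega
  · have h := congrArg e.symm (hactR₀ σ n hn)
    rw [map_nsmul] at h
    exact (e.symm_apply_apply _).symm.trans h
  · have h := congrArg e.symm (hactR σ)
    rw [map_add, map_nsmul] at h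
    exact (e.symm_apply_apply _).symm.trans h

end LocalSetting

end Fermat.Agent.LowerAtP
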