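import Fermat.Agent.LowerAtP.LocalSetting
import Fermat.Agent.HeckeAlg.DVRExtension
import Mathlib.FieldTheory.Galois.Infinite
import Mathlib.FieldTheory.IntermediateField.Adjoin.Algebra
import Mathlib.RingTheory.Valuation.ValuationRing

/-!
# The valuation on an algebraic closure of a complete discretely valued field

The integral closure of a complete DVR `O` in an algebraic closure `Ω` of its fraction field is a
valuation subring, stable under the automorphisms; if `p` is a uniformiser of `O` and the residue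
field is algebraically closed it satisfies `LocalSetting`.
-/

set_option autoImplicit false

noncomputable section

open IsLocalRing Polynomial

namespace Fermat.Agent.LowerAtP

variable (O K Ω : Type) [CommRing O] [IsDomain O] [IsDiscreteValuationRing O]
  [IsAdicComplete (maximalIdeal O) O] [Field K] [Algebra O K] [IsFractionRing O K]
  [Field Ω] [Algebra K Ω] [Algebra O Ω] [IsScalarTower O K Ω] [CharZero Ω]

include K in
omit [IsDomain O] [IsDiscreteValuationRing O] [IsAdicComplete (maximalIdeal O) O] [CharZero Ω] in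
lemma algebraMap_injective_closure : Function.Injective (algebraMap O Ω) := by
  rw [IsScalarTower.algebraMap_eq O K Ω]
  exact (algebraMap K Ω).injective.comp (IsFractionRing.injective O K)

variable [IsAlgClosure K Ω]

include K in
/-- In the finite extension generated by `x`, everything is a power of a uniformiser. -/
lemma exists_uniformiser_powers (x : Ω) (hx : x ≠ 0) {ϖ : O} (hϖ : Irreducible ϖ) :
    ∃ (π u w : Ω) (a : ℤ) (e : ℕ), 0 < e ∧ π ≠ 0 ∧ IsIntegral O π ∧
      IsIntegral O u ∧ IsIntegral O u⁻¹ ∧ IsIntegral O w ∧ IsIntegral O w⁻¹ ∧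
      x = u * π ^ a ∧ algebraMap O Ω ϖ = w * π ^ e := by
  have : Algebra.IsAlgebraic K Ω := IsAlgClosure.isAlgebraic
  have : CharZero K := (algebraMap K Ω).charZero
  let L := IntermediateField.adjoin K {x}
  have : FiniteDimensional K L :=
    IntermediateField.adjoin.finiteDimensional (Algebra.IsIntegral.isIntegral x)
  have : IsScalarTower O K L :=
    IsScalarTower.of_algebraMap_eq fun x => Subtype.ext (IsScalarTower.algebraMap_apply O K Ω x)
  have : IsScalarTower O L Ω := IsScalarTower.of_algebraMap_eq fun _ => rfl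
  obtain ⟨hdvr, -, -, hloc, -, hfrac, -⟩ :=
    HeckeAlg.exists_completeDVR_integralClosure O K L
  have := hdvr
  have := hfrac
  let B := integralClosure O L
  obtain ⟨π₀, hπ₀⟩ := IsDiscreteValuationRing.exists_irreducible B
  let j : B →+* Ω := (algebraMap L Ω).comp B.val.toRingHom
  have hjint : ∀ b : B, IsIntegral O (j b) := fun b => by
    have h : IsIntegral O (b : L) := b.2
    exact h.map (IsScalarTower.toAlgHom O L Ω)
  have hjunit : ∀ b : Bˣ, IsIntegral O (j b)⁻¹ := fun b => by
    rw [← map_units_inv]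
    exact hjint _
  have hjinj : Function.Injective j := (algebraMap L Ω).injective.comp Subtype.val_injective
  have hπ : j π₀ ≠ 0 := (map_ne_zero_iff j hjinj).mpr hπ₀.ne_zero
  -- the uniformiser below
  obtain ⟨e, w, hw⟩ := IsDiscreteValuationRing.eq_unit_mul_pow_irreducible
    ((map_ne_zero_iff (algebraMap O B) fun a b h => algebraMap_injective_closure O K Ω (by
      have := congrArg j h
      exact (IsScalarTower.algebraMap_apply O L Ω a).trans
        (this.trans (IsScalarTower.algebraMap_apply O L Ω b).symm))).mpr hϖ.ne_zero) hπ₀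
  have he : 0 < e := by
    rcases Nat.eq_zero_or_pos e with rfl | h
    · rw [pow_zero, mul_one] at hw
      have := hloc
      exact absurd (isUnit_of_map_unit (algebraMap O B) ϖ (hw ▸ w.isUnit)) hϖ.not_isUnit
    · exact h
  -- `x` as a quotient
  obtain ⟨n, d, hd, hnd⟩ := IsFractionRing.div_surjective B
    (⟨x, IntermediateField.subset_adjoin K {x} rfl⟩ : L)
  have hn0 : n ≠ 0 := fun h => hx (by
    rw [h, map_zero, zero_div] at hnd
    exact congrArg Subtype.val hnd.symm)
  obtain ⟨a, u₁, hu₁⟩ := IsDiscreteValuationRing.eq_unit_mul_pow_irreducible hn0 hπ₀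
  obtain ⟨b, u₂, hu₂⟩ :=
    IsDiscreteValuationRing.eq_unit_mul_pow_irreducible (nonZeroDivisors.ne_zero hd) hπ₀
  have hxe : x = j n / j d := by
    have := congrArg (algebraMap L Ω) hnd
    rw [map_div₀] at this
    exact this.symm
  refine ⟨j π₀, j u₁ / j u₂, j w, (a : ℤ) - b, e, he, hπ, hjint _, ?_, ?_, hjint _,
    hjunit w, ?_, ?_⟩
  · rw [div_eq_mul_inv]; exact (hjint _).mul (hjunit u₂)
  · rw [inv_div, div_eq_mul_inv]; exact (hjint _).mul (hjunit u₁)
  · rw [hxe, hu₁, hu₂, map_mul, map_mul, map_pow, map_pow, zpow_sub₀ hπ, zpow_natCast,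
      zpow_natCast, div_mul_div_comm]
  · rw [IsScalarTower.algebraMap_apply O L Ω, ← map_pow j, ← map_mul j, ← hw]
    rfl

/-- The valuation subring of integral elements. -/
def closureRing : ValuationSubring Ω where
  toSubring := (integralClosure O Ω).toSubring
  mem_or_inv_mem' x := by
    rcases eq_or_ne x 0 with rfl | hx
    · exact Or.inl (Subring.zero_mem _)
    obtain ⟨ϖ, hϖ⟩ := IsDiscreteValuationRing.exists_irreducible O
    obtain ⟨π, u, w, a, e, -, -, hπ, hu, hu', -, -, rfl, -⟩ :=
      exists_uniformiser_powers O K Ω x hx hϖ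
    rcases le_total 0 a with ha | ha
    · obtain ⟨n, rfl⟩ := Int.eq_ofNat_of_zero_le ha
      left
      rw [zpow_natCast]
      exact hu.mul (hπ.pow n)
    · obtain ⟨n, rfl⟩ := Int.exists_eq_neg_ofNat ha
      right
      rw [zpow_neg, zpow_natCast, mul_inv, inv_inv]
      exact hu'.mul (hπ.pow n)

variable {O K Ω}

lemma mem_closureRing {x : Ω} : x ∈ closureRing O K Ω ↔ IsIntegral O x := Iff.rfl

local notation "v" => ValuationSubring.valuation (closureRing O K Ω)

/-- The valuation ring is the integral closure of `O`. -/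
lemma valuation_le_one_iff_isIntegral {x : Ω} : v x ≤ 1 ↔ IsIntegral O x :=
  (ValuationSubring.valuation_le_one_iff _ x).trans mem_closureRing

lemma valuation_eq_one {x : Ω} (hx0 : x ≠ 0) (hx : IsIntegral O x) (hx' : IsIntegral O x⁻¹) :
    v x = 1 := by
  refine le_antisymm (valuation_le_one_iff_isIntegral.mpr hx) ?_
  have := valuation_le_one_iff_isIntegral (O := O) (K := K).mpr hx'
  rwa [map_inv₀, inv_le_one₀ (zero_lt_iff.mpr ((Valuation.ne_zero_iff _).mpr hx0))] at this

/-- Elements of `O` are integral. -/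
lemma valuation_algebraMap_le (c : O) : v (algebraMap O Ω c) ≤ 1 :=
  valuation_le_one_iff_isIntegral.mpr isIntegral_algebraMap

/-- Units of `O` have size one. -/
lemma valuation_unit (u : Oˣ) : v (algebraMap O Ω u) = 1 :=
  valuation_eq_one ((u.isUnit.map (algebraMap O Ω)).ne_zero) isIntegral_algebraMap
    (by rw [← map_units_inv]; exact isIntegral_algebraMap)

/-- Elements of `O` of size one are units. -/
lemma valuation_unit_of_lt {c : O} (h : v (algebraMap O Ω c) = 1) : IsUnit c := by
  by_contra hc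
  obtain ⟨ϖ, hϖ⟩ := IsDiscreteValuationRing.exists_irreducible O
  obtain ⟨d, rfl⟩ : ϖ ∣ c := by
    have : c ∈ maximalIdeal O := hc
    rwa [hϖ.maximalIdeal_eq, Ideal.mem_span_singleton] at this
  have hϖ1 : v (algebraMap O Ω ϖ) = 1 := by
    refine le_antisymm (valuation_algebraMap_le _) ?_
    rw [← h, map_mul, map_mul]
    exact mul_le_of_le_one_right' (valuation_algebraMap_le _)
  have hne : algebraMap O Ω ϖ ≠ 0 :=
    (map_ne_zero_iff _ (algebraMap_injective_closure O K Ω)).mpr hϖ.ne_zero
  have hint : IsIntegral O (algebraMap O Ω ϖ)⁻¹ :=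
    valuation_le_one_iff_isIntegral (K := K).mp (by rw [map_inv₀, hϖ1, inv_one])
  have hneK : algebraMap O K ϖ ≠ 0 :=
    (map_ne_zero_iff _ (IsFractionRing.injective O K)).mpr hϖ.ne_zero
  rw [IsScalarTower.algebraMap_apply O K Ω, ← map_inv₀,
    isIntegral_algebraMap_iff (algebraMap K Ω).injective] at hint
  obtain ⟨y, hy⟩ := IsIntegrallyClosed.isIntegral_iff.mp hint
  apply hϖ.not_isUnit
  refine IsUnit.of_mul_eq_one y (IsFractionRing.injective O K ?_)
  rw [map_mul, hy, map_one, mul_inv_cancel₀ hneK]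

variable {p : ℕ} [IsAlgClosed (ResidueField O)]

omit [IsAdicComplete (maximalIdeal O) O] [CharZero Ω] in
/-- An integral element is congruent to an element of `O`. -/
lemma exists_congr_const {A : ValuationSubring Ω}
    (hm : ∀ c : O, ¬ IsUnit c → A.valuation (algebraMap O Ω c) < 1)
    {x : Ω} (hxA : x ∈ A) (hx : IsIntegral O x) :
    ∃ c : O, A.valuation (x - algebraMap O Ω c) < 1 := by
  obtain ⟨f, hf, hfx⟩ := hx
  obtain ⟨g, hg⟩ : ∃ g : O[X], g.map (residue O) = f.map (residue O) ∧
      ∃ s : Multiset O, g = (s.map fun c => X - C c).prod := by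
    have hsp := IsAlgClosed.splits (f.map (residue O))
    choose lift hlift using residue_surjective (R := O)
    refine ⟨(((f.map (residue O)).roots.map lift).map fun c => X - C c).prod, ?_, _, rfl⟩
    rw [Polynomial.map_multiset_prod, Multiset.map_map, Multiset.map_map]
    conv_rhs => rw [hsp.eq_prod_roots_of_monic (hf.map _)]
    congr 1
    refine Multiset.map_congr rfl fun c _ => ?_
    simp [hlift]
  obtain ⟨s, rfl⟩ := hg.2
  have hdiff : A.valuation (aeval x ((s.map fun c => X - C c).prod - f)) < 1 := by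
    rw [aeval_eq_sum_range]
    refine Valuation.map_sum_lt' _ zero_lt_one fun i _ => ?_
    rw [Algebra.smul_def, map_mul]
    refine mul_lt_one_of_nonneg_of_lt_one_left zero_le (hm _ ?_)
      ((A.valuation_le_one_iff _).mpr (pow_mem hxA i))
    rw [← mem_nonunits_iff, ← mem_maximalIdeal, ← residue_eq_zero_iff, ← coeff_map,
      Polynomial.map_sub, hg.1, sub_self, coeff_zero]
  rw [map_sub, show aeval x f = 0 from hfx, sub_zero, map_multiset_prod, Multiset.map_map,
    map_multiset_prod, Multiset.map_map] at hdiff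
  by_contra hall
  push Not at hall
  refine absurd hdiff (not_lt.mpr (Multiset.one_le_prod ?_))
  intro t ht
  obtain ⟨c, -, rfl⟩ := Multiset.mem_map.mp ht
  simpa using hall c

variable (O K Ω)

/-- The integral closure of `O` in `Ω` satisfies `LocalSetting`. -/
theorem localSetting (hp : p.Prime) (hirr : Irreducible (p : O)) :
    LocalSetting K (closureRing O K Ω) p := by
  have : IsAlgClosed Ω := IsAlgClosure.isAlgClosed K
  have : Algebra.IsAlgebraic K Ω := IsAlgClosure.isAlgebraic
  have : CharZero K := (algebraMap K Ω).charZero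
  have : IsAlgClosure K Ω := inferInstance
  have : IsGalois K Ω := ⟨⟩
  have hpΩ : algebraMap O Ω (p : O) = (p : Ω) := map_natCast _ _
  have hpos : ∀ y : Ω, y ≠ 0 → 0 < v y := fun y hy =>
    zero_lt_iff.mpr ((Valuation.ne_zero_iff _).mpr hy)
  have hp0 : (p : Ω) ≠ 0 := Nat.cast_ne_zero.mpr hp.ne_zero
  have hlt : v (p : Ω) < 1 := by
    rw [← hpΩ]
    exact lt_of_le_of_ne (valuation_algebraMap_le _) fun h =>
      hirr.not_isUnit (valuation_unit_of_lt h)
  have hrat : ∀ x : Ω, x ≠ 0 → ∃ (e : ℕ) (m : ℤ), 0 < e ∧ v x ^ e = v (p : Ω) ^ m := by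
    intro x hx
    obtain ⟨π, u, w, a, e, he, hπ0, -, hu, hu', hw, hw', rfl, hpw⟩ :=
      exists_uniformiser_powers O K Ω x hx hirr
    refine ⟨e, a, he, ?_⟩
    rw [hpΩ] at hpw
    have hu0 : u ≠ 0 := left_ne_zero_of_mul hx
    have hw0 : w ≠ 0 := left_ne_zero_of_mul (hpw ▸ hp0)
    rw [hpw, map_mul, map_mul, valuation_eq_one hu0 hu hu', valuation_eq_one hw0 hw hw', one_mul,
      one_mul, map_zpow₀, map_pow, ← zpow_natCast, ← zpow_natCast, ← zpow_mul, ← zpow_mul,
      mul_comm]
  have hσint : ∀ (σ : Ω ≃ₐ[K] Ω) (x : Ω), IsIntegral O x → IsIntegral O (σ x) := fun σ x h =>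
    h.map (σ.toAlgHom.restrictScalars O)
  have hiso : ∀ (σ : Ω ≃ₐ[K] Ω) (x : Ω), v (σ x) = v x := by
    intro σ x
    rcases eq_or_ne x 0 with rfl | hx
    · rw [map_zero]
    obtain ⟨e, m, he, hem⟩ := hrat x hx
    refine (pow_left_inj₀ zero_le zero_le he.ne').mp ?_
    set t := x ^ e / (p : Ω) ^ m with ht
    have ht1 : v t = 1 := by
      rw [ht, map_div₀, map_pow, map_zpow₀, hem, div_self (zpow_ne_zero _ (hpos _ hp0).ne')]
    have ht0 : t ≠ 0 := fun h => by rw [h, map_zero] at ht1; exact zero_ne_one ht1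
    have h2 : v (σ t) = 1 := valuation_eq_one ((_root_.map_ne_zero _).mpr ht0)
      (hσint σ t (valuation_le_one_iff_isIntegral.mp ht1.le))
      (by rw [← map_inv₀]; exact hσint σ _ (valuation_le_one_iff_isIntegral.mp (by
        rw [map_inv₀, ht1, inv_one])))
    rw [ht, map_div₀ σ, map_pow σ, map_zpow₀ σ, map_natCast, map_div₀, map_pow, map_zpow₀,
      div_eq_one_iff_eq (zpow_ne_zero _ (hpos _ hp0).ne')] at h2
    rw [h2, hem]
  refine ⟨hp, hlt, hp0, hiso, fun σ x hx => ?_, fun c hc => ?_, hrat, fun x hx => ?_⟩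
  · obtain ⟨c, hc⟩ := exists_congr_const (A := closureRing O K Ω)
      (fun c hc => lt_of_le_of_ne (valuation_algebraMap_le c) fun h => hc (valuation_unit_of_lt h))
      ((ValuationSubring.valuation_le_one_iff _ _).mp hx) (valuation_le_one_iff_isIntegral.mp hx)
    rw [show σ x - x = σ (x - algebraMap O Ω c) - (x - algebraMap O Ω c) by
      rw [map_sub, IsScalarTower.algebraMap_apply O K Ω, AlgEquiv.commutes]; ring]
    exact Valuation.map_sub_lt _ (by rwa [hiso]) hc
  · have hpow : ∀ o : O, o ≠ 0 → ∃ n : ℕ, v (algebraMap O Ω o) = v (p : Ω) ^ n := by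
      intro o ho
      obtain ⟨n, u, rfl⟩ := IsDiscreteValuationRing.eq_unit_mul_pow_irreducible ho hirr
      exact ⟨n, by rw [map_mul, map_mul, valuation_unit, one_mul, map_pow, hpΩ, map_pow]⟩
    obtain ⟨n, d, hd, rfl⟩ := IsFractionRing.div_surjective O c
    obtain ⟨i, hi⟩ := hpow n fun h => hc (by rw [h, map_zero, zero_div])
    obtain ⟨j, hj⟩ := hpow d (nonZeroDivisors.ne_zero hd)
    refine ⟨(i : ℤ) - j, ?_⟩
    rw [map_div₀, map_div₀, ← IsScalarTower.algebraMap_apply, ← IsScalarTower.algebraMap_apply,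
      hi, hj, zpow_sub₀ (hpos _ hp0).ne', zpow_natCast, zpow_natCast]
  · exact (InfiniteGalois.mem_range_algebraMap_iff_fixed x).mpr hx

end Fermat.Agent.LowerAtP
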