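import Fermat.Agent.LowerAtP.LocalKummer
import Fermat.Agent.LowerAtP.LocalValuation
import Mathlib.Algebra.Algebra.Hom.Rat
import Mathlib.FieldTheory.Normal.Defs

/-!
# Unit Kummer classes, and restriction of local automorphisms to `ℚ̄`

Over the fraction field `K` of a complete DVR `O` with uniformiser `p` and algebraically closed
residue field, a unit Kummer cocycle is, up to a coboundary, trivial or that of some `1 + p c₀`
with `c₀ ∈ Oˣ`.
-/

set_option autoImplicit false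

noncomputable section

namespace Fermat.Agent.LowerAtP

open IsLocalRing (residue maximalIdeal ResidueField)

variable {O K Ω : Type} [CommRing O] [IsDomain O] [IsDiscreteValuationRing O]
  [IsAdicComplete (maximalIdeal O) O] [IsAlgClosed (ResidueField O)] [Field K] [Algebra O K]
  [IsFractionRing O K] [Field Ω] [Algebra K Ω] [Algebra O Ω] [IsScalarTower O K Ω] [CharZero Ω]
  [IsAlgClosure K Ω]

/-- A unit Kummer class is trivial or of the form `1 + p c₀` with `c₀` a unit. -/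
theorem exists_principal_kummer {p : ℕ} [Fact p.Prime] (hp3 : 3 ≤ p) (hirr : Irreducible (p : O)) {ζ : Ω}
    (hζ : IsPrimitiveRoot ζ p) {χ k : (Ω ≃ₐ[K] Ω) → ZMod p}
    (hχ : ∀ σ, σ ζ = ζ ^ (χ σ).val) {η : Ω} (hη : ∀ σ, σ η = ζ ^ (k σ).val * η) {u : K}
    (hu : (closureRing O K Ω).valuation (algebraMap K Ω u) = 1)
    (hηu : η ^ p = algebraMap K Ω u) :
    ∃ (e : ZMod p) (η' : Ω), (∀ σ, σ η' = ζ ^ (k σ + e * (χ σ - 1)).val * η') ∧
      (η' = 1 ∨ ∃ c₀ : Oˣ, η' ^ p = 1 + p * algebraMap O Ω c₀) := by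
  classical
  have hp := Fact.out (p := p.Prime)
  have S := localSetting O K Ω hp hirr
  let A := closureRing O K Ω
  have : IsAlgClosed Ω := IsAlgClosure.isAlgClosed K
  have hζ0 : ζ ≠ 0 := hζ.ne_zero hp.ne_zero
  -- the unit lies in `O`
  obtain ⟨u₀, rfl⟩ : ∃ u₀ : O, algebraMap O K u₀ = u := by
    have := valuation_le_one_iff_isIntegral.mp hu.le
    rw [isIntegral_algebraMap_iff (algebraMap K Ω).injective] at this
    exact IsIntegrallyClosed.isIntegral_iff.mp this
  rw [← IsScalarTower.algebraMap_apply] at hu hηu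
  have hu₀ : IsUnit u₀ := valuation_unit_of_lt hu
  -- remove a `p`-th power
  obtain ⟨zbar, hzbar⟩ := IsAlgClosed.exists_pow_nat_eq (residue O u₀) hp.pos
  obtain ⟨z₀, rfl⟩ := IsLocalRing.residue_surjective zbar
  have hz₀ : IsUnit z₀ := by
    rw [← IsLocalRing.residue_ne_zero_iff_isUnit]
    intro h
    rw [h, zero_pow hp.ne_zero] at hzbar
    exact (IsLocalRing.residue_ne_zero_iff_isUnit u₀).mpr hu₀ hzbar.symm
  obtain ⟨Z, rfl⟩ := hz₀
  obtain ⟨c, hc⟩ : (p : O) ∣ u₀ * ↑(Z⁻¹ ^ p) - 1 := by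
    rw [← Ideal.mem_span_singleton, ← hirr.maximalIdeal_eq, ← IsLocalRing.residue_eq_zero_iff,
      map_sub, map_mul, ← hzbar, ← map_pow, ← map_mul, ← Units.val_pow_eq_pow_val, ← Units.val_mul,
      ← mul_pow, mul_inv_cancel, one_pow, Units.val_one, sub_self]
  set η₁ := η * algebraMap O Ω ((Z⁻¹ : Oˣ) : O) with hη₁def
  have hη₁ : ∀ σ : Ω ≃ₐ[K] Ω, σ η₁ = ζ ^ (k σ).val * η₁ := fun σ => by
    rw [hη₁def, map_mul, hη, IsScalarTower.algebraMap_apply O K Ω, AlgEquiv.commutes, mul_assoc]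
  have hη₁p : η₁ ^ p = 1 + p * algebraMap O Ω c := by
    have := congrArg (algebraMap O Ω) hc
    rw [map_sub, map_mul, map_one, map_mul, map_natCast, Units.val_pow_eq_pow_val, map_pow,
      ← hηu, ← mul_pow, ← hη₁def] at this
    linear_combination this
  by_cases hcu : IsUnit c
  · exact ⟨0, η₁, fun σ => by rw [zero_mul, add_zero]; exact hη₁ σ,
      Or.inr ⟨hcu.unit, by rw [IsUnit.unit_spec]; exact hη₁p⟩⟩
  -- otherwise `η₁` is fixed up to a root of unity
  have hc1 : A.valuation (algebraMap O Ω c) < 1 :=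
    lt_of_le_of_ne (valuation_algebraMap_le c) fun h => hcu (valuation_unit_of_lt h)
  have hz := S.v_root_sub_one_pos hζ
  obtain ⟨ω, hω, hωη⟩ : ∃ ω : Ω, ω ^ p = 1 ∧ A.valuation (η₁ - ω) < A.valuation (ζ - 1) := by
    by_contra hall
    push Not at hall
    have hprod := congrArg (Polynomial.eval η₁) (Polynomial.X_pow_sub_one_eq_prod hp.pos hζ)
    simp only [Polynomial.eval_sub, Polynomial.eval_pow, Polynomial.eval_X, Polynomial.eval_one,
      Polynomial.eval_prod, Polynomial.eval_C] at hprod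
    rw [hη₁p, add_sub_cancel_left] at hprod
    have h2 := congrArg A.valuation hprod
    rw [map_prod] at h2
    have hlow : A.valuation (ζ - 1) ^ p ≤
        ∏ r ∈ Polynomial.nthRootsFinset p (1 : Ω), A.valuation (η₁ - r) := by
      conv_lhs => rw [← hζ.card_nthRootsFinset]
      rw [← Finset.prod_const]
      exact Finset.prod_le_prod' fun r hr => hall r ((Polynomial.mem_nthRootsFinset hp.pos 1).mp hr)
    rw [← h2, map_mul, show A.valuation (ζ - 1) ^ p =
        A.valuation (ζ - 1) ^ (p - 1) * A.valuation (ζ - 1) by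
      rw [← pow_succ, Nat.sub_add_cancel hp.one_le], (S.root_sub_one hζ).1] at hlow
    have hvc : A.valuation (algebraMap O Ω c) ≤ A.valuation (p : Ω) := by
      obtain ⟨c', rfl⟩ : (p : O) ∣ c := by
        rw [← Ideal.mem_span_singleton, ← hirr.maximalIdeal_eq]; exact hcu
      rw [map_mul, map_mul, map_natCast]
      exact mul_le_of_le_one_right' (valuation_algebraMap_le _)
    exact absurd ((le_of_mul_le_mul_left hlow S.v_pos).trans hvc)
      (not_le.mpr (S.v_prime_lt_root hp3 hζ))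
  obtain ⟨i, hi, rfl⟩ := hζ.eq_pow_of_pow_eq_one hω
  set w := η₁ / ζ ^ i with hwdef
  have hωv : A.valuation (ζ ^ i) = 1 := S.v_root_of_unity hω
  have hwp : w ^ p = η₁ ^ p := by rw [hwdef, div_pow, hω, div_one]
  have hw1 : A.valuation (w - 1) < A.valuation (ζ - 1) := by
    rwa [hwdef, div_sub_one (pow_ne_zero _ hζ0), map_div₀, hωv, div_one]
  have hwv : A.valuation w = 1 := by
    rw [show w = 1 + (w - 1) by ring, Valuation.map_add_eq_of_lt_left, map_one]
    rw [map_one]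
    exact hw1.trans (S.v_root_sub_one_lt hζ.pow_eq_one)
  have hw0 : w ≠ 0 := fun h => by rw [h, map_zero] at hwv; exact zero_ne_one hwv
  have hwfix : ∀ σ : Ω ≃ₐ[K] Ω, σ w = w := by
    intro σ
    have hq : (σ w / w) ^ p = 1 := by
      rw [div_pow, ← map_pow, hwp, hη₁p, map_add, map_one, map_mul, map_natCast,
        IsScalarTower.algebraMap_apply O K Ω, AlgEquiv.commutes, ← IsScalarTower.algebraMap_apply,
        ← hη₁p, div_self]
      rw [← hwp]
      exact pow_ne_zero _ hw0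
    obtain ⟨j, hj, hje⟩ := hζ.eq_pow_of_pow_eq_one hq
    by_contra hne
    have hj0 : ¬ p ∣ j := fun h => hne (by
      rw [Nat.eq_zero_of_dvd_of_lt h hj, pow_zero, eq_comm, div_eq_one_iff_eq hw0] at hje
      exact hje)
    have h1 : A.valuation (σ w - w) < A.valuation (ζ - 1) := by
      rw [show σ w - w = σ (w - 1) - (w - 1) by rw [map_sub, map_one]; ring]
      exact Valuation.map_sub_lt _ (by rwa [S.iso]) hw1
    rw [← div_mul_cancel₀ (σ w) hw0, ← hje, ← sub_one_mul, map_mul, hwv, mul_one,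
      S.v_pow_sub_one hζ hj0] at h1
    exact lt_irrefl _ h1
  have hcast : ∀ m n : ℕ, ζ ^ m = ζ ^ n → (m : ZMod p) = n := fun m n h => by
    rw [ZMod.natCast_eq_natCast_iff']
    rw [pow_eq_pow_mod m hζ.pow_eq_one, pow_eq_pow_mod n hζ.pow_eq_one] at h
    exact hζ.pow_inj (Nat.mod_lt _ hp.pos) (Nat.mod_lt _ hp.pos) h
  refine ⟨-(i : ZMod p), 1, fun σ => ?_, Or.inl rfl⟩
  have h := hη₁ σ
  rw [← div_mul_cancel₀ η₁ (pow_ne_zero i hζ0), ← hwdef, map_mul, hwfix, map_pow, hχ,
    mul_left_comm, mul_right_inj' hw0, ← pow_mul, ← pow_add] at h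
  have h' := hcast _ _ h
  push_cast at h'
  rw [ZMod.natCast_zmod_val, ZMod.natCast_zmod_val] at h'
  rw [show k σ + -(i : ZMod p) * (χ σ - 1) = 0 by linear_combination -h', ZMod.val_zero, pow_zero,
    map_one, one_mul]

omit [IsAlgClosure K Ω] in
/-- An automorphism of `Ω` restricts to `ℚ̄`. -/
lemma exists_restrict (ι : AlgebraicClosure ℚ →+* Ω) (σ : Ω ≃ₐ[K] Ω) :
    ∃ σ₀ : AlgebraicClosure ℚ ≃ₐ[ℚ] AlgebraicClosure ℚ, ∀ z, ι (σ₀ z) = σ (ι z) := by
  let := ι.toAlgebra
  have : IsScalarTower ℚ (AlgebraicClosure ℚ) Ω :=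
    IsScalarTower.of_algebraMap_eq' (Subsingleton.elim _ _)
  have : Algebra.IsAlgebraic ℚ (AlgebraicClosure ℚ) := AlgebraicClosure.isAlgebraic ℚ
  have : Normal ℚ (AlgebraicClosure ℚ) :=
    normal_iff.mpr fun z => ⟨Algebra.IsIntegral.isIntegral z, IsAlgClosed.splits _⟩
  let f : Ω →ₐ[ℚ] Ω := σ.toAlgHom.toRingHom.toRatAlgHom
  refine ⟨AlgHom.restrictNormal' f (AlgebraicClosure ℚ), fun z => ?_⟩
  exact AlgHom.restrictNormal_commutes f (AlgebraicClosure ℚ) z

end Fermat.Agent.LowerAtP
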