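import Fermat.Agent.LowerAtP.GeneralOrdinary
import Fermat.Agent.LowerAtP.GeneralNodal
import Fermat.Agent.LowerAtP.LocalTorsion
import Mathlib.RingTheory.RootsOfUnity.AlgebraicallyClosed

/-!
# A `p`-torsion vector of a semistable curve split by `(1 + p c₀) ^ (1 / p)` locally at `p`

For `p` odd, multiplicative with `p ∣ v_p(Δ)` or good ordinary reduction. With good supersingular
reduction no nonzero vector is fixed by the stabiliser of `ζ_p`.
-/

set_option autoImplicit false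

noncomputable section

namespace Fermat.Agent.LowerAtP

open WeierstrassCurve WeierstrassCurve.Affine
open IsLocalRing (maximalIdeal ResidueField)
open scoped WeierstrassCurve.Affine

variable {O K Ω : Type} [CommRing O] [IsDomain O] [IsDiscreteValuationRing O]
  [IsAdicComplete (maximalIdeal O) O] [IsAlgClosed (ResidueField O)] [Field K] [Algebra O K]
  [IsFractionRing O K] [Field Ω] [Algebra K Ω] [Algebra O Ω] [IsScalarTower O K Ω] [CharZero Ω]
  [IsAlgClosure K Ω]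

/-- From a unit Kummer cocycle to a vector fixed by the stabiliser of `(1 + p c₀) ^ (1 / p)`. -/
theorem exists_fixed_of_kummer {p : ℕ} [Fact p.Prime] (hp3 : 3 ≤ p) (hirr : Irreducible (p : O))
    {ζ : Ω} (hζ : IsPrimitiveRoot ζ p) {G : Type*} [AddCommGroup G]
    (act : (Ω ≃ₐ[K] Ω) → G →+ G) {P₀ x : G} {k : (Ω ≃ₐ[K] Ω) → ZMod p} {η : Ω}
    (hP₀ : p • P₀ = 0) (hx : p • x = 0) (hxP : ∀ j : ℕ, x ≠ j • P₀)
    (hactP : ∀ (σ : Ω ≃ₐ[K] Ω) (n : ℕ), σ ζ = ζ ^ n → act σ P₀ = n • P₀)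
    (hactx : ∀ σ, act σ x = x + (k σ).val • P₀) (hη : ∀ σ, σ η = ζ ^ (k σ).val * η)
    (hcase : η = 1 ∨ ∃ u : K, (closureRing O K Ω).valuation (algebraMap K Ω u) = 1 ∧
      η ^ p = algebraMap K Ω u) :
    ∃ (x' : G) (η' : Ω) (c₀ : Oˣ), x' ≠ 0 ∧ p • x' = 0 ∧
      η' ^ p = 1 + (p : Ω) * algebraMap O Ω c₀ ∧
      ∀ σ : Ω ≃ₐ[K] Ω, σ η' = η' → act σ x' = x' := by
  have hp : p.Prime := Fact.out
  have : IsAlgClosed Ω := IsAlgClosure.isAlgClosed K
  have S := localSetting O K Ω hp hirr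
  choose χ _ hχ using S.exists_exponent hζ
  obtain ⟨e, η₁, hη₁, hcase₁⟩ : ∃ (e : ZMod p) (η₁ : Ω),
      (∀ σ, σ η₁ = ζ ^ (k σ + e * (χ σ - 1)).val * η₁) ∧
        (η₁ = 1 ∨ ∃ c₀ : Oˣ, η₁ ^ p = 1 + p * algebraMap O Ω c₀) := by
    rcases hcase with h | ⟨u, hu, hηu⟩
    · exact ⟨0, η, fun σ => by rw [zero_mul, add_zero]; exact hη σ, Or.inl h⟩
    · exact exists_principal_kummer hp3 hirr hζ hχ hη hu hηu
  have hfix : ∀ σ : Ω ≃ₐ[K] Ω, η₁ ≠ 0 → σ η₁ = η₁ →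
      act σ (x + e.val • P₀) = x + e.val • P₀ := by
    intro σ h0 h
    rw [hη₁, mul_eq_right₀ h0, ← pow_zero ζ, ← ZMod.val_zero (n := p)] at h
    have hk := LocalSetting.val_inj hζ h
    have hk' : ((k σ).val + e.val * (χ σ).val : ℕ) % p = e.val % p := by
      rw [← ZMod.natCast_eq_natCast_iff']
      push_cast
      simp only [ZMod.natCast_zmod_val]
      linear_combination hk
    rw [map_add, map_nsmul, hactx, hactP σ _ (hχ σ), ← mul_nsmul', add_assoc, ← add_nsmul]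
    congr 1
    rw [← Nat.mod_add_div ((k σ).val + e.val * (χ σ).val) p, hk',
      Nat.mod_eq_of_lt (ZMod.val_lt e), add_nsmul, mul_nsmul', smul_comm p, hP₀, nsmul_zero,
      add_zero]
  have hne : x + e.val • P₀ ≠ 0 := fun h => hxP ((p - 1) * e.val) (by
    rw [eq_neg_of_add_eq_zero_left h, neg_eq_iff_add_eq_zero, ← add_nsmul,
      show e.val + (p - 1) * e.val = p * e.val by
        obtain ⟨m, rfl⟩ : ∃ m, p = m + 1 := ⟨p - 1, by omega⟩
        rw [Nat.add_sub_cancel]; ring, mul_nsmul', smul_comm, hP₀, nsmul_zero])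
  have hpx : p • (x + e.val • P₀) = 0 := by
    rw [nsmul_add, hx, smul_comm, hP₀, nsmul_zero, add_zero]
  rcases hcase₁ with h1 | ⟨c₀, hc₀⟩
  · obtain ⟨η', hη'⟩ := IsAlgClosed.exists_pow_nat_eq
      (1 + (p : Ω) * algebraMap O Ω ((1 : Oˣ) : O)) hp.pos
    exact ⟨_, η', 1, hne, hpx, hη', fun σ _ =>
      hfix σ (h1 ▸ one_ne_zero) (by rw [h1, map_one])⟩
  · refine ⟨_, η₁, c₀, hne, hpx, hc₀, fun σ => hfix σ fun h => ?_⟩
    rw [h, zero_pow hp.ne_zero] at hc₀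
    have h1 : (closureRing O K Ω).valuation ((p : Ω) * algebraMap O Ω c₀) = 1 := by
      rw [show (p : Ω) * algebraMap O Ω (c₀ : O) = -1 by linear_combination -hc₀,
        Valuation.map_neg, map_one]
    rw [map_mul, valuation_unit, mul_one] at h1
    exact S.lt_one.ne h1

/-- The `p`-torsion over `ℚ̄` and over `Ω` agree, equivariantly. -/
theorem exists_torsion_lift [IsAlgClosed Ω] [DecidableEq Ω] {W : WeierstrassCurve ℤ} (hΔ : W.Δ ≠ 0) {p : ℕ}
    (hp : p ≠ 0) (ι : AlgebraicClosure ℚ →+* Ω) {x : (curveOver Ω W).Point} (hx : p • x = 0) :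
    ∃ x₀ : Submodule.torsionBy ℤ
        ((W.map (Int.castRingHom ℚ))⁄(AlgebraicClosure ℚ)).Point p,
      Point.map ι.toRatAlgHom x₀.1 = x := by
  classical
  have hΔℚ : (W.map (Int.castRingHom ℚ)).Δ ≠ 0 := ECTorsion.Δ_map_intCast_ne_zero W hΔ
  have hcardΩ : Nat.card (Submodule.torsionBy ℤ (curveOver Ω W).Point p) = p ^ 2 :=
    ECTorsion.card_torsionBy_baseChange (W.map (Int.castRingHom ℚ))
      ((_root_.map_ne_zero _).mpr hΔℚ) (Nat.cast_ne_zero.mpr hp)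
  have hcardQ := ECTorsion.card_torsionBy_rat (W.map (Int.castRingHom ℚ)) hΔℚ hp
  let E₀ := Submodule.torsionBy ℤ ((W.map (Int.castRingHom ℚ))⁄(AlgebraicClosure ℚ)).Point p
  let g : E₀ → Submodule.torsionBy ℤ (curveOver Ω W).Point p := fun T =>
    ⟨Point.map ι.toRatAlgHom T.1, by
      have h := (Submodule.mem_torsionBy_iff _ _).mp T.2
      rw [Submodule.mem_torsionBy_iff, ← map_zsmul, h, map_zero]⟩
  have : Finite (Submodule.torsionBy ℤ (curveOver Ω W).Point p) :=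
    Nat.finite_of_card_ne_zero (by rw [hcardΩ]; exact pow_ne_zero _ hp)
  have : Finite E₀ := Nat.finite_of_card_ne_zero (by rw [hcardQ]; exact pow_ne_zero _ hp)
  have hg : Function.Bijective g := (Nat.bijective_iff_injective_and_card g).mpr
    ⟨fun T T' h => Subtype.ext (Point.map_injective ι.toRatAlgHom (congrArg Subtype.val h)),
      by rw [hcardΩ, hcardQ]⟩
  obtain ⟨x₀, hx₀⟩ := hg.2 ⟨x, by rw [Submodule.mem_torsionBy_iff, natCast_zsmul, hx]⟩
  exact ⟨x₀, congrArg Subtype.val hx₀⟩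

omit [IsAlgClosure K Ω] in
lemma map_smul_eq_actPoint [DecidableEq Ω] (W : WeierstrassCurve ℤ)
    (ι : AlgebraicClosure ℚ →+* Ω) {σ : Ω ≃ₐ[K] Ω}
    {σ₀ : AlgebraicClosure ℚ ≃ₐ[ℚ] AlgebraicClosure ℚ} (h : ∀ z, ι (σ₀ z) = σ (ι z))
    (P : ((W.map (Int.castRingHom ℚ))⁄(AlgebraicClosure ℚ)).Point) :
    Point.map ι.toRatAlgHom (σ₀ • P) = actPoint W σ (Point.map ι.toRatAlgHom P) := by
  show Point.map ι.toRatAlgHom (Point.map σ₀.toAlgHom P) =
    Point.map (ratAut σ).toAlgHom (Point.map ι.toRatAlgHom P)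
  rw [Point.map_map, Point.map_map]
  congr 1
  exact congrArg Point.map (AlgHom.ext h)

/-- **A split vector**: for `W` semistable at the odd prime `p`, with `p ∣ v_p(Δ)` and, in the good
case, ordinary reduction, some nonzero `p`-torsion point is fixed by every automorphism over `K`
which fixes a `p`-th root of some `1 + p c₀`, `c₀ ∈ Oˣ`. -/
theorem exists_vector_split (W : WeierstrassCurve ℤ) (hΔ : W.Δ ≠ 0) {p : ℕ} [Fact p.Prime]
    (hp2 : p ≠ 2) (hss : (p : ℤ) ∣ W.Δ → ¬ (p : ℤ) ∣ W.c₄) (hpeu : p ∣ padicValInt p W.Δ)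
    (hord : ¬ (p : ℤ) ∣ W.Δ → ¬ (p : ℤ) ∣ W.apOfModel p)
    (hirr : Irreducible (p : O)) (ι : AlgebraicClosure ℚ →+* Ω) :
    ∃ (x : Submodule.torsionBy ℤ ((W.map (Int.castRingHom ℚ))⁄(AlgebraicClosure ℚ)).Point p)
      (η : Ω) (c₀ : Oˣ), x ≠ 0 ∧ η ^ p = 1 + (p : Ω) * algebraMap O Ω c₀ ∧
      ∀ (σ : Ω ≃ₐ[K] Ω) (σ₀ : AlgebraicClosure ℚ ≃ₐ[ℚ] AlgebraicClosure ℚ),
        (∀ z, ι (σ₀ z) = σ (ι z)) → σ η = η → σ₀ • x = x := by
  classical
  have hp : p.Prime := Fact.out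
  have : IsAlgClosed Ω := IsAlgClosure.isAlgClosed K
  have : NeZero (p : Ω) := ⟨Nat.cast_ne_zero.mpr hp.ne_zero⟩
  obtain ⟨ζ, hζ⟩ := HasEnoughRootsOfUnity.exists_primitiveRoot Ω p
  have S := localSetting O K Ω hp hirr
  have hp3 : 3 ≤ p := by have := hp.two_le; omega
  obtain ⟨P₀, x, k, η, h1, h2, h3, h4, h5, h6, h7⟩ :=
    (if hd : (p : ℤ) ∣ W.Δ then S.nodal_torsion_kummer W hp2 hΔ hd (hss hd) hpeu hζ
      else S.ordinary_torsion_kummer W hζ hp2 hd (hord hd))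
  obtain ⟨x', η', c₀, hx', hpx', hη', hfix⟩ :=
    exists_fixed_of_kummer hp3 hirr hζ (actPoint W) h1 h2 h3 h4 h5 h6 h7
  obtain ⟨x₀, hx₀⟩ := exists_torsion_lift hΔ hp.ne_zero ι hpx'
  refine ⟨x₀, η', c₀, fun h => hx' ?_, hη', fun σ σ₀ hσ hση => ?_⟩
  · rw [← hx₀, h]
    exact _root_.map_zero (Point.map ι.toRatAlgHom)
  · refine Subtype.ext (Point.map_injective ι.toRatAlgHom ?_)
    show Point.map ι.toRatAlgHom (σ₀ • x₀.1) = Point.map ι.toRatAlgHom x₀.1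
    rw [map_smul_eq_actPoint W ι hσ, hx₀, hfix σ hση]

/-- **The supersingular case**: no nonzero `p`-torsion point is fixed by the stabiliser of `ζ`. -/
theorem eq_zero_of_fixed_supersingular (W : WeierstrassCurve ℤ) {p : ℕ} [Fact p.Prime]
    (hp2 : p ≠ 2) (hgood : ¬ (p : ℤ) ∣ W.Δ) (ha : (p : ℤ) ∣ W.apOfModel p)
    (hirr : Irreducible (p : O)) (ι : AlgebraicClosure ℚ →+* Ω) {ζ : Ω}
    (hζ : IsPrimitiveRoot ζ p)
    (x : Submodule.torsionBy ℤ ((W.map (Int.castRingHom ℚ))⁄(AlgebraicClosure ℚ)).Point p)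
    (hfix : ∀ (σ : Ω ≃ₐ[K] Ω) (σ₀ : AlgebraicClosure ℚ ≃ₐ[ℚ] AlgebraicClosure ℚ),
      (∀ z, ι (σ₀ z) = σ (ι z)) → σ ζ = ζ → σ₀ • x = x) : x = 0 := by
  classical
  have hp : p.Prime := Fact.out
  have : IsAlgClosed Ω := IsAlgClosure.isAlgClosed K
  by_contra hx
  refine (localSetting O K Ω hp hirr).not_fixed_supersingular W hp2 hgood ha hζ
    (P := Point.map ι.toRatAlgHom x.1) (fun h => hx ?_) ?_ fun σ hσ => ?_
  · refine Subtype.ext (Point.map_injective ι.toRatAlgHom ?_)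
    rw [h]
    exact (_root_.map_zero (Point.map ι.toRatAlgHom)).symm
  · have h := (Submodule.mem_torsionBy_iff _ _).mp x.2
    rw [natCast_zsmul] at h
    rw [← map_nsmul, h]
    exact _root_.map_zero _
  · obtain ⟨σ₀, hσ₀⟩ := exists_restrict ι σ
    rw [← map_smul_eq_actPoint W ι hσ₀]
    exact congrArg _ (congrArg Subtype.val (hfix σ σ₀ hσ₀ hσ))

end Fermat.Agent.LowerAtP
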