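import Fermat.Agent.LowerAtP.GeneralVector
import Fermat.Agent.FreyModel.Basic

/-!
# A `p`-torsion point of the Frey curve split by `(1 + p c₀) ^ (1 / p)` locally at `p`

At `p ∣ a b c` the integral Frey model is multiplicative with `p ∣ v_p(Δ) = 2 p v_p(a b c)`, so
this is the general statement for semistable curves.
-/

set_option autoImplicit false

noncomputable section

namespace Fermat.Agent.LowerAtP

open WeierstrassCurve WeierstrassCurve.Affine
open IsLocalRing (maximalIdeal ResidueField)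
open scoped WeierstrassCurve.Affine

variable {O K Ω : Type} [CommRing O] [IsDomain O] [IsDiscreteValuationRing O]
  [IsAdicComplete (maximalIdeal O) O] [IsAlgClosed (ResidueField O)] [Field K] [Algebra O K]
  [IsFractionRing O K] [Field Ω] [Algebra K Ω] [Algebra O Ω] [IsScalarTower O K Ω] [CharZero Ω]
  [IsAlgClosure K Ω]

/-- Some nonzero `p`-torsion point of the Frey curve is fixed by every automorphism over `K`
which fixes a `p`-th root of some `1 + p c₀`, `c₀ ∈ Oˣ`. -/
theorem freyCurve_exists_vector_split (P : FreyPackage) (hdvd : (P.p : ℤ) ∣ P.a * P.b * P.c)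
    (hirr : Irreducible (P.p : O)) (ι : AlgebraicClosure ℚ →+* Ω) :
    ∃ (x : Submodule.torsionBy ℤ (P.freyCurve⁄(AlgebraicClosure ℚ)).Point P.p) (η : Ω) (c₀ : Oˣ),
      x ≠ 0 ∧ η ^ P.p = 1 + (P.p : Ω) * algebraMap O Ω c₀ ∧
      ∀ (σ : Ω ≃ₐ[K] Ω) (σ₀ : AlgebraicClosure ℚ ≃ₐ[ℚ] AlgebraicClosure ℚ),
        (∀ z, ι (σ₀ z) = σ (ι z)) → σ η = η → σ₀ • x = x := by
  have := Fact.mk P.pp
  have hp2 : P.p ≠ 2 := fun h => absurd P.hp5 (by omega)
  have hΔ := FreyModel.freyCurveInt_Δ_ne_zero P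
  have hpΔ : (P.p : ℤ) ∣ P.freyCurveInt.Δ :=
    (FreyModel.dvd_freyCurveInt_Δ_iff P P.pp).mpr hdvd
  have hpeu : P.p ∣ padicValInt P.p P.freyCurveInt.Δ := by
    have habc : P.a * P.b * P.c ≠ 0 := mul_ne_zero (mul_ne_zero P.ha0 P.hb0) P.hc0
    have h := congrArg Int.natAbs (FreyModel.freyCurveInt_Δ P)
    rw [Int.natAbs_mul, Int.natAbs_pow, Int.natAbs_pow] at h
    have h' := congrArg (padicValNat P.p) h
    rw [padicValNat.mul (by norm_num) (Int.natAbs_ne_zero.mpr hΔ),
      padicValNat.pow, padicValNat.pow,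
      padicValNat.eq_zero_of_not_dvd (n := Int.natAbs 256) (fun hd => hp2 ((Nat.prime_dvd_prime_iff_eq P.pp Nat.prime_two).mp
        (P.pp.dvd_of_dvd_pow (show P.p ∣ 2 ^ 8 by simpa using hd)))), zero_add] at h'
    exact ⟨2 * padicValNat P.p (P.a * P.b * P.c).natAbs, h'.trans (by ring)⟩
  have h := exists_vector_split (K := K) P.freyCurveInt hΔ hp2
    (FreyModel.freyCurveInt_isSemistableModel P P.p P.pp) hpeu
    (fun hgood => absurd hpΔ hgood) hirr ι
  rw [FreyModel.map_freyCurveInt] at h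
  exact h

end Fermat.Agent.LowerAtP
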