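import Fermat.Agent.ECFrobenius.Frobenius
import Fermat.Agent.ECReduction.Kernel
import Fermat.Agent.ECTorsion.Count
import Fermat.Agent.ECTorsion.Structure
import Mathlib.RingTheory.Valuation.LocalSubring
import Mathlib.RingTheory.Algebraic.MvPolynomial
import Mathlib.FieldTheory.RatFunc.AsPolynomial

/-!
# The `p`-torsion of a curve over `𝔽_p` and the trace of Frobenius

If the `p`-th division polynomial of an elliptic curve over `𝔽_p` is constant then `p ∣ a_p`
(compare the pole orders at infinity of `x ∘ p` and `x ∘ F ∘ (a - F)`), and conversely there is no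
`p`-torsion when `p ∣ a_p`.
-/

set_option autoImplicit false

noncomputable section

namespace Fermat.Agent.LowerAtP

open WeierstrassCurve WeierstrassCurve.Affine Polynomial
open Fermat.Agent.ECReduction (InKer zParam IntegralCoeffs inKer_neg one_lt_valuation)
open scoped WeierstrassCurve.Affine

variable {p : ℕ} [hp : Fact p.Prime]

/-- An element of a valued field algebraic over a finite prime field is integral. -/
lemma valuation_algebraMap_zmod {L : Type*} [Field L] [Algebra (ZMod p) L]
    (A : ValuationSubring L) (c : ZMod p) :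
    A.valuation (algebraMap (ZMod p) L c) ≤ 1 := by
  rw [← ZMod.natCast_zmod_val c, map_natCast]
  exact (A.valuation_le_one_iff _).mpr (natCast_mem A _)

/-- The size of a monic polynomial with coefficients in `𝔽_p` at a large argument. -/
lemma valuation_eval_monic {L : Type*} [Field L] [Algebra (ZMod p) L] (A : ValuationSubring L)
    {f : (ZMod p)[X]} (hf : f.Monic) {x : L} (hx : 1 < A.valuation x) :
    A.valuation (aeval x f) = A.valuation x ^ f.natDegree := by
  rw [aeval_eq_sum_range, Finset.sum_range_succ, coeff_natDegree, hf.leadingCoeff, one_smul,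
    Valuation.map_add_eq_of_lt_right, map_pow]
  rw [map_pow]
  refine Valuation.map_sum_lt _ (pow_ne_zero _ (zero_lt_one.trans hx).ne') fun i hi => ?_
  rw [Algebra.smul_def, map_mul, map_pow]
  exact lt_of_le_of_lt (mul_le_of_le_one_left' (valuation_algebraMap_zmod A _))
    (pow_lt_pow_right₀ hx (Finset.mem_range.mp hi))

/-- The parameter of the negative of a kernel point has the same size. -/
lemma valuation_zParam_neg {K : Type*} [Field K] {A : ValuationSubring K}
    [DecidableEq K] {E : WeierstrassCurve.Affine K} (hE : IntegralCoeffs A E) {P : E.Point}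
    (hP : InKer A P) : A.valuation (zParam (-P)) = A.valuation (zParam P) := by
  rcases eq_or_ne P 0 with rfl | h0
  · rw [neg_zero]
  have h := hE.zParam_neg hP
  have hpos : 0 < A.valuation (zParam P) :=
    (Valuation.pos_iff _).mpr (hE.zParam_ne_zero hP h0)
  have hlt : A.valuation (zParam P + zParam (-P)) < A.valuation (zParam P) :=
    lt_of_le_of_lt h (by rw [pow_two]; exact mul_lt_of_lt_one_left hpos (hE.zParam_lt_one hP))
  have := Valuation.map_sub_eq_of_lt_right A.valuation hlt
  rwa [add_sub_cancel_left] at this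

/-- If the `p`-th division polynomial of `W₀ / 𝔽_p` is constant, then `p ∣ a_p`. -/
theorem dvd_trace_of_preΨ'_eq_C (hp2 : p ≠ 2) (W₀ : WeierstrassCurve (ZMod p)) [W₀.IsElliptic]
    {c : ZMod p} (hc : W₀.preΨ' p = C c) : (p : ℤ) ∣ W₀.traceOfFrobenius := by
  classical
  by_contra ha
  set L := AlgebraicClosure (RatFunc (ZMod p))
  set ξ : L := algebraMap (RatFunc (ZMod p)) L RatFunc.X with hξ
  have hξR : ξ ∉ (integralClosure (ZMod p) L).toSubring := by
    intro h
    have h' : IsIntegral (ZMod p) (RatFunc.X : RatFunc (ZMod p)) :=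
      (isIntegral_algebraMap_iff (algebraMap (RatFunc (ZMod p)) L).injective).mp h
    exact RatFunc.transcendental_X h'.isAlgebraic
  have : IsIntegrallyClosedIn (integralClosure (ZMod p) L).toSubring L :=
    inferInstanceAs (IsIntegrallyClosedIn (integralClosure (ZMod p) L) L)
  obtain ⟨A, -, hξA⟩ := Subring.exists_le_valuationSubring_of_isIntegrallyClosedIn hξR
  have hξ1 := one_lt_valuation hξA
  let psi : L →ₐ[ZMod p] L := FiniteField.frobeniusAlgHom (ZMod p) L
  have hpsi : ∀ a, psi a = a ^ Nat.card (ZMod p) := fun a => by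
    simp [psi, Nat.card_eq_fintype_card]
  have hpsi' : ∀ a, psi a = a ^ p := fun a => by rw [hpsi, Nat.card_zmod]
  set E : WeierstrassCurve.Affine L := W₀⁄L with hEdef
  have : WeierstrassCurve.IsElliptic E := ECTorsion.isElliptic_baseChange W₀
    ((_root_.map_ne_zero _).mpr W₀.isUnit_Δ.ne_zero)
  have hE : IntegralCoeffs A E :=
    ⟨valuation_algebraMap_zmod A _, valuation_algebraMap_zmod A _, valuation_algebraMap_zmod A _,
      valuation_algebraMap_zmod A _, valuation_algebraMap_zmod A _⟩
  obtain ⟨η, hη⟩ := ECTorsion.exists_nonsingular (W := E) ξ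
  set P : E.Point := Point.some ξ η hη with hPdef
  set F : E.Point →+ E.Point := Point.map psi with hF
  set a := W₀.traceOfFrobenius
  have hrel : ∀ Q : E.Point, F (F Q) - a • F Q + (p : ℤ) • Q = 0 := fun Q => by
    have h := ECFrobenius.frobenius_relation W₀ psi hpsi Q
    rwa [Nat.card_zmod] at h
  have hPk : InKer A P := hξA
  obtain ⟨hz, hz1⟩ := hE.val_zParam hη hξA
  set z := A.valuation (zParam P) with hzdef
  have hz0 : 0 < z := zero_lt_iff.mpr fun h => by
    rw [h, zero_pow two_ne_zero, zero_mul] at hz; exact zero_ne_one hz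
  have hzsq : z ^ 2 < z := by rw [pow_two]; exact mul_lt_of_lt_one_left hz0 hz1
  -- the two summands
  have hFP : InKer A (F P) ∧ A.valuation (zParam (F P)) = z ^ p := by
    obtain ⟨h', e⟩ : ∃ h', F P = Point.some (psi ξ) (psi η) h' := ⟨_, Point.map_some psi hη⟩
    rw [e]
    refine ⟨?_, ?_⟩
    · show psi ξ ∉ A
      rw [← A.valuation_le_one_iff, hpsi', map_pow, not_le]
      exact one_lt_pow₀ hξ1 hp.out.ne_zero
    · show A.valuation (-psi ξ / psi η) = A.valuation (-ξ / η) ^ p
      rw [hpsi', hpsi', map_div₀, map_div₀, Valuation.map_neg, Valuation.map_neg, map_pow,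
        map_pow, div_pow]
  have hnP : InKer A (a.natAbs • P) ∧ A.valuation (zParam (a.natAbs • P)) = z := by
    refine ⟨hE.inKer_nsmul hPk _, ?_⟩
    have hn : A.valuation (a.natAbs : L) = 1 := by
      have hne : ((a.natAbs : ℕ) : ZMod p) ≠ 0 := fun h =>
        ha (Int.natCast_dvd.mpr ((ZMod.natCast_eq_zero_iff _ _).mp h))
      have h := congrArg (A.valuation ∘ algebraMap (ZMod p) L) (ZMod.pow_card_sub_one_eq_one hne)
      simp only [Function.comp_apply, map_pow, map_natCast, map_one] at h
      exact (pow_eq_one_iff.mp h).resolve_right (by have := hp.out.two_le; omega)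
    have h := hE.zParam_nsmul hPk a.natAbs
    have hlt : A.valuation (zParam (a.natAbs • P) - a.natAbs * zParam P) <
        A.valuation ((a.natAbs : L) * zParam P) := by
      rw [map_mul, hn, one_mul]; exact lt_of_le_of_lt h hzsq
    have := Valuation.map_add_eq_of_lt_right A.valuation hlt
    rwa [sub_add_cancel, map_mul, hn, one_mul] at this
  have haP : InKer A (a • P) ∧ A.valuation (zParam (a • P)) = z := by
    rcases Int.natAbs_eq a with e | e <;> rw [e]
    · rwa [natCast_zsmul]
    · rw [neg_zsmul, natCast_zsmul]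
      exact ⟨inKer_neg hnP.1, (valuation_zParam_neg hE hnP.1).trans hnP.2⟩
  set T := a • P + -F P with hT
  have hTk : InKer A T := hE.inKer_add haP.1 (inKer_neg hFP.1)
  have hTz : A.valuation (zParam T) = z := by
    have hneg : A.valuation (zParam (-F P)) < z := by
      rw [valuation_zParam_neg hE hFP.1, hFP.2]
      exact lt_of_le_of_lt (pow_le_pow_of_le_one zero_le hz1.le hp.out.two_le) hzsq
    have h := hE.zParam_add haP.1 (inKer_neg hFP.1)
    rw [haP.2, max_eq_left hneg.le] at h
    have h1 : A.valuation (zParam (a • P) + zParam (-F P)) = z := by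
      rw [Valuation.map_add_eq_of_lt_left _ (by rwa [haP.2]), haP.2]
    have h2 : A.valuation (zParam T - zParam (a • P) - zParam (-F P)) <
        A.valuation (zParam (a • P) + zParam (-F P)) := by
      rw [h1]; exact lt_of_le_of_lt h hzsq
    have h3 := Valuation.map_add_eq_of_lt_right A.valuation h2
    rw [h1] at h3
    rw [← h3]
    congr 1
    ring
  have hTF : F T = p • P := by
    have h := hrel P
    rw [hT, map_add, map_neg, map_zsmul, ← natCast_zsmul]
    linear_combination (norm := abel) -h
  -- compare abscissae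
  have hTne : T ≠ 0 := fun h => by
    rw [h, ECReduction.zParam_zero, map_zero] at hTz
    exact hz0.ne hTz
  obtain ⟨xT, yT, hTns, hTe⟩ : ∃ x y h, T = Point.some x y h := by
    match T, hTne with
    | .zero, h0 => exact absurd rfl h0
    | .some x y h, _ => exact ⟨x, y, h, rfl⟩
  have hxT : A.valuation xT = A.valuation ξ := by
    rw [hTe] at hTk hTz
    have h := (hE.val_zParam hTns hTk).1
    rw [hTz, ← hz] at h
    exact mul_left_cancel₀ (pow_ne_zero _ hz0.ne') h
  obtain ⟨hTns', hFT⟩ : ∃ h', F T = Point.some (psi xT) (psi yT) h' :=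
    ⟨_, by rw [hTe]; exact Point.map_some psi hTns⟩
  have hΨ : E.ΨSq (p : ℤ) = C (algebraMap (ZMod p) L c ^ 2) := by
    rw [ΨSq_ofNat, if_neg (Nat.not_even_iff_odd.mpr (hp.out.odd_of_ne_two hp2)), mul_one, hEdef,
      show (W₀⁄L).preΨ' p = _ from W₀.map_preΨ' (algebraMap (ZMod p) L) p, hc, map_C, map_pow]
  have hc0 : (E.ΨSq (p : ℤ)).eval ξ ≠ 0 := fun h => by
    have h0 := (ECTorsion.nsmul_eq_zero_iff hη p).mpr h
    rw [← hPdef, ← hTF, hFT] at h0
    exact Point.some_ne_zero _ h0
  obtain ⟨x', y', h', e', hx'⟩ := ECTorsion.exists_nsmul_eq_some hη hc0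
  rw [← hPdef, ← hTF, hFT] at e'
  obtain ⟨hxe, -⟩ := Point.some.inj e'
  have hΦ : A.valuation ((E.Φ (p : ℤ)).eval ξ) = A.valuation ξ ^ (p ^ 2) := by
    rw [hEdef, show (W₀⁄L).Φ (p : ℤ) = _ from W₀.map_Φ (algebraMap (ZMod p) L) _, eval_map, ← aeval_def,
      valuation_eval_monic A ?_ hξ1, natDegree_Φ]
    · simp
    · rw [Monic, leadingCoeff_Φ]
  have hc1 : A.valuation (algebraMap (ZMod p) L c) = 1 := by
    have hne : c ≠ 0 := fun h => hc0 (by rw [hΨ, h, map_zero, zero_pow two_ne_zero, eval_C])
    have h := congrArg (A.valuation ∘ algebraMap (ZMod p) L) (ZMod.pow_card_sub_one_eq_one hne)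
    simp only [Function.comp_apply, map_pow, map_one] at h
    exact (pow_eq_one_iff.mp h).resolve_right (by have := hp.out.two_le; omega)
  have := congrArg A.valuation hxe
  rw [hx', hpsi', map_pow, hxT, map_div₀, hΦ, hΨ, eval_C, map_pow, hc1, one_pow, div_one] at this
  have hpp := pow_right_injective₀ (zero_lt_one.trans hξ1) hξ1.ne' this
  have := hp.out.two_le
  nlinarith

/-- No `p`-torsion over `𝔽̄_p` when `p ∣ a_p`. -/
theorem eq_zero_of_dvd_trace (W₀ : WeierstrassCurve (ZMod p)) [W₀.IsElliptic]
    (ha : (p : ℤ) ∣ W₀.traceOfFrobenius) {k : Type*} [Field k] [IsAlgClosed k] [DecidableEq k]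
    [Algebra (ZMod p) k] {P : (W₀⁄k).Point} (hP : p • P = 0) : P = 0 := by
  let psi : k →ₐ[ZMod p] k := FiniteField.frobeniusAlgHom (ZMod p) k
  have hpsi : ∀ a, psi a = a ^ Nat.card (ZMod p) := fun a => by
    simp [psi, Nat.card_eq_fintype_card]
  have h := ECFrobenius.frobenius_relation W₀ psi hpsi P
  obtain ⟨b, hb⟩ := ha
  rw [Nat.card_zmod, natCast_zsmul, hP, add_zero, hb, mul_comm, mul_zsmul, natCast_zsmul,
    ← map_nsmul, hP, map_zero, zsmul_zero, sub_zero] at h
  exact Point.map_injective psi (Point.map_injective psi (by rw [h, map_zero, map_zero]))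

end Fermat.Agent.LowerAtP
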