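import Fermat.Agent.LowerAtP.LocalSetting
import Mathlib.RingTheory.RootsOfUnity.PrimitiveRoots

/-!
# The Kummer class of a unipotent extension of the cyclotomic character

If a cocycle `k` for the cyclotomic character `χ` mod `p` cuts out an extension containing a unit
`c` which is moved by `ζ - 1` by the elements with `χ = 1`, `k ≠ 0`, then `k` is the Kummer
cocycle of a unit of the base field (up to a coboundary).

The steps: `c` is the sum of its Lagrange resolvents (`exists_eigencomponents`); the norm of a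
nonzero one gives a Kummer generator `η` (`exists_twisted_norm`); if `p` does not divide the
exponent of `|η| ^ p`, the valuations of the components are distinct modulo `p`
(`exists_exponent_of_twist`), so `c` moves by less than `ζ - 1` (`val_act_sub_lt`).
-/

set_option autoImplicit false

noncomputable section

namespace Fermat.Agent.LowerAtP

variable {K Ω : Type} [Field K] [Field Ω] [Algebra K Ω] {A : ValuationSubring Ω} {p : ℕ}
  [Fact p.Prime]

local notation "v" => ValuationSubring.valuation A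

/-- The data of a cocycle `k` for the cyclotomic character `χ`. -/
structure CycloCocycle (ζ : Ω) (χ k : (Ω ≃ₐ[K] Ω) → ZMod p) : Prop where
  root : IsPrimitiveRoot ζ p
  act : ∀ σ, σ ζ = ζ ^ (χ σ).val
  cocycle : ∀ σ τ, k (σ * τ) = k σ + χ σ * k τ

namespace CycloCocycle

variable {ζ : Ω} {χ k : (Ω ≃ₐ[K] Ω) → ZMod p} (D : CycloCocycle ζ χ k)

include D

/-- Exponents of `ζ` add modulo `p`. -/
lemma pow_add (i j : ZMod p) : ζ ^ (i + j).val = ζ ^ i.val * ζ ^ j.val :=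
  LocalSetting.pow_val_add D.root.pow_eq_one i j

lemma pow_mul_nat (i : ZMod p) (n : ℕ) : (ζ ^ i.val) ^ n = ζ ^ ((n : ZMod p) * i).val := by
  induction n with
  | zero => simp
  | succ n ih => rw [pow_succ, ih, ← D.pow_add]; congr 2; push_cast; ring

/-- The exponent of a power of `ζ` is determined modulo `p`. -/
lemma pow_inj {i j : ZMod p} (h : ζ ^ i.val = ζ ^ j.val) : i = j :=
  ZMod.val_injective p (D.root.pow_inj (ZMod.val_lt i) (ZMod.val_lt j) h)

lemma pow_ne_zero' (i : ZMod p) : ζ ^ i.val ≠ 0 :=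
  pow_ne_zero _ (D.root.ne_zero (Fact.out (p := p.Prime)).ne_zero)

/-- An automorphism multiplies exponents of `ζ` by `χ`. -/
lemma act_pow (σ : (Ω ≃ₐ[K] Ω)) (i : ZMod p) : σ (ζ ^ i.val) = ζ ^ (χ σ * i).val := by
  rw [map_pow, D.act, D.pow_mul_nat, ZMod.natCast_zmod_val, mul_comm]

lemma chi_mul (σ τ : (Ω ≃ₐ[K] Ω)) : χ (σ * τ) = χ σ * χ τ := D.pow_inj <| by
  rw [← D.act, AlgEquiv.mul_apply, D.act τ, D.act_pow]

lemma chi_one : χ 1 = 1 := D.pow_inj <| by
  rw [← D.act, ZMod.val_one, pow_one]; rfl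

lemma chi_ne_zero (σ : (Ω ≃ₐ[K] Ω)) : χ σ ≠ 0 := fun h => by
  have := D.act σ
  rw [h, ZMod.val_zero, pow_zero] at this
  exact D.root.ne_one (Fact.out (p := p.Prime)).one_lt (by
    rw [← σ.injective.eq_iff, this, map_one])

lemma k_one : k 1 = 0 := by
  have := D.cocycle 1 1
  rw [one_mul, D.chi_one, one_mul, left_eq_add] at this
  exact this

lemma chi_inv_mul {g g' : (Ω ≃ₐ[K] Ω)} (h : χ g = χ g') : χ (g⁻¹ * g') = 1 := by
  rw [D.chi_mul, ← h, ← D.chi_mul, inv_mul_cancel, D.chi_one]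

lemma chi_pow {τ : (Ω ≃ₐ[K] Ω)} (hτ : χ τ = 1) (n : ℕ) : χ (τ ^ n) = 1 := by
  induction n with
  | zero => exact D.chi_one
  | succ n ih => rw [pow_succ, D.chi_mul, ih, hτ, one_mul]

lemma k_pow {τ : (Ω ≃ₐ[K] Ω)} (hτ : χ τ = 1) (n : ℕ) : k (τ ^ n) = n * k τ := by
  induction n with
  | zero => simp [D.k_one]
  | succ n ih => rw [pow_succ, D.cocycle, ih, D.chi_pow hτ]; push_cast; ring

/-- If `k` vanishes where `χ = 1` it is a coboundary. -/
lemma coboundary (h : ∀ σ, χ σ = 1 → k σ = 0) : ∃ e : ZMod p, ∀ σ, k σ + e * (χ σ - 1) = 0 := by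
  by_cases hall : ∀ σ, χ σ = 1
  · exact ⟨0, fun σ => by rw [h σ (hall σ)]; ring⟩
  push Not at hall
  obtain ⟨σ₀, h₀⟩ := hall
  refine ⟨-(k σ₀ / (χ σ₀ - 1)), fun σ => ?_⟩
  have hs : χ σ₀ - 1 ≠ 0 := sub_ne_zero.mpr h₀
  -- `k` is constant on the cosets
  have hcomm : k (σ * σ₀) = k (σ₀ * σ) := by
    have hx : χ (σ * σ₀) = χ (σ₀ * σ) := by rw [D.chi_mul, D.chi_mul, mul_comm]
    have h1 := D.cocycle (σ * σ₀) ((σ * σ₀)⁻¹ * (σ₀ * σ))
    rw [mul_inv_cancel_left, h _ (D.chi_inv_mul hx), mul_zero, add_zero] at h1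
    exact h1.symm
  rw [D.cocycle, D.cocycle] at hcomm
  field_simp
  linear_combination -hcomm

/-- The conjugates `τ^l c` of an element fixed by the kernel of `k` are permuted by the kernel of
`χ` through `k`. -/
lemma act_conj {c : Ω} (hc0 : ∀ σ, χ σ = 1 → k σ = 0 → σ c = c) {τ : Ω ≃ₐ[K] Ω} (hτ : χ τ = 1)
    (hkτ : k τ = 1) {h : Ω ≃ₐ[K] Ω} (hh : χ h = 1) (l : ZMod p) :
    h ((τ ^ l.val) c) = (τ ^ (k h + l).val) c := by
  have e1 : χ (h * τ ^ l.val) = 1 := by rw [D.chi_mul, hh, D.chi_pow hτ, one_mul]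
  have e2 : k (h * τ ^ l.val) = k h + l := by
    rw [D.cocycle, hh, D.k_pow hτ, hkτ, ZMod.natCast_zmod_val]; ring
  set g := τ ^ (k h + l).val
  have hg : χ g = 1 := D.chi_pow hτ _
  have hkg : k g = k h + l := by rw [D.k_pow hτ, hkτ, ZMod.natCast_zmod_val, mul_one]
  have hkz : k (g⁻¹ * (h * τ ^ l.val)) = 0 := by
    have := D.cocycle g (g⁻¹ * (h * τ ^ l.val))
    rw [mul_inv_cancel_left, e2, hkg, hg, one_mul, left_eq_add] at this
    exact this
  have hfix := hc0 _ (D.chi_inv_mul (hg.trans e1.symm)) hkz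
  have := congrArg g hfix
  rw [← AlgEquiv.mul_apply, mul_inv_cancel_left, AlgEquiv.mul_apply] at this
  exact this

/-- **Lagrange resolvents**: such an element is a sum of components on which the kernel of `χ`
acts by the characters `ζ ^ (i k)`, `i` modulo `p`. -/
lemma exists_eigencomponents (hp0 : (p : Ω) ≠ 0) {c : Ω}
    (hc0 : ∀ σ, χ σ = 1 → k σ = 0 → σ c = c) {τ : Ω ≃ₐ[K] Ω} (hτ : χ τ = 1) (hkτ : k τ = 1) :
    ∃ a : ZMod p → Ω, ∑ i, a i = c ∧
      ∀ (h : Ω ≃ₐ[K] Ω) (i : ZMod p), χ h = 1 → h (a i) = ζ ^ (i * k h).val * a i := by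
  let cs : ZMod p → Ω := fun l => (τ ^ l.val) c
  have hcs0 : cs 0 = c := by simp [cs]
  let r : ZMod p → Ω := fun i => ∑ l : ZMod p, ζ ^ (-(i * l)).val * cs l
  have hr : ∀ (h : (Ω ≃ₐ[K] Ω)) (i : ZMod p), χ h = 1 → h (r i) = ζ ^ (i * k h).val * r i := by
    intro h i hh
    simp only [r, cs, map_sum, map_mul, D.act_conj hc0 hτ hkτ hh, D.act_pow, hh, one_mul,
      Finset.mul_sum]
    refine Fintype.sum_equiv (Equiv.addLeft (k h)) _ _ fun l => ?_
    rw [Equiv.coe_addLeft, ← mul_assoc, ← D.pow_add]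
    congr 3
    ring
  have hsum : ∑ i : ZMod p, r i = p * c := by
    simp only [r]
    rw [Finset.sum_comm]
    simp_rw [← Finset.sum_mul]
    rw [Fintype.sum_eq_single (0 : ZMod p) fun l hl => ?_]
    · simp [hcs0, ZMod.card]
    · rw [← mul_eq_zero_of_left (D.root.geom_sum_eq_zero (Fact.out (p := p.Prime)).one_lt) (cs l)]
      congr 1
      rw [Fintype.sum_equiv ((Equiv.mulRight₀ l hl).trans (Equiv.neg _)) (fun i => ζ ^ (-(i * l)).val)
        (fun i => ζ ^ i.val) (fun i => rfl), ← Fin.sum_univ_eq_sum_range (fun i => ζ ^ i) p]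
      exact (Fintype.sum_equiv (ZMod.finEquiv p).toEquiv _ _ fun i => by
        rw [RingEquiv.toEquiv_eq_coe, EquivLike.coe_coe]
        congr 1
        simp [ZMod.finEquiv, ZMod.val]
        obtain ⟨n, rfl⟩ := Nat.exists_eq_succ_of_ne_zero (Fact.out (p := p.Prime)).ne_zero
        rfl).symm
  refine ⟨fun i => r i / p, ?_, fun h i hh => ?_⟩
  · rw [← Finset.sum_div, hsum, mul_div_cancel_left₀ _ hp0]
  · rw [map_div₀ h, map_natCast, hr h i hh, mul_div_assoc]

/-- **The twisted norm to `K`.** With `d` the number of values of `χ`, prime to `p`, an element on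
which the kernel of `χ` acts by `ζ ^ (i k)` has a norm of valuation the `d`-th power of its own on
which all automorphisms act by `ζ ^ (d i k)`. -/
lemma exists_twisted_norm (S : LocalSetting K A p) :
    ∃ d : ℕ, (d : ZMod p) ≠ 0 ∧ ∀ (i : ZMod p) (y : Ω),
      (∀ h, χ h = 1 → h y = ζ ^ (i * k h).val * y) →
      ∃ N : Ω, v N = v y ^ d ∧ ∀ σ, σ N = ζ ^ ((d : ZMod p) * (i * k σ)).val * N := by
  classical
  set R : Finset (ZMod p) := Finset.univ.filter fun s => ∃ g, χ g = s with hRdef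
  have hmemR : ∀ {s}, s ∈ R ↔ ∃ g, χ g = s := by simp [hRdef]
  let sec : ZMod p → (Ω ≃ₐ[K] Ω) := fun s => if h : ∃ g, χ g = s then h.choose else 1
  have hsec : ∀ s ∈ R, χ (sec s) = s := fun s hs => by
    have h := hmemR.mp hs
    simp only [sec, dif_pos h]
    exact h.choose_spec
  have hperm : ∀ σ : (Ω ≃ₐ[K] Ω), R.image (fun s => χ σ * s) = R := by
    intro σ
    refine Finset.eq_of_subset_of_card_le (fun t ht => ?_) (le_of_eq
      (Finset.card_image_of_injective _ (mul_right_injective₀ (D.chi_ne_zero σ))).symm)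
    obtain ⟨s, hs, rfl⟩ := Finset.mem_image.mp ht
    obtain ⟨g, rfl⟩ := hmemR.mp hs
    exact hmemR.mpr ⟨σ * g, D.chi_mul σ g⟩
  have hprod : ∀ (σ : (Ω ≃ₐ[K] Ω)) (f : ZMod p → Ω), ∏ s ∈ R, f (χ σ * s) = ∏ s ∈ R, f s := fun σ f => by
    conv_rhs => rw [← hperm σ]
    rw [Finset.prod_image fun _ _ _ _ h => mul_left_cancel₀ (D.chi_ne_zero σ) h]
  refine ⟨R.card, ?_, fun i y hy => ?_⟩
  · rw [Ne, ZMod.natCast_eq_zero_iff]
    refine Nat.not_dvd_of_pos_of_lt (Finset.card_pos.mpr ⟨1, hmemR.mpr ⟨1, D.chi_one⟩⟩) ?_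
    refine lt_of_lt_of_eq (Finset.card_lt_card (Finset.ssubset_univ_iff.mpr fun h => ?_))
      (ZMod.card p)
    obtain ⟨g, hg⟩ := hmemR.mp (h ▸ Finset.mem_univ (0 : ZMod p))
    exact D.chi_ne_zero g hg
  let φ : (Ω ≃ₐ[K] Ω) → Ω := fun g => ζ ^ (-(i * k g)).val * g y
  have hφ : ∀ g g' : (Ω ≃ₐ[K] Ω), χ g = χ g' → φ g = φ g' := by
    intro g g' hgg
    have hh := D.chi_inv_mul hgg
    generalize hdef : g⁻¹ * g' = h at hh
    obtain rfl : g' = g * h := by rw [← hdef, mul_inv_cancel_left]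
    simp only [φ]
    rw [AlgEquiv.mul_apply, hy h hh, map_mul, D.act_pow, D.cocycle, ← mul_assoc, ← D.pow_add]
    congr 3
    ring
  have hvφ : ∀ g, v (φ g) = v y := fun g => by
    rw [map_mul, S.iso, S.v_root_of_unity
      (show (ζ ^ (-(i * k g)).val) ^ p = 1 by rw [pow_right_comm, D.root.pow_eq_one, one_pow]),
      one_mul]
  refine ⟨∏ s ∈ R, φ (sec s), ?_, fun σ => ?_⟩
  · rw [map_prod, Finset.prod_congr rfl fun s _ => hvφ (sec s), Finset.prod_const]
  have hone : ∀ s ∈ R, σ (φ (sec s)) = ζ ^ (i * k σ).val * φ (sec (χ σ * s)) := by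
    intro s hs
    have hs' : χ σ * s ∈ R := hperm σ ▸ Finset.mem_image_of_mem _ hs
    rw [← hφ (σ * sec s) (sec (χ σ * s)) (by rw [D.chi_mul, hsec s hs, hsec _ hs'])]
    simp only [φ]
    rw [map_mul, D.act_pow, AlgEquiv.mul_apply, D.cocycle, ← mul_assoc (ζ ^ (i * k σ).val),
      ← D.pow_add]
    congr 3
    ring
  rw [map_prod, Finset.prod_congr rfl hone, Finset.prod_mul_distrib, Finset.prod_const,
    D.pow_mul_nat, hprod σ fun s => φ (sec s)]

/-- If `σ η = ζ ^ k σ * η` and `|η| ^ p = |p| ^ m`, then `|y| ^ p` is a power of `|p|` of exponent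
`≡ j m` for every `y` with `σ y = ζ ^ (j k σ) * y`: compare with `η ^ j`. -/
lemma exists_exponent_of_twist (S : LocalSetting K A p) {η : Ω} (hη0 : η ≠ 0)
    (hη : ∀ σ, σ η = ζ ^ (k σ).val * η) {m : ℤ} (hm : v η ^ p = v (p : Ω) ^ m) {y : Ω}
    (hy0 : y ≠ 0) {j : ZMod p} (hy : ∀ σ, σ y = ζ ^ (j * k σ).val * y) :
    ∃ t : ℤ, v y ^ p = v (p : Ω) ^ t ∧ (t : ZMod p) = j * m := by
  obtain ⟨n₀, hn₀⟩ := S.fixed (y / η ^ j.val) fun σ => by
    rw [map_div₀, hy, map_pow, hη, mul_pow, D.pow_mul_nat, ZMod.natCast_zmod_val,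
      mul_div_mul_left _ _ (D.pow_ne_zero' _)]
  have hq0 : y / η ^ j.val ≠ 0 := div_ne_zero hy0 (pow_ne_zero _ hη0)
  obtain ⟨n, hn⟩ := S.base n₀ (fun h => hq0 (by rw [← hn₀, h, map_zero]))
  rw [hn₀] at hn
  refine ⟨(p : ℤ) * n + (j.val : ℤ) * m, ?_, by
    push_cast; rw [CharP.cast_eq_zero, zero_mul, zero_add, ZMod.natCast_zmod_val]⟩
  conv_lhs => rw [show y = y / η ^ j.val * η ^ j.val from
    (div_mul_cancel₀ y (pow_ne_zero _ hη0)).symm]
  rw [map_mul, hn, map_pow, mul_pow, pow_right_comm, hm, ← zpow_natCast, ← zpow_mul,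
    ← zpow_natCast, ← zpow_mul, ← zpow_add₀ S.v_pos.ne']
  ring_nf

/-- A unit whose components have distinct valuations, none of absolute value one for `i ≠ 0`, is
moved by less than `ζ - 1`. -/
lemma val_act_sub_lt (S : LocalSetting K A p) {τ : Ω ≃ₐ[K] Ω} {c : Ω} {a : ZMod p → Ω}
    (hsum : ∑ i, a i = c) (hc : v c = 1) (ha : ∀ i, τ (a i) = ζ ^ i.val * a i)
    (hdist : ∀ i j, a i ≠ 0 → v (a i) = v (a j) → i = j)
    (hne1 : ∀ i, i ≠ 0 → v (a i) ≠ 1) : v (τ c - c) < v (ζ - 1) := by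
  have hz0 := S.v_root_sub_one_pos D.root
  obtain ⟨j, -, hj⟩ := Finset.exists_max_image (Finset.univ : Finset (ZMod p)) (fun i => v (a i))
    Finset.univ_nonempty
  have haj : a j ≠ 0 := fun h => by
    refine zero_ne_one (α := ValuationSubring.ValueGroup A) (le_antisymm zero_le ?_)
    have hle : v c ≤ v (a j) := by
      rw [← hsum]
      exact Valuation.map_sum_le _ fun i _ => hj i (Finset.mem_univ i)
    rwa [hc, h, map_zero] at hle
  have hlt : ∀ i ∈ Finset.univ \ {j}, v (a i) < v (a j) := by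
    intro i hi
    refine lt_of_le_of_ne (hj i (Finset.mem_univ _)) fun h => ?_
    simp only [Finset.mem_sdiff, Finset.mem_univ, Finset.mem_singleton, true_and] at hi
    exact hi (hdist j i haj h.symm).symm
  have hmax : v (a j) = 1 := by
    rw [← hc, ← hsum, Valuation.map_sum_eq_of_lt v (Finset.mem_univ j) hlt]
  rw [← hsum, map_sum, ← Finset.sum_sub_distrib]
  refine Valuation.map_sum_lt' _ hz0 fun i _ => ?_
  rw [ha i, ← sub_one_mul, map_mul]
  by_cases hi : i = 0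
  · simp [hi, hz0]
  rw [S.v_pow_sub_one D.root (fun h => hi ((ZMod.val_eq_zero i).mp
    (Nat.eq_zero_of_dvd_of_lt h (ZMod.val_lt i))))]
  exact mul_lt_of_lt_one_right hz0 (lt_of_le_of_ne (hmax ▸ hj i (Finset.mem_univ _)) (hne1 i hi))

end CycloCocycle

/-- **The Kummer class is a unit.** -/
theorem exists_unit_kummer (S : LocalSetting K A p) {ζ : Ω} {χ k : (Ω ≃ₐ[K] Ω) → ZMod p}
    (D : CycloCocycle ζ χ k) {c : Ω} (hc : v c = 1)
    (hc0 : ∀ σ, χ σ = 1 → k σ = 0 → σ c = c)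
    (hc1 : ∀ σ, χ σ = 1 → k σ ≠ 0 → v (σ c - c) = v (ζ - 1)) :
    ∃ (e : ZMod p) (η : Ω), (∀ σ, σ η = ζ ^ (k σ + e * (χ σ - 1)).val * η) ∧
      (η = 1 ∨ ∃ u : K, v (algebraMap K Ω u) = 1 ∧ η ^ p = algebraMap K Ω u) := by
  classical
  by_cases hH : ∀ σ, χ σ = 1 → k σ = 0
  · obtain ⟨e, he⟩ := D.coboundary hH
    exact ⟨e, 1, fun σ => by rw [he σ]; simp, Or.inl rfl⟩
  push Not at hH
  obtain ⟨τ₀, hτ₀, hkτ₀⟩ := hH
  -- normalise `k τ = 1`
  set τ := τ₀ ^ (k τ₀)⁻¹.val with hτdef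
  have hτ : χ τ = 1 := D.chi_pow hτ₀ _
  have hkτ : k τ = 1 := by
    rw [hτdef, D.k_pow hτ₀, ZMod.natCast_zmod_val, inv_mul_cancel₀ hkτ₀]
  refine ⟨0, ?_⟩
  simp only [zero_mul, add_zero]
  obtain ⟨a, hasum, ha⟩ := D.exists_eigencomponents S.ne_zero hc0 hτ hkτ
  -- a nontrivial component
  obtain ⟨i₀, hi₀, hai₀⟩ : ∃ i, i ≠ 0 ∧ a i ≠ 0 := by
    by_contra hall
    push Not at hall
    have hca : c = a 0 := by
      rw [← hasum]; exact Fintype.sum_eq_single 0 fun i hi => hall i hi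
    have h1 := hc1 τ hτ (by rw [hkτ]; exact one_ne_zero)
    rw [hca, ha τ 0 hτ, zero_mul, ZMod.val_zero, pow_zero, one_mul, sub_self, map_zero] at h1
    exact (S.v_root_sub_one_pos D.root).ne h1
  obtain ⟨d, hd, hnorm⟩ := D.exists_twisted_norm S
  -- the Kummer generator: a power of its norm
  obtain ⟨P, hvP, hP⟩ := hnorm i₀ (a i₀) fun h hh => ha h i₀ hh
  have hP0 : P ≠ 0 := fun h => pow_ne_zero d ((Valuation.ne_zero_iff (A.valuation)).mpr hai₀)
    (by rw [← hvP, h, map_zero])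
  set η := P ^ ((d : ZMod p) * i₀)⁻¹.val with hηdef
  have hη0 : η ≠ 0 := pow_ne_zero _ hP0
  have hη : ∀ σ : (Ω ≃ₐ[K] Ω), σ η = ζ ^ (k σ).val * η := fun σ => by
    rw [hηdef, map_pow, hP, mul_pow, D.pow_mul_nat, ZMod.natCast_zmod_val, ← mul_assoc (d : ZMod p),
      ← mul_assoc, inv_mul_cancel₀ (mul_ne_zero hd hi₀), one_mul]
  obtain ⟨w, hw⟩ := S.fixed (η ^ p) fun σ => by
    rw [map_pow, hη, mul_pow, ← pow_mul, mul_comm (ZMod.val _), pow_mul, D.root.pow_eq_one, one_pow, one_mul]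
  have hw0 : w ≠ 0 := fun h => pow_ne_zero p hη0 (by rw [← hw, h, map_zero])
  obtain ⟨m, hm⟩ := S.base w hw0
  rw [hw, map_pow] at hm
  by_cases hpm : (p : ℤ) ∣ m
  · obtain ⟨j, rfl⟩ := hpm
    refine ⟨η * ((p : Ω) ^ j)⁻¹, fun σ => ?_, Or.inr ⟨w * ((p : K) ^ ((p : ℤ) * j))⁻¹, ?_, ?_⟩⟩
    · rw [map_mul, hη, map_inv₀, map_zpow₀, map_natCast, mul_assoc]
    · rw [map_mul, map_inv₀, map_zpow₀, map_natCast, hw, map_mul v, map_inv₀ v, map_zpow₀ v,
        map_pow, hm, mul_inv_cancel₀ (zpow_ne_zero _ S.v_pos.ne')]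
    · rw [mul_pow, map_mul, map_inv₀, map_zpow₀, map_natCast, hw, inv_pow, ← zpow_natCast (_ ^ j),
        ← zpow_mul, mul_comm (j : ℤ)]
  -- otherwise the unit `c` would move by less than `ζ - 1`
  exfalso
  have hval : ∀ i : ZMod p, a i ≠ 0 →
      ∃ t : ℤ, v (a i) ^ (d * p) = v (p : Ω) ^ t ∧ (t : ZMod p) = d * i * m := by
    intro i hai
    obtain ⟨N, hvN, hN⟩ := hnorm i (a i) fun h hh => ha h i hh
    obtain ⟨t, ht, htm⟩ := D.exists_exponent_of_twist S hη0 hη hm (y := N)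
      (fun h => pow_ne_zero d ((Valuation.ne_zero_iff (A.valuation)).mpr hai)
        (by rw [← hvN, h, map_zero])) (j := (d : ZMod p) * i) fun σ => by rw [hN, mul_assoc]
    exact ⟨t, by rw [pow_mul, ← hvN, ht], htm⟩
  have hpm' : (m : ZMod p) ≠ 0 := fun h => hpm ((ZMod.intCast_zmod_eq_zero_iff_dvd m p).mp h)
  refine (D.val_act_sub_lt S hasum hc (fun i => by rw [ha τ i hτ, hkτ, mul_one])
    (fun i j hai hij => ?_) (fun i hi h1 => ?_)).ne (hc1 τ hτ (by rw [hkτ]; exact one_ne_zero))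
  · obtain ⟨t, ht, htm⟩ := hval i hai
    obtain ⟨t', ht', htm'⟩ := hval j fun h =>
      hai ((Valuation.zero_iff _).mp (by rw [hij, h, map_zero]))
    rw [hij, ht'] at ht
    rw [← S.zpow_inj ht, htm'] at htm
    exact (mul_left_cancel₀ hd (mul_right_cancel₀ hpm' htm)).symm
  · obtain ⟨t, ht, htm⟩ := hval i fun h => by rw [h, map_zero] at h1; exact zero_ne_one h1
    rw [h1, one_pow, ← zpow_zero (v (p : Ω))] at ht
    rw [← S.zpow_inj ht, Int.cast_zero] at htm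
    exact mul_ne_zero (mul_ne_zero hd hi) hpm' htm.symm

end Fermat.Agent.LowerAtP
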