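import Fermat.Agent.LowerAtP.GeneralTorsion
import Fermat.Agent.LowerAtP.LocalKummer
import Fermat.Agent.WeilPairing.Det
import Mathlib.FieldTheory.Finite.Basic

/-!
# `p`-torsion of a curve with good ordinary reduction, locally at `p`

`E[p]` is an extension of the trivial character by the cyclotomic one whose cocycle is the Kummer
cocycle of a unit: the abscissa of an integral torsion point is moved by exactly `ζ - 1`.

The steps: the `p`-torsion in the kernel of reduction is cyclic and nonzero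
(`exists_kernel_torsion`, `exists_eq_nsmul_of_inKer`); by the Weil pairing the automorphisms act
on it through the cyclotomic character (`det_eq`), so its parameter has the size of `ζ - 1`
(`val_zParam_eq_root_sub_one`); the addition formula transfers this size to the displacement of the
abscissa (`val_sub_eq_zParam`).
-/

set_option autoImplicit false

noncomputable section

namespace Fermat.Agent.LowerAtP

open WeierstrassCurve WeierstrassCurve.Affine
open Fermat.Agent.ECReduction (InKer zParam IntegralCoeffs CurveRed Red PointRed)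
open Fermat.Agent.Multiplicative (res res_eq_iff res_mul res_pow res_natCast res_ne_zero_iff)
open IsLocalRing (residue ResidueField)
open scoped WeierstrassCurve.Affine

variable {K Ω : Type} [Field K] [Field Ω] [CharZero Ω] [Algebra K Ω] [DecidableEq Ω]
  [IsAlgClosed Ω] {A : ValuationSubring Ω} {p : ℕ} [Fact p.Prime] (W : WeierstrassCurve ℤ)

local notation "v" => ValuationSubring.valuation A

omit [IsAlgClosed Ω] in
lemma actPoint_mul (σ τ : Ω ≃ₐ[K] Ω) (P : (curveOver Ω W).Point) :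
    actPoint W (σ * τ) P = actPoint W σ (actPoint W τ P) := by
  match P with
  | .zero => exact ((map_zero (actPoint W σ)).trans rfl).symm
  | .some x y h =>
    obtain ⟨h₁, e₁⟩ := actPoint_some W τ h
    obtain ⟨h₂, e₂⟩ := actPoint_some W σ h₁
    obtain ⟨h₃, e₃⟩ := actPoint_some W (σ * τ) h
    rw [e₁, e₂, e₃]
    rfl

namespace LocalSetting

variable (S : LocalSetting K A p)

include S

omit S in
/-- Multiples of a point of order `p`. -/
lemma dvd_of_nsmul_eq_zero {G : Type*} [AddCommGroup G] {Q : G} (hp : p • Q = 0) (h0 : Q ≠ 0)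
    {i : ℕ} (hi : i • Q = 0) : p ∣ i := by
  rw [← addOrderOf_eq_prime hp h0]
  exact addOrderOf_dvd_iff_nsmul_eq_zero.mpr hi

omit [IsAlgClosed Ω] [Fact p.Prime] in
/-- Automorphisms act trivially on the reduction. -/
lemma actPoint_sub_inKer (hgood : ¬ (p : ℤ) ∣ W.Δ) (σ : Ω ≃ₐ[K] Ω)
    (P : (curveOver Ω W).Point) : InKer A (actPoint W σ P - P) := by
  classical
  let red := ECReduction.redHomOfGood (curveRed_curveOver (A := A) W) (S.residue_Δ_ne_zero W hgood)
  have hspec := ECReduction.redHomOfGood_spec (curveRed_curveOver (A := A) W)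
    (S.residue_Δ_ne_zero W hgood)
  rw [← ECReduction.pointRed_zero_iff (φ := residue A)
    (F := W.map (Int.castRingHom (ResidueField A)))]
  have heq : red (actPoint W σ P) = red P := by
    refine (hspec (actPoint W σ P)).unique ?_
    match P with
    | .zero =>
      show PointRed (residue A) (0 : (curveOver Ω W).Point) (red 0)
      rw [map_zero]
      exact ECReduction.pointRed_zero
    | .some x y h =>
      obtain ⟨h', e⟩ := actPoint_some W σ h
      rw [e]
      rcases hspec (Point.some x y h) with ⟨hx, h0⟩ | ⟨a, b, hab, ⟨hxA, ha⟩, ⟨hyA, hb⟩, he⟩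
      · refine Or.inl ⟨?_, h0⟩
        rw [← A.valuation_le_one_iff, S.iso, A.valuation_le_one_iff]
        exact hx
      · have hmem : ∀ z ∈ A, σ z ∈ A := fun z hz => by
          rw [← A.valuation_le_one_iff, S.iso, A.valuation_le_one_iff]; exact hz
        have hres : ∀ z (hz : z ∈ A), residue A ⟨σ z, hmem z hz⟩ = residue A ⟨z, hz⟩ :=
          fun z hz => by
          have h1 := (A.valuation_le_one_iff z).mpr hz
          have h2 := (res_eq_iff (by rwa [S.iso]) h1).mpr (S.trivial_res σ z h1)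
          rwa [Multiplicative.res_of_mem (hmem z hz), Multiplicative.res_of_mem hz] at h2
        exact Or.inr ⟨a, b, hab, ⟨hmem x hxA, (hres x hxA).trans ha⟩,
          ⟨hmem y hyA, (hres y hyA).trans hb⟩, he⟩
  have := hspec (actPoint W σ P - P)
  rwa [map_sub, heq, sub_self] at this

omit S [IsAlgClosed Ω] in
/-- A point of order `p` outside the kernel of reduction has no nonzero multiple inside it. -/
lemma eq_zero_of_val_nsmul_inKer {x : (curveOver Ω W).Point} (hx : p • x = 0)
    (hxk : ¬ InKer A x) {j : ZMod p} (hj : InKer A (j.val • x)) : j = 0 := by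
  by_contra h
  refine hxk ?_
  have h' := (integralCoeffs_curveOver W).inKer_nsmul hj j⁻¹.val
  rwa [val_nsmul_mul hx, inv_mul_cancel₀ h, ZMod.val_one, one_nsmul] at h'

omit S [IsAlgClosed Ω] in
/-- A point of order `p` in the kernel of reduction and one outside it are independent. -/
lemma torsion_indep {P x : (curveOver Ω W).Point} (hPk : InKer A P) (hP : p • P = 0)
    (hP0 : P ≠ 0) (hx : p • x = 0) (hxk : ¬ InKer A x) (i j : ZMod p)
    (h : i.val • P + j.val • x = 0) : i = 0 ∧ j = 0 := by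
  have hj : j = 0 := by
    refine eq_zero_of_val_nsmul_inKer W hx hxk ?_
    rw [eq_neg_of_add_eq_zero_right h]
    exact ECReduction.inKer_neg ((integralCoeffs_curveOver W).inKer_nsmul hPk _)
  rw [hj, ZMod.val_zero, zero_nsmul, add_zero] at h
  exact ⟨(ZMod.val_eq_zero i).mp
    (Nat.eq_zero_of_dvd_of_lt (dvd_of_nsmul_eq_zero hP hP0 h) (ZMod.val_lt i)), hj⟩

/-- **The `p`-torsion in the kernel of reduction is cyclic** when some point of order `p` is
outside it, `E[p]` having `p ^ 2` elements. -/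
lemma exists_eq_nsmul_of_inKer (hgood : ¬ (p : ℤ) ∣ W.Δ) {P x : (curveOver Ω W).Point}
    (hPk : InKer A P) (hP : p • P = 0) (hP0 : P ≠ 0) (hx : p • x = 0) (hxk : ¬ InKer A x)
    {Q : (curveOver Ω W).Point} (hQk : InKer A Q) (hQ : p • Q = 0) :
    ∃ i : ZMod p, Q = i.val • P := by
  have hI := integralCoeffs_curveOver (A := A) (Ω := Ω) W
  have : WeierstrassCurve.IsElliptic (curveOver Ω W) :=
    ⟨isUnit_iff_ne_zero.mpr (Δ_curveOver_ne_zero W hgood)⟩
  have hcard := ECTorsion.card_nsmul_eq_zero (curveOver Ω W) (n := p) S.ne_zero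
  have : Finite {R : (curveOver Ω W).Point // p • R = 0} :=
    Nat.finite_of_card_ne_zero (by rw [hcard]; exact pow_ne_zero _ S.prime.ne_zero)
  let g : ZMod p × ZMod p → {R : (curveOver Ω W).Point // p • R = 0} := fun ij =>
    ⟨ij.1.val • P + ij.2.val • x, by
      rw [nsmul_add, smul_comm, hP, nsmul_zero, smul_comm, hx, nsmul_zero, add_zero]⟩
  have hg : Function.Bijective g := by
    refine (Nat.bijective_iff_injective_and_card g).mpr ⟨?_, ?_⟩
    · rintro ⟨i, j⟩ ⟨i', j'⟩ h
      have h' : i.val • P + j.val • x = i'.val • P + j'.val • x := congrArg Subtype.val h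
      have e1 := val_nsmul_add hP (i - i') i'
      have e2 := val_nsmul_add hx (j - j') j'
      rw [sub_add_cancel] at e1 e2
      obtain ⟨hi, hj⟩ := torsion_indep W hPk hP hP0 hx hxk (i - i') (j - j')
        (add_right_cancel (b := i'.val • P + j'.val • x) (by
          rw [zero_add, add_add_add_comm, e1, e2, h']))
      exact Prod.ext (sub_eq_zero.mp hi) (sub_eq_zero.mp hj)
    · rw [hcard, Nat.card_prod, Nat.card_zmod, sq]
  obtain ⟨⟨i, j⟩, hij⟩ := hg.2 ⟨Q, hQ⟩
  have hQe : i.val • P + j.val • x = Q := congrArg Subtype.val hij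
  have hj : j = 0 := by
    refine eq_zero_of_val_nsmul_inKer W hx hxk ?_
    rw [show j.val • x = Q + -(i.val • P) by rw [← hQe]; abel]
    exact hI.inKer_add hQk (ECReduction.inKer_neg (hI.inKer_nsmul hPk _))
  exact ⟨i, by rw [← hQe, hj, ZMod.val_zero, zero_nsmul, add_zero]⟩

omit [IsAlgClosed Ω] [Fact p.Prime] in
/-- Multiples prime to `p` of a point of the kernel of reduction have the same parameter size. -/
lemma val_zParam_nsmul {P : (curveOver Ω W).Point} (hP : InKer A P) (hP0 : P ≠ 0) {n : ℕ}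
    (hn : ¬ p ∣ n) : v (zParam (n • P)) = v (zParam P) := by
  have hI := integralCoeffs_curveOver (A := A) (Ω := Ω) W
  have hpos : 0 < v (zParam P) :=
    zero_lt_iff.mpr ((Valuation.ne_zero_iff _).mpr (hI.zParam_ne_zero hP hP0))
  have hsq : v (zParam P) ^ 2 < v (zParam P) := by
    rw [pow_two]; exact mul_lt_of_lt_one_left hpos (hI.zParam_lt_one hP)
  have hvn : v (n : Ω) = 1 := by
    simpa using S.val_intCast_eq_one (n := (n : ℤ))
      (fun h => hn (Int.natCast_dvd_natCast.mp h))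
  have h2 := Valuation.map_add_eq_of_lt_right (A.valuation)
    (x := zParam (n • P) - n * zParam P) (y := n * zParam P)
    (by rw [map_mul, hvn, one_mul]; exact (hI.zParam_nsmul hP n).trans_lt hsq)
  rwa [sub_add_cancel, map_mul, hvn, one_mul] at h2

omit [IsAlgClosed Ω] in
/-- An integral point of odd prime order is not congruent to its negative. -/
lemma val_sub_negY (hp2 : p ≠ 2) (hgood : ¬ (p : ℤ) ∣ W.Δ) {r y : Ω}
    {hns : (curveOver Ω W).Nonsingular r y} (hrA : r ∈ A) (hx₁p : p • Point.some r y hns = 0) :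
    v (y - (curveOver Ω W).negY r y) = 1 := by
  classical
  have hp := S.prime
  set x₁ := Point.some r y hns with hx₁
  let red := ECReduction.redHomOfGood (curveRed_curveOver (A := A) W) (S.residue_Δ_ne_zero W hgood)
  have hspec := ECReduction.redHomOfGood_spec (curveRed_curveOver (A := A) W)
    (S.residue_Δ_ne_zero W hgood)
  have hr₁ne : red x₁ ≠ 0 := fun h =>
    (show InKer A x₁ from ECReduction.pointRed_zero_iff.mp (h ▸ hspec x₁)) hrA
  have hr₁p : p • red x₁ = 0 := by rw [← map_nsmul, hx₁p, map_zero]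
  obtain ⟨a, b, hab, hra, hyb, he⟩ : ∃ (a b : ResidueField A) (hab : _),
      Red (residue A) r a ∧ Red (residue A) y b ∧ red x₁ = Point.some a b hab := by
    rcases hspec x₁ with ⟨h, -⟩ | h
    · exact absurd hrA h
    · exact h
  have hneg := (curveRed_curveOver (A := A) W).negY hra hyb
  obtain ⟨hnA, hnb⟩ := hneg
  obtain ⟨hyA, hyb'⟩ := hyb
  have hle : v (y - (curveOver Ω W).negY r y) ≤ 1 :=
    (A.valuation_le_one_iff _).mpr (sub_mem hyA hnA)
  refine le_antisymm hle (not_lt.mp fun hlt => hr₁ne ?_)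
  have hbb : residue A ⟨(curveOver Ω W).negY r y, hnA⟩ = b := by
    rw [← hyb', eq_comm, ← sub_eq_zero, ← map_sub, IsLocalRing.residue_eq_zero_iff,
      A.valuation_lt_one_iff]
    exact hlt
  have h2 : red (-x₁) = red x₁ := by
    refine (hspec (-x₁)).unique ?_
    rw [hx₁, Point.neg_some, ← hx₁, he]
    exact ECReduction.pointRed_some _ hab hra ⟨hnA, hbb⟩
  rw [map_neg, neg_eq_iff_add_eq_zero, ← two_nsmul] at h2
  by_contra hne
  exact hp2 ((Nat.prime_dvd_prime_iff_eq hp Nat.prime_two).mp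
    (dvd_of_nsmul_eq_zero hr₁p hne h2))

omit [IsAlgClosed Ω] [Fact p.Prime] in
/-- If an automorphism moves an integral point, not congruent to its negative, by a nonzero point
`D` of the kernel of reduction, then it moves the abscissa by exactly the size of the parameter
of `D`. -/
lemma val_sub_eq_zParam {σ : Ω ≃ₐ[K] Ω} {r y : Ω} {hns : (curveOver Ω W).Nonsingular r y}
    (hrA : r ∈ A) (hψ : v (y - (curveOver Ω W).negY r y) = 1) {D : (curveOver Ω W).Point}
    (hDk : InKer A D) (hD0 : D ≠ 0)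
    (hD : actPoint W σ (Point.some r y hns) + -Point.some r y hns = D) :
    v (σ r - r) = v (zParam D) := by
  have hI := integralCoeffs_curveOver (A := A) (Ω := Ω) W
  obtain ⟨hσns, hσe⟩ := actPoint_some W σ hns
  have hδlt : v (σ r - r) < 1 := S.trivial_res σ r ((A.valuation_le_one_iff r).mpr hrA)
  have hyA : y ∈ A := (curveRed_curveOver (A := A) W).mem_Y hns.1 hrA
  have hylt : v (σ y - y) < 1 := S.trivial_res σ y ((A.valuation_le_one_iff y).mpr hyA)
  have hne : σ r ≠ r := by
    intro heq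
    have e1 := ((curveOver Ω W).equation_iff (σ r) (σ y)).mp hσns.1
    have e2 := ((curveOver Ω W).equation_iff r y).mp hns.1
    rw [heq] at e1
    have hfac : (σ y - y) * (σ y - (curveOver Ω W).negY r y) = 0 := by
      rw [negY]
      linear_combination e1 - e2
    rcases mul_eq_zero.mp hfac with h | h
    · have : actPoint W σ (Point.some r y hns) = Point.some r y hns := by
        rw [hσe, Point.some.injEq]
        exact ⟨heq, sub_eq_zero.mp h⟩
      rw [this, add_neg_cancel] at hD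
      exact hD0 hD.symm
    · rw [← sub_eq_zero.mp h, ← Valuation.map_sub_swap] at hψ
      exact hylt.ne hψ
  rw [hσe, Point.neg_some, Point.add_of_X_ne hne] at hD
  set l := (curveOver Ω W).slope (σ r) r (σ y) ((curveOver Ω W).negY r y) with hl
  obtain ⟨x₃, y₃, h₃, hx₃, hD⟩ : ∃ (x₃ y₃ : Ω) (h₃ : (curveOver Ω W).Nonsingular x₃ y₃),
      x₃ = (curveOver Ω W).addX (σ r) r l ∧ Point.some x₃ y₃ h₃ = D :=
    ⟨_, _, _, rfl, hD⟩
  subst hD
  have hsz := (hI.val_zParam h₃ hDk).1
  generalize v (zParam (Point.some x₃ y₃ h₃)) = w at hsz ⊢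
  have hδ0 : σ r - r ≠ 0 := sub_ne_zero.mpr hne
  have hvl : v l = (v (σ r - r))⁻¹ := by
    rw [hl, slope_of_X_ne hne, map_div₀,
      show σ y - (curveOver Ω W).negY r y = (σ y - y) + (y - (curveOver Ω W).negY r y) by ring,
      Valuation.map_add_eq_of_lt_right _ (by rwa [hψ]), hψ, one_div]
  have hl1 : 1 < v l := by
    rw [hvl, one_lt_inv₀ (zero_lt_iff.mpr ((Valuation.ne_zero_iff _).mpr hδ0))]
    exact hδlt
  have hll : v l < v l ^ 2 := by
    rw [pow_two]; exact lt_mul_of_one_lt_left (zero_lt_one.trans hl1) hl1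
  have hX : v ((curveOver Ω W).addX (σ r) r l) = v l ^ 2 := by
    have hsmall : v ((curveOver Ω W).a₁ * l - (curveOver Ω W).a₂ - σ r - r) < v l ^ 2 := by
      refine Valuation.map_sub_lt _ (Valuation.map_sub_lt _ (Valuation.map_sub_lt _ ?_ ?_) ?_) ?_
      · exact (ECReduction.val_mul_le_of_le_one hI.a₁).trans_lt hll
      · exact hI.a₂.trans_lt (hl1.trans hll)
      · rw [S.iso]
        exact ((A.valuation_le_one_iff r).mpr hrA).trans_lt (hl1.trans hll)
      · exact ((A.valuation_le_one_iff r).mpr hrA).trans_lt (hl1.trans hll)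
    rw [addX, show l ^ 2 + (curveOver Ω W).a₁ * l - (curveOver Ω W).a₂ - σ r - r =
      l ^ 2 + ((curveOver Ω W).a₁ * l - (curveOver Ω W).a₂ - σ r - r) by ring,
      Valuation.map_add_eq_of_lt_left _ (by rwa [map_pow]), map_pow]
  rw [hx₃, hX, hvl, ← mul_pow, pow_eq_one_iff] at hsz
  exact (eq_of_div_eq_one (by
    rw [div_eq_mul_inv]; exact hsz.resolve_right two_ne_zero)).symm

variable {ζ : Ω} (hζ : IsPrimitiveRoot ζ p)

include hζ

/-- The Weil pairing: the determinant on a triangular basis. -/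
lemma det_eq {P Q : (curveOver Ω W).Point} (hgood : ¬ (p : ℤ) ∣ W.Δ) (hP : p • P = 0)
    (hQ : p • Q = 0)
    (hind : ∀ i j : ZMod p, i.val • P + j.val • Q = 0 → i = 0 ∧ j = 0)
    {σ : Ω ≃ₐ[K] Ω} {n i c : ZMod p} (hn : σ ζ = ζ ^ n.val)
    (hσP : actPoint W σ P = i.val • P) (hσQ : actPoint W σ Q = Q + c.val • P) : i = n := by
  classical
  have hΔ : (W.map (Int.castRingHom ℚ)).Δ ≠ 0 := by
    rw [WeierstrassCurve.map_Δ, eq_intCast, Int.cast_ne_zero]
    exact fun h => hgood (h ▸ dvd_zero _)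
  have hΔ' : algebraMap ℚ Ω (W.map (Int.castRingHom ℚ)).Δ ≠ 0 := (_root_.map_ne_zero _).mpr hΔ
  have hcard : Nat.card (Submodule.torsionBy ℤ (curveOver Ω W).Point p) = p ^ 2 :=
    ECTorsion.card_torsionBy_baseChange (W.map (Int.castRingHom ℚ)) hΔ' S.ne_zero
  let T := Submodule.torsionBy ℤ (curveOver Ω W).Point p
  let P' : T := ⟨P, by rw [Submodule.mem_torsionBy_iff, natCast_zsmul, hP]⟩
  let Q' : T := ⟨Q, by rw [Submodule.mem_torsionBy_iff, natCast_zsmul, hQ]⟩
  have hsm : ∀ (a : ZMod p) (R : T), ((a • R : T) : (curveOver Ω W).Point) = a.val • (R : (curveOver Ω W).Point) :=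
    fun a R => by
    conv_lhs => rw [← ZMod.natCast_zmod_val a, Nat.cast_smul_eq_nsmul]
    rfl
  let L : (Fin 2 → ZMod p) →ₗ[ZMod p] T := Fintype.linearCombination (ZMod p) ![P', Q']
  have hL : ∀ f, (L f : (curveOver Ω W).Point) = (f 0).val • P + (f 1).val • Q := fun f => by
    simp only [L, Fintype.linearCombination_apply, Fin.sum_univ_two, Matrix.cons_val_zero,
      Matrix.cons_val_one, Submodule.coe_add, hsm]
    rfl
  have hbij : Function.Bijective L := by
    have : Finite T := Nat.finite_of_card_ne_zero (by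
      rw [hcard]; exact pow_ne_zero _ S.prime.ne_zero)
    refine (Nat.bijective_iff_injective_and_card L).mpr ⟨?_, ?_⟩
    · refine (injective_iff_map_eq_zero L).mpr fun f hf => ?_
      obtain ⟨h0, h1⟩ := hind (f 0) (f 1) (by rw [← hL, hf]; rfl)
      funext j
      fin_cases j
      · exact h0
      · exact h1
    · rw [hcard, Nat.card_fun, Nat.card_zmod, Nat.card_eq_fintype_card, Fintype.card_fin]
  let B : Module.Basis (Fin 2) (ZMod p) T :=
    Module.Basis.ofEquivFun (LinearEquiv.ofBijective L hbij).symm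
  have hB : B 0 = P' ∧ B 1 = Q' := by
    simp [B, L, Fintype.linearCombination_apply]
  let f := Point.galoisRep (S := ℚ) (W.map (Int.castRingHom ℚ)) p (ratAut σ)
  have hdet := WeilPairing.det_galoisRep_eq (S := ℚ) (W.map (Int.castRingHom ℚ)) hΔ' S.ne_zero
    (ratAut σ) n.val (fun μ hμ => by
      obtain ⟨j, hj, rfl⟩ := hζ.eq_pow_of_pow_eq_one hμ
      rw [ratAut_apply, map_pow, hn, ← pow_mul, ← pow_mul, mul_comm])
  have hf0 : f (B 0) = i • B 0 := by
    rw [hB.1]
    refine Subtype.ext ?_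
    rw [hsm]
    exact hσP
  have hf1 : f (B 1) = B 1 + c • B 0 := by
    rw [hB.1, hB.2]
    refine Subtype.ext ?_
    rw [Submodule.coe_add, hsm]
    exact hσQ
  rw [LinearEquiv.coe_det, ← LinearMap.det_toMatrix B, Matrix.det_fin_two] at hdet
  simp only [LinearMap.toMatrix_apply, LinearEquiv.coe_coe] at hdet
  rw [hf0, hf1] at hdet
  simp only [map_add, map_smul, Finsupp.add_apply,
    Finsupp.smul_apply, B.repr_self, Finsupp.single_apply] at hdet
  simpa [ZMod.natCast_zmod_val] using hdet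

/-- **The kernel of reduction contains a point of order `p`**: the automorphisms act trivially on
the reduction, whereas the determinant of `E[p]` is the cyclotomic character. -/
lemma exists_kernel_torsion (hp2 : p ≠ 2) (hgood : ¬ (p : ℤ) ∣ W.Δ) :
    ∃ P : (curveOver Ω W).Point, InKer A P ∧ p • P = 0 ∧ P ≠ 0 := by
  have hp := S.prime
  have hΔ : algebraMap ℚ Ω (W.map (Int.castRingHom ℚ)).Δ ≠ 0 := by
    rw [WeierstrassCurve.map_Δ, eq_intCast, map_intCast, Int.cast_ne_zero]
    exact fun h => hgood (h ▸ dvd_zero _)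
  by_contra hall
  push Not at hall
  have hfix : ∀ (σ : Ω ≃ₐ[K] Ω) Q, p • Q = 0 → actPoint W σ Q = Q := fun σ Q hQ =>
    sub_eq_zero.mp (hall _ (S.actPoint_sub_inKer W hgood σ Q)
      (by rw [nsmul_sub, ← map_nsmul, hQ, map_zero, sub_zero]))
  obtain ⟨σ, hσ⟩ := S.exists_act_root hζ (i := (2 : ℕ)) (fun h => hp2
    ((Nat.prime_dvd_prime_iff_eq hp Nat.prime_two).mp ((ZMod.natCast_eq_zero_iff _ _).mp h)))
  have hdet := WeilPairing.det_galoisRep_eq (S := ℚ) (W.map (Int.castRingHom ℚ)) hΔ S.ne_zero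
    (ratAut σ) ((2 : ℕ) : ZMod p).val (fun μ hμ => by
      obtain ⟨j, hj, rfl⟩ := hζ.eq_pow_of_pow_eq_one hμ
      rw [ratAut_apply, map_pow, hσ, ← pow_mul, ← pow_mul, mul_comm])
  have h1 : Point.galoisRep (S := ℚ) (W.map (Int.castRingHom ℚ)) p (ratAut σ) = 1 :=
    LinearEquiv.ext fun Q => Subtype.ext (hfix σ Q.1 (by
      have := (Submodule.mem_torsionBy_iff _ _).mp Q.2
      rwa [natCast_zsmul] at this))
  rw [h1, map_one, Units.val_one, ZMod.natCast_zmod_val] at hdet
  exact one_ne_zero (α := ZMod p) (by linear_combination (-1 : ZMod p) * hdet)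

omit [IsAlgClosed Ω] in
/-- If the automorphisms act on a kernel point `P` through the cyclotomic character and its
parameter has the size of `(ζ - 1) ^ n`, then `u ^ n = u` for all units `u` modulo `p`: compare
the residues of `σ z / z` computed from `zParam_nsmul` and from `σ (ζ - 1) / (ζ - 1)`. -/
lemma pow_eq_self_of_act {P : (curveOver Ω W).Point} (hPk : InKer A P) (hP0 : P ≠ 0)
    (hact : ∀ (σ : Ω ≃ₐ[K] Ω) (i : ZMod p), σ ζ = ζ ^ i.val → actPoint W σ P = i.val • P)
    {n : ℕ} (hm : v (zParam P) = v (ζ - 1) ^ n) (u : (ZMod p)ˣ) : (u : ZMod p) ^ n = u := by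
  have := S.charP
  have hI := integralCoeffs_curveOver (A := A) (Ω := Ω) W
  set z := zParam P
  have hz0 : z ≠ 0 := hI.zParam_ne_zero hPk hP0
  have hzpos : 0 < v z := zero_lt_iff.mpr ((Valuation.ne_zero_iff _).mpr hz0)
  have hzsq : v z ^ 2 < v z := by
    rw [pow_two]; exact mul_lt_of_lt_one_left hzpos (hI.zParam_lt_one hPk)
  have hπ := S.v_root_sub_one_pos hζ
  set π := ζ - 1
  obtain ⟨σ, hσ⟩ := S.exists_act_root hζ (i := (u : ZMod p)) u.ne_zero
  set j := (u : ZMod p).val with hj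
  have hjp : ¬ p ∣ j := fun h => u.ne_zero ((ZMod.val_eq_zero _).mp
    (Nat.eq_zero_of_dvd_of_lt h (ZMod.val_lt _)))
  have e1 : res A (σ z / z) = (j : ResidueField A) := by
    rw [← res_natCast, res_eq_iff (by rw [map_div₀, S.iso, div_self hzpos.ne'])
      ((A.valuation_le_one_iff _).mpr (natCast_mem A j)), div_sub' hz0, map_div₀,
      div_lt_one₀ hzpos]
    have h := hI.zParam_nsmul hPk j
    have hσz : σ z = zParam (j • P) := by rw [← zParam_actPoint, hact σ _ hσ]
    rw [hσz, mul_comm z]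
    exact h.trans_lt hzsq
  have hζj : v ((ζ ^ j - 1) / π) ≤ 1 := by
    rw [map_div₀, S.v_pow_sub_one hζ hjp, div_self hπ.ne']
  have e2 : res A ((ζ ^ j - 1) / π) = (j : ResidueField A) := by
    rw [← res_natCast, res_eq_iff hζj ((A.valuation_le_one_iff _).mpr (natCast_mem A j))]
    exact S.pow_sub_one_congr hζ j
  set w := z / π ^ n with hw
  have hw1 : v w = 1 := by rw [hw, map_div₀, map_pow, hm, div_self (pow_ne_zero _ hπ.ne')]
  have e3 : res A (σ w) = res A w :=
    (res_eq_iff (by rw [S.iso, hw1]) hw1.le).mpr (S.trivial_res σ w hw1.le)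
  have hid : σ w * ((ζ ^ j - 1) / π) ^ n = σ z / z * w := by
    rw [hw, map_div₀ σ, map_pow, show σ π = ζ ^ j - 1 by rw [map_sub, hσ, map_one]]
    have hne : ζ ^ j - 1 ≠ 0 := (Valuation.ne_zero_iff A.valuation).mp
      (by rw [S.v_pow_sub_one hζ hjp]; exact hπ.ne')
    rw [div_pow]
    field_simp
  have h := congrArg (res A) hid
  rw [res_mul (by rw [S.iso, hw1]) (by rw [map_pow]; exact pow_le_one' hζj n),
    res_mul (by rw [map_div₀, S.iso, div_self hzpos.ne']) hw1.le, res_pow hζj, e1, e2, e3,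
    mul_comm] at h
  have h' := mul_right_cancel₀ ((res_ne_zero_iff hw1.le).mpr hw1) h
  refine RingHom.injective (ZMod.castHom (dvd_refl p) (ResidueField A)) ?_
  rw [map_pow, ← ZMod.natCast_zmod_val (u : ZMod p), map_natCast]
  exact h'

omit [IsAlgClosed Ω] in
/-- A kernel point of order `p` on which the automorphisms act through the cyclotomic character
has parameter of the size of `ζ - 1`. -/
lemma val_zParam_eq_root_sub_one {P : (curveOver Ω W).Point} (hPk : InKer A P) (hP : p • P = 0)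
    (hP0 : P ≠ 0)
    (hact : ∀ (σ : Ω ≃ₐ[K] Ω) (i : ZMod p), σ ζ = ζ ^ i.val → actPoint W σ P = i.val • P) :
    v (zParam P) = v (ζ - 1) := by
  have hI := integralCoeffs_curveOver (A := A) (Ω := Ω) W
  set z := zParam P
  have hz0 : z ≠ 0 := hI.zParam_ne_zero hPk hP0
  have hzlt := hI.zParam_lt_one hPk
  have hzpos : 0 < v z := zero_lt_iff.mpr ((Valuation.ne_zero_iff _).mpr hz0)
  have hπ := S.v_root_sub_one_pos hζ
  have hπ1 := S.v_root_sub_one_lt hζ.pow_eq_one
  obtain ⟨m, hm⟩ := S.exists_zpow_of_fixed hζ hz0 fun σ hσ => by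
    rw [← zParam_actPoint, hact σ 1 (by rw [hσ, ZMod.val_one, pow_one]), ZMod.val_one, one_nsmul]
  obtain ⟨n, rfl⟩ : ∃ n : ℕ, m = n := ⟨m.toNat, (Int.toNat_of_nonneg (le_of_lt (by
    by_contra hle
    exact not_le.mpr hzlt (hm ▸ one_le_zpow_of_nonpos₀ hπ hπ1.le (not_lt.mp hle))))).symm⟩
  rw [zpow_natCast] at hm
  have hn1 : n ≠ 0 := fun h => hzlt.ne (by rw [hm, h, pow_zero])
  have hnp : n ≤ p - 1 := by
    have hle : v (p : Ω) ≤ v z := by
      have h := hI.zParam_nsmul hPk p
      rw [hP, ECReduction.zParam_zero, zero_sub, Valuation.map_neg, map_mul, pow_two] at h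
      exact le_of_mul_le_mul_right h hzpos
    rw [← (S.root_sub_one hζ).1, hm] at hle
    by_contra hlt
    exact not_lt.mpr hle (pow_lt_pow_right_of_lt_one₀ hπ hπ1 (by omega))
  have hdvd := (FiniteField.forall_pow_eq_one_iff (ZMod p) (n - 1)).mp fun u => by
    refine Units.ext (mul_left_cancel₀ u.ne_zero ?_)
    rw [Units.val_pow_eq_pow_val, Units.val_one, ← pow_succ', mul_one,
      Nat.sub_add_cancel (Nat.one_le_iff_ne_zero.mpr hn1)]
    exact S.pow_eq_self_of_act W hζ hPk hP0 hact hm u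
  rw [ZMod.card] at hdvd
  have hn : n - 1 = 0 := Nat.eq_zero_of_dvd_of_lt hdvd (by omega)
  rw [hm, show n = 1 by omega, pow_one]

/-- **`E[p]` at a prime `p` of good ordinary reduction.** -/
theorem ordinary_torsion_kummer (hp2 : p ≠ 2) (hgood : ¬ (p : ℤ) ∣ W.Δ)
    (ha : ¬ (p : ℤ) ∣ W.apOfModel p) :
    ∃ (P₀ x : (curveOver Ω W).Point) (k : (Ω ≃ₐ[K] Ω) → ZMod p) (η : Ω),
      p • P₀ = 0 ∧ p • x = 0 ∧ (∀ j : ℕ, x ≠ j • P₀) ∧
      (∀ (σ : Ω ≃ₐ[K] Ω) (n : ℕ), σ ζ = ζ ^ n → actPoint W σ P₀ = n • P₀) ∧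
      (∀ σ, actPoint W σ x = x + (k σ).val • P₀) ∧
      (∀ σ, σ η = ζ ^ (k σ).val * η) ∧
      (η = 1 ∨ ∃ u : K, v (algebraMap K Ω u) = 1 ∧ η ^ p = algebraMap K Ω u) := by
  classical
  have hI := integralCoeffs_curveOver (A := A) (Ω := Ω) W
  obtain ⟨r, y, hns, hrA, hx₁p⟩ := S.exists_integral_torsion W hp2 hgood ha
  set x₁ := Point.some r y hns with hx₁
  have hx₁k : ¬ InKer A x₁ := fun h => h hrA
  obtain ⟨P₀, hP₀k, hP₀p, hP₀ne⟩ := S.exists_kernel_torsion W hζ hp2 hgood
  have hind := torsion_indep W hP₀k hP₀p hP₀ne hx₁p hx₁k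
  have hcyc : ∀ Q, InKer A Q → p • Q = 0 → ∃ i : ZMod p, Q = i.val • P₀ := fun Q =>
    S.exists_eq_nsmul_of_inKer W hgood hP₀k hP₀p hP₀ne hx₁p hx₁k
  have hsmul := val_nsmul_add hP₀p
  have hmul := val_nsmul_mul hP₀p
  -- `E[p]` in the basis `P₀, x₁`
  choose χ hχ0 hχ using S.exists_exponent hζ
  have hk' : ∀ σ : Ω ≃ₐ[K] Ω, ∃ c : ZMod p, actPoint W σ x₁ = x₁ + c.val • P₀ := fun σ => by
    obtain ⟨c, hc⟩ := hcyc _ (S.actPoint_sub_inKer W hgood σ x₁)
      (by rw [nsmul_sub, ← map_nsmul, hx₁p, map_zero, sub_zero])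
    exact ⟨c, by rw [← hc, add_sub_cancel]⟩
  choose k hk using hk'
  have hact : ∀ (σ : Ω ≃ₐ[K] Ω) (i : ZMod p), σ ζ = ζ ^ i.val →
      actPoint W σ P₀ = i.val • P₀ := fun σ n hn => by
    obtain ⟨i, hi⟩ := hcyc _ (S.inKer_actPoint W σ hP₀k)
      (by rw [← map_nsmul, hP₀p, map_zero])
    rw [hi, S.det_eq W hζ hgood hP₀p hx₁p hind hn hi (hk σ)]
  -- the moving abscissa
  have hψ := S.val_sub_negY W hp2 hgood hrA hx₁p
  have hmoved : ∀ σ, k σ ≠ 0 → v (σ r - r) = v (ζ - 1) := fun σ hσ => by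
    have hkp : ¬ p ∣ (k σ).val := fun h => hσ ((ZMod.val_eq_zero _).mp
      (Nat.eq_zero_of_dvd_of_lt h (ZMod.val_lt _)))
    rw [S.val_sub_eq_zParam W (D := (k σ).val • P₀) hrA hψ (hI.inKer_nsmul hP₀k _)
        (fun h => hkp (dvd_of_nsmul_eq_zero hP₀p hP₀ne h))
        (by rw [← hx₁, hk σ]; abel),
      S.val_zParam_nsmul W hP₀k hP₀ne hkp,
      S.val_zParam_eq_root_sub_one W hζ hP₀k hP₀p hP₀ne hact]
  -- a unit with the same displacements
  obtain ⟨c, hc, hcd⟩ : ∃ c : Ω, v c = 1 ∧ ∀ σ : Ω ≃ₐ[K] Ω, σ c - c = σ r - r := by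
    by_cases h : v r = 1
    · exact ⟨r, h, fun _ => rfl⟩
    · refine ⟨r + 1, ?_, fun σ => by rw [map_add, map_one]; ring⟩
      rw [Valuation.map_add_eq_of_lt_right, map_one]
      rw [map_one]
      exact lt_of_le_of_ne ((A.valuation_le_one_iff r).mpr hrA) h
  have D : CycloCocycle ζ χ k := by
    refine ⟨hζ, hχ, fun σ τ => ?_⟩
    have hinj : ∀ i j : ZMod p, i.val • P₀ = j.val • P₀ → i = j := fun i j h => by
      have h2 := hsmul (i - j) j
      rw [sub_add_cancel, h, add_eq_right] at h2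
      exact sub_eq_zero.mp (hind (i - j) 0 (by rw [h2, ZMod.val_zero, zero_nsmul, add_zero])).1
    refine hinj _ _ ?_
    have := hk (σ * τ)
    rw [actPoint_mul, hk τ, map_add, map_nsmul, hk σ, hact σ _ (hχ σ), add_assoc, add_right_inj,
      smul_comm, hmul, hsmul] at this
    exact this.symm
  obtain ⟨e, η, hη, hcase⟩ := exists_unit_kummer S D hc
    (fun σ _ h => by
      have hfix : actPoint W σ x₁ = x₁ := by
        rw [hk σ, h, ZMod.val_zero, zero_nsmul, add_zero]
      obtain ⟨h', he⟩ := actPoint_some W σ hns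
      rw [hx₁, he, Point.some.injEq] at hfix
      rw [← sub_eq_zero, hcd, hfix.1, sub_self])
    (fun σ _ h => by rw [hcd]; exact hmoved σ h)
  refine ⟨P₀, x₁ + e.val • P₀, fun σ => k σ + e * (χ σ - 1), η, hP₀p, ?_, ?_, ?_, ?_, hη, hcase⟩
  · rw [nsmul_add, hx₁p, smul_comm, hP₀p, nsmul_zero, add_zero]
  · intro j h
    refine hx₁k ?_
    rw [eq_sub_of_add_eq h, sub_eq_add_neg]
    exact hI.inKer_add (hI.inKer_nsmul hP₀k j) (ECReduction.inKer_neg (hI.inKer_nsmul hP₀k _))
  · intro σ n hn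
    rw [hact σ n (by rw [ZMod.val_natCast, ← pow_eq_pow_mod _ hζ.pow_eq_one, hn]),
      cast_val_nsmul hP₀p]
  · intro σ
    rw [map_add, map_nsmul, hk σ, hact σ _ (hχ σ), hmul, add_assoc, add_assoc, hsmul, hsmul]
    congr 3
    ring

end LocalSetting

end Fermat.Agent.LowerAtP
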