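import Mathlib.RingTheory.RootsOfUnity.PrimitiveRoots
import Mathlib.RingTheory.Valuation.ValuationSubring
import Mathlib.Algebra.CharP.Lemmas
import Mathlib.FieldTheory.IsAlgClosed.Basic
import Mathlib.FieldTheory.Finite.Basic
import Mathlib.Data.ZMod.Basic
import Fermat.Agent.Multiplicative.NodalGroup

/-!
# A valued algebraic closure of an absolutely unramified local field

`LocalSetting K A p` records what is used about a valuation subring `A` of an algebraic closure
`Ω` of an absolutely unramified complete field `K` of residue characteristic `p` with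
algebraically closed residue field: every automorphism of `Ω` over `K` preserves the valuation
and is trivial on the residue field, and `K` has value group generated by `p`.
-/

set_option autoImplicit false

noncomputable section

namespace Fermat.Agent.LowerAtP

open Fermat.Agent.Multiplicative (res res_eq_iff res_add res_mul res_natCast res_one res_sub)

variable (K : Type) {Ω : Type} [Field K] [Field Ω] [Algebra K Ω]

/-- The hypotheses on a valued algebraic closure. -/
structure LocalSetting (A : ValuationSubring Ω) (p : ℕ) : Prop where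
  prime : p.Prime
  lt_one : A.valuation (p : Ω) < 1
  ne_zero : (p : Ω) ≠ 0
  iso : ∀ (σ : Ω ≃ₐ[K] Ω) (x : Ω), A.valuation (σ x) = A.valuation x
  trivial_res : ∀ (σ : Ω ≃ₐ[K] Ω) (x : Ω), A.valuation x ≤ 1 → A.valuation (σ x - x) < 1
  base : ∀ c : K, c ≠ 0 → ∃ m : ℤ, A.valuation (algebraMap K Ω c) = A.valuation (p : Ω) ^ m
  rat : ∀ x : Ω, x ≠ 0 → ∃ (e : ℕ) (m : ℤ), 0 < e ∧
    A.valuation x ^ e = A.valuation (p : Ω) ^ m
  fixed : ∀ x : Ω, (∀ σ : Ω ≃ₐ[K] Ω, σ x = x) → x ∈ Set.range (algebraMap K Ω)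

variable {K} {A : ValuationSubring Ω} {p : ℕ}

local notation "v" => ValuationSubring.valuation A

namespace LocalSetting

variable (S : LocalSetting K A p)

include S

/-- `|p|` is positive. -/
lemma v_pos : 0 < v (p : Ω) := zero_lt_iff.mpr ((Valuation.ne_zero_iff _).mpr S.ne_zero)

/-- The exponent of a power of `|p|` is determined. -/
lemma zpow_inj {m n : ℤ} (h : v (p : Ω) ^ m = v (p : Ω) ^ n) : m = n :=
  zpow_right_injective₀ S.v_pos S.lt_one.ne h

/-- A nonzero element fixed up to residue is moved by less than its size by every automorphism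
fixing a scale. -/
lemma lt_of_fixed_scale (σ : Ω ≃ₐ[K] Ω) {π x : Ω} (hπ : π ≠ 0) (hfix : σ π = π)
    (hx : v x ≤ v π) : v (σ x - x) < v π := by
  have hπ0 : 0 < v π := zero_lt_iff.mpr ((Valuation.ne_zero_iff _).mpr hπ)
  have h := S.trivial_res σ (x / π) (by rw [map_div₀]; exact (div_le_one₀ hπ0).mpr hx)
  rwa [map_div₀ σ, hfix, ← sub_div, map_div₀, div_lt_one₀ hπ0] at h

/-- The residue field has characteristic `p`. -/
lemma charP : CharP (IsLocalRing.ResidueField A) p := by
  refine (CharP.charP_iff_prime_eq_zero S.prime).mpr ?_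
  rw [← res_natCast]
  exact (Multiplicative.res_eq_zero_iff S.lt_one.le).mpr S.lt_one

/-- Roots of unity are units. -/
lemma v_root_of_unity {ζ : Ω} (hζ : ζ ^ p = 1) : v ζ = 1 := by
  have := congrArg v hζ
  rw [map_pow, map_one] at this
  exact (pow_eq_one_iff.mp this).resolve_right S.prime.ne_zero

/-- `|ζ - 1| < 1`. -/
lemma v_root_sub_one_lt {ζ : Ω} (hζ : ζ ^ p = 1) : v (ζ - 1) < 1 := by
  have := S.charP
  have := Fact.mk S.prime
  have h1 := S.v_root_of_unity hζ
  rw [← res_eq_iff h1.le (map_one v).le, res_one]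
  have h2 : res A ζ ^ p = 1 := by
    rw [← Multiplicative.res_pow h1.le, hζ, res_one]
  have h3 : (res A ζ - 1) ^ p = 0 := by rw [sub_pow_char, h2, one_pow, sub_self]
  exact sub_eq_zero.mp ((pow_eq_zero_iff S.prime.ne_zero).mp h3)

/-- `ζ - 1` has the critical size, and satisfies the congruence of a uniformiser of `ℚ_p(ζ)`. -/
lemma root_sub_one {ζ : Ω} (hζ : IsPrimitiveRoot ζ p) :
    v (ζ - 1) ^ (p - 1) = v (p : Ω) ∧
      ∃ ρ : Ω, v (ρ - 1) < 1 ∧ (ζ - 1) ^ (p - 1) = -((p : Ω) * ρ) := by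
  obtain ⟨ρ, hρ, hpow⟩ := Multiplicative.one_add_pow_prime (A := A) S.prime (ζ - 1)
    (S.v_root_sub_one_lt hζ.pow_eq_one)
  rw [add_sub_cancel, hζ.pow_eq_one] at hpow
  have hz : ζ - 1 ≠ 0 := sub_ne_zero.mpr (hζ.ne_one S.prime.one_lt)
  have heq : (ζ - 1) ^ (p - 1) = -((p : Ω) * ρ) := by
    refine mul_right_cancel₀ hz ?_
    rw [← pow_succ, Nat.sub_add_cancel S.prime.one_le]
    linear_combination -hpow
  have hρ1 : v ρ = 1 := by
    rw [show ρ = 1 + (ρ - 1) by ring,
      Valuation.map_add_eq_of_lt_left _ (by rwa [map_one]), map_one]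
  exact ⟨by rw [← map_pow, heq, Valuation.map_neg, map_mul, hρ1, mul_one], ρ, hρ, heq⟩

/-- `(ζ ^ n - 1) / (ζ - 1) ≡ n`. -/
lemma pow_sub_one_congr {ζ : Ω} (hζ : IsPrimitiveRoot ζ p) (n : ℕ) :
    v ((ζ ^ n - 1) / (ζ - 1) - n) < 1 := by
  have hz : ζ - 1 ≠ 0 := sub_ne_zero.mpr (hζ.ne_one S.prime.one_lt)
  induction n with
  | zero => simp
  | succ n ih =>
    rw [show (ζ ^ (n + 1) - 1) / (ζ - 1) - ((n + 1 : ℕ) : Ω) =
        ((ζ ^ n - 1) / (ζ - 1) - n) + (ζ ^ n - 1) by
      push_cast; rw [pow_succ]; field_simp; ring]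
    refine Valuation.map_add_lt _ ih (S.v_root_sub_one_lt ?_)
    rw [← pow_mul, mul_comm, pow_mul, hζ.pow_eq_one, one_pow]

/-- All nontrivial `p`-th roots of unity are equally far from `1`. -/
lemma v_pow_sub_one {ζ : Ω} (hζ : IsPrimitiveRoot ζ p) {n : ℕ} (hn : ¬ p ∣ n) :
    v (ζ ^ n - 1) = v (ζ - 1) := by
  have h := (S.root_sub_one (hζ.pow_of_coprime n
    ((S.prime.coprime_iff_not_dvd.mpr hn).symm))).1
  rw [← (S.root_sub_one hζ).1] at h
  exact (pow_left_inj₀ zero_le zero_le (by have := S.prime.two_le; omega)).mp h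

/-- `ζ - 1` is nonzero. -/
lemma v_root_sub_one_pos {ζ : Ω} (hζ : IsPrimitiveRoot ζ p) : 0 < v (ζ - 1) :=
  zero_lt_iff.mpr ((Valuation.ne_zero_iff _).mpr
    (sub_ne_zero.mpr (hζ.ne_one S.prime.one_lt)))

/-- `p` is smaller than `ζ - 1`. -/
lemma v_prime_lt_root {ζ : Ω} (hp : 3 ≤ p) (hζ : IsPrimitiveRoot ζ p) :
    v (p : Ω) < v (ζ - 1) := by
  rw [← (S.root_sub_one hζ).1]
  calc v (ζ - 1) ^ (p - 1) < v (ζ - 1) ^ 1 :=
        pow_lt_pow_right_of_lt_one₀ (S.v_root_sub_one_pos hζ)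
          (S.v_root_sub_one_lt hζ.pow_eq_one) (by omega)
    _ = _ := pow_one _

/-- An automorphism sends `ζ` to a power of `ζ` with exponent nonzero modulo `p`. -/
lemma exists_exponent [Fact p.Prime] {ζ : Ω} (hζ : IsPrimitiveRoot ζ p) (σ : Ω ≃ₐ[K] Ω) :
    ∃ n : ZMod p, n ≠ 0 ∧ σ ζ = ζ ^ n.val := by
  obtain ⟨i, hi, he⟩ := hζ.eq_pow_of_pow_eq_one
    (show (σ ζ) ^ p = 1 by rw [← map_pow, hζ.pow_eq_one, map_one])
  have hv : (i : ZMod p).val = i := by rw [ZMod.val_natCast, Nat.mod_eq_of_lt hi]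
  refine ⟨i, fun h => ?_, by rw [hv, he]⟩
  rw [h, ZMod.val_zero] at hv
  rw [← hv, pow_zero] at he
  exact hζ.ne_one S.prime.one_lt (σ.injective (by rw [← he, map_one]))

omit S in
/-- A power of a primitive root with exponent read modulo `p`. -/
lemma pow_val_add [NeZero p] {ζ : Ω} (hζ : ζ ^ p = 1) (i j : ZMod p) :
    ζ ^ (i + j).val = ζ ^ i.val * ζ ^ j.val := by
  rw [ZMod.val_add, ← pow_add]
  exact (pow_eq_pow_mod _ hζ).symm

end LocalSetting

section Multiples

variable {G : Type*} [AddMonoid G] {x : G} (hx : p • x = 0)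

include hx

/-- Multiples of an element killed by `p` depend on the multiplier modulo `p` only. -/
lemma cast_val_nsmul (n : ℕ) : (n : ZMod p).val • x = n • x := by
  rw [ZMod.val_natCast]
  conv_rhs => rw [← Nat.mod_add_div n p, add_nsmul, mul_comm, mul_nsmul', hx, nsmul_zero,
    add_zero]

/-- Multipliers add modulo `p`. -/
lemma val_nsmul_add [NeZero p] (i j : ZMod p) : i.val • x + j.val • x = (i + j).val • x := by
  rw [← add_nsmul, ← cast_val_nsmul hx, Nat.cast_add, ZMod.natCast_zmod_val,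
    ZMod.natCast_zmod_val]

/-- Multipliers multiply modulo `p`. -/
lemma val_nsmul_mul [NeZero p] (i j : ZMod p) : i.val • (j.val • x) = (i * j).val • x := by
  rw [← mul_nsmul', ← cast_val_nsmul hx, Nat.cast_mul, ZMod.natCast_zmod_val,
    ZMod.natCast_zmod_val]

end Multiples

end Fermat.Agent.LowerAtP
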